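import Mathlib

/-!
# S14 / Q3 (S1): the moving lemma

In a Dedekind domain, for nonzero ideals `m` and `J` there is a nonzero `a ∈ J` with
`(a) = J * I` and `I` coprime to `m`.  Hence every ideal class contains an integral ideal
coprime to `m`.
-/

namespace Fermat.Agent.S14

open Ideal
open scoped nonZeroDivisors

set_option linter.unusedSectionVars false

variable {R : Type*} [CommRing R] [IsDedekindDomain R]

/-- **Moving lemma.** For nonzero ideals `m`, `J` of a Dedekind domain there is a nonzero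
`a ∈ J` such that the cofactor `I = (a) J⁻¹` is coprime to `m`. -/
theorem mv_exists_span_eq_mul (m J : Ideal R) (hm : m ≠ ⊥) (hJ : J ≠ ⊥) :
    ∃ a ∈ J, a ≠ 0 ∧ ∃ I : Ideal R, span {a} = J * I ∧ I ⊔ m = ⊤ := by
  by_cases hmt : m = ⊤
  · obtain ⟨a, haJ, ha0⟩ := Submodule.exists_mem_ne_zero_of_ne_bot hJ
    obtain ⟨I, hI⟩ := Ideal.dvd_iff_le.mpr ((Ideal.span_singleton_le_iff_mem _).mpr haJ)
    exact ⟨a, haJ, ha0, I, hI, by rw [hmt]; exact sup_top_eq _⟩
  · have hle : J * m ≤ J := Ideal.mul_le_left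
    have hne : J * m ≠ 0 := mul_ne_zero hJ hm
    obtain ⟨a, ha⟩ := IsDedekindDomain.exists_sup_span_eq hle hne
    have haJ : a ∈ J := by
      rw [← ha]; exact Ideal.mem_sup_right (mem_span_singleton_self a)
    obtain ⟨I, hI⟩ := Ideal.dvd_iff_le.mpr ((Ideal.span_singleton_le_iff_mem _).mpr haJ)
    have hsup : I ⊔ m = ⊤ := by
      have h1 : J * (m ⊔ I) = J * ⊤ := by rw [Ideal.mul_sup, ← hI, ha, Ideal.mul_top]
      have h2 := mul_left_cancel₀ hJ h1
      rw [sup_comm]; exact h2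
    refine ⟨a, haJ, ?_, I, hI, hsup⟩
    rintro rfl
    have h0 : J * I = ⊥ := by rw [← hI]; simp
    have hI0 : I = ⊥ := by
      rcases mul_eq_zero.mp h0 with h | h
      · exact absurd h hJ
      · exact h
    apply hmt
    rw [hI0, bot_sup_eq] at hsup
    exact hsup

/-- Same as `mv_exists_span_eq_mul`, with `IsCoprime` instead of `⊔ = ⊤`. -/
theorem mv_exists_span_eq_mul' (m J : Ideal R) (hm : m ≠ ⊥) (hJ : J ≠ ⊥) :
    ∃ a ∈ J, a ≠ 0 ∧ ∃ I : Ideal R, span {a} = J * I ∧ IsCoprime I m := by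
  obtain ⟨a, haJ, ha0, I, hI, hsup⟩ := mv_exists_span_eq_mul m J hm hJ
  exact ⟨a, haJ, ha0, I, hI, Ideal.isCoprime_iff_sup_eq.mpr hsup⟩

/-- The cofactor in the moving lemma is a nonzero ideal. -/
theorem mv_cofactor_ne_bot {a : R} {J I : Ideal R} (ha : a ≠ 0) (h : span {a} = J * I) :
    I ≠ ⊥ := by
  rintro rfl
  apply ha
  have : span {a} = ⊥ := by rw [h]; simp
  simpa using this

/-- Every ideal class contains an integral ideal coprime to a given nonzero ideal `m`. -/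
theorem mv_exists_mk0_eq (m : Ideal R) (hm : m ≠ ⊥) (C : ClassGroup R) :
    ∃ I : (Ideal R)⁰, ClassGroup.mk0 I = C ∧ (I : Ideal R) ⊔ m = ⊤ := by
  obtain ⟨J, hJ⟩ := ClassGroup.mk0_surjective C⁻¹
  have hJ0 : (J : Ideal R) ≠ ⊥ := nonZeroDivisors.coe_ne_zero J
  obtain ⟨a, -, ha0, I, hI, hsup⟩ := mv_exists_span_eq_mul m (J : Ideal R) hm hJ0
  have hI0 : I ≠ ⊥ := mv_cofactor_ne_bot ha0 hI
  refine ⟨⟨I, mem_nonZeroDivisors_of_ne_zero hI0⟩, ?_, hsup⟩
  have hprin : ClassGroup.mk0 (J * ⟨I, mem_nonZeroDivisors_of_ne_zero hI0⟩) = 1 := by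
    have hmem : (J : Ideal R) * I ∈ (Ideal R)⁰ :=
      mem_nonZeroDivisors_of_ne_zero (mul_ne_zero hJ0 hI0)
    have : (J * ⟨I, mem_nonZeroDivisors_of_ne_zero hI0⟩ : (Ideal R)⁰) =
        ⟨(J : Ideal R) * I, hmem⟩ := rfl
    rw [this, ClassGroup.mk0_eq_one_iff hmem, ← hI]
    exact ⟨⟨a, rfl⟩⟩
  rw [map_mul, hJ] at hprin
  exact (inv_mul_eq_one.mp hprin).symm ▸ rfl

/-- Every ideal class contains an integral ideal coprime to a given nonzero ideal `m`
(`IsCoprime` form). -/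
theorem mv_exists_mk0_eq' (m : Ideal R) (hm : m ≠ ⊥) (C : ClassGroup R) :
    ∃ I : (Ideal R)⁰, ClassGroup.mk0 I = C ∧ IsCoprime (I : Ideal R) m := by
  obtain ⟨I, hI, hsup⟩ := mv_exists_mk0_eq m hm C
  exact ⟨I, hI, Ideal.isCoprime_iff_sup_eq.mpr hsup⟩

end Fermat.Agent.S14
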