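import Mathlib

/-!
# Counting lattice points with a power-saving error term (S14, block Q1)

`lc_core`: for a lattice `Λ = span ℤ (range b)` in a finite dimensional real normed space and a
bounded measurable set `S` whose frontier is covered by `J.card` closed balls of radius `1`, the
number of lattice points in `S` differs from `μ S / μ (fundamental domain)` by at most
`J.card * M`, with `M` depending only on the lattice.
-/

set_option autoImplicit false
set_option linter.unusedSectionVars false

namespace Fermat.Agent.S14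

open MeasureTheory Metric Set Module Bornology Pointwise ZSpan
open scoped ENNReal



/-- A preconnected set meeting both `S` and its complement meets the frontier of `S`. -/
theorem lc_preconnected_inter_frontier {X : Type*} [TopologicalSpace X] {T S : Set X}
    (hT : IsPreconnected T) (h1 : (T ∩ S).Nonempty) (h2 : (T ∩ Sᶜ).Nonempty) :
    (T ∩ frontier S).Nonempty := by
  by_contra hne
  rw [Set.not_nonempty_iff_eq_empty] at hne
  have hsub : T ⊆ interior S ∪ interior Sᶜ := by
    intro x hx
    by_cases hxi : x ∈ interior S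
    · exact Or.inl hxi
    · right
      rw [interior_compl]
      intro hxc
      have : x ∈ T ∩ frontier S := ⟨hx, hxc, hxi⟩
      rw [hne] at this
      exact this
  have hdisj : Disjoint (interior S) (interior Sᶜ) :=
    Set.disjoint_of_subset interior_subset interior_subset disjoint_compl_right
  rcases hT.subset_or_subset isOpen_interior isOpen_interior hdisj hsub with h | h
  · obtain ⟨x, hxT, hxS⟩ := h2
    exact hxS (interior_subset (h hxT))
  · obtain ⟨x, hxT, hxS⟩ := h1
    exact (interior_subset (h hxT)) hxS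



section Cells

variable {E : Type*} [NormedAddCommGroup E] [NormedSpace ℝ E] [FiniteDimensional ℝ E]
  [MeasurableSpace E] [BorelSpace E]
variable {ι : Type*} [Fintype ι] (b : Basis ι ℝ E)

/-- the lattice point attached to a point: its "floor" -/
noncomputable def lcFloor (z : E) : E := (ZSpan.floor b z : E)

theorem lcFloor_mem (z : E) : lcFloor b z ∈ Submodule.span ℤ (Set.range b) :=
  (ZSpan.floor b z).2

theorem lcFloor_sub_mem (z : E) : z - lcFloor b z ∈ fundamentalDomain b := by
  have := ZSpan.fract_mem_fundamentalDomain b z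
  rwa [ZSpan.fract_apply] at this

theorem lcFloor_dist_le (z : E) : dist z (lcFloor b z) ≤ ∑ i, ‖b i‖ := by
  rw [dist_eq_norm]
  have := ZSpan.norm_fract_le b z
  rwa [ZSpan.fract_apply] at this

theorem lcFloor_eq_of_sub_mem {z a : E} (ha : a ∈ Submodule.span ℤ (Set.range b))
    (h : z - a ∈ fundamentalDomain b) : lcFloor b z = a := by
  have h1 : ZSpan.fract b (z - a) = z - a := (ZSpan.fract_eq_self).2 h
  have h2 : ZSpan.fract b (z - a) = ZSpan.fract b z := by
    rw [sub_eq_add_neg]
    exact ZSpan.fract_add_ZSpan b z (Submodule.neg_mem _ ha)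
  rw [h2, ZSpan.fract_apply] at h1
  have : (ZSpan.floor b z : E) = a := by
    have := sub_right_injective h1
    exact this
  exact this

theorem lcFloor_self {a : E} (ha : a ∈ Submodule.span ℤ (Set.range b)) : lcFloor b a = a :=
  ZSpan.floor_eq_self_of_mem b a ha

/-- the cell of a lattice point -/
def lcCell (a : E) : Set E := {z | z - a ∈ fundamentalDomain b}

theorem lcCell_eq_fiber {a : E} (ha : a ∈ Submodule.span ℤ (Set.range b)) :
    lcCell b a = {z | lcFloor b z = a} := by
  ext z
  constructor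
  · intro hz
    exact lcFloor_eq_of_sub_mem b ha hz
  · intro hz
    simp only [Set.mem_ofPred_eq] at hz
    rw [← hz]
    exact lcFloor_sub_mem b z

theorem lcCell_measurable (a : E) : MeasurableSet (lcCell b a) := by
  have : lcCell b a = (fun z => z - a) ⁻¹' fundamentalDomain b := rfl
  rw [this]
  exact (measurable_sub_const a) (fundamentalDomain_measurableSet b)

theorem lcCell_measure (μ : Measure E) [μ.IsAddHaarMeasure] (a : E) :
    μ (lcCell b a) = μ (fundamentalDomain b) := by
  have : lcCell b a = (fun z => z + (-a)) ⁻¹' fundamentalDomain b := by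
    ext z; simp [lcCell, sub_eq_add_neg]
  rw [this, measure_preimage_add_right]

theorem lcCell_disjoint {a a' : E} (ha : a ∈ Submodule.span ℤ (Set.range b))
    (ha' : a' ∈ Submodule.span ℤ (Set.range b)) (hne : a ≠ a') :
    Disjoint (lcCell b a) (lcCell b a') := by
  rw [Set.disjoint_left]
  intro z hz hz'
  exact hne ((lcFloor_eq_of_sub_mem b ha hz).symm.trans (lcFloor_eq_of_sub_mem b ha' hz'))

/-- measure of a finite union of cells -/
theorem lcCell_measure_biUnion (μ : Measure E) [μ.IsAddHaarMeasure] (A : Finset E)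
    (hA : ∀ a ∈ A, a ∈ Submodule.span ℤ (Set.range b)) :
    μ (⋃ a ∈ A, lcCell b a) = A.card * μ (fundamentalDomain b) := by
  rw [measure_biUnion_finset]
  · simp [lcCell_measure]
  · intro a ha a' ha' hne
    exact lcCell_disjoint b (hA a ha) (hA a' ha') hne
  · intro a _
    exact lcCell_measurable b a

end Cells



section Core

variable {E : Type*} [NormedAddCommGroup E] [NormedSpace ℝ E] [FiniteDimensional ℝ E]
  [MeasurableSpace E] [BorelSpace E]
variable {ι : Type*} [Fintype ι] (b : Basis ι ℝ E) (μ : Measure E) [μ.IsAddHaarMeasure]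

theorem lc_toReal_le {n : ℕ} {x y : ℝ≥0∞} (hy : y ≠ ⊤) (h : (n : ℝ≥0∞) * x ≤ y) :
    (n : ℝ) * x.toReal ≤ y.toReal := by
  have := ENNReal.toReal_mono hy h
  simpa [ENNReal.toReal_mul] using this

theorem lc_toReal_le' {n : ℕ} {x y : ℝ≥0∞} (hy : y ≠ ⊤) (h : x ≤ (n : ℝ≥0∞) * y) :
    x.toReal ≤ (n : ℝ) * y.toReal := by
  have : (n : ℝ≥0∞) * y ≠ ⊤ := ENNReal.mul_ne_top (ENNReal.natCast_ne_top n) hy
  have := ENNReal.toReal_mono this h
  simpa [ENNReal.toReal_mul] using this

theorem lcCell_subset_closedBall (a : E) (ha : a ∈ Submodule.span ℤ (Set.range b)) :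
    lcCell b a ⊆ closedBall a (∑ i, ‖b i‖) := by
  intro z hz
  have h1 : lcFloor b z = a := lcFloor_eq_of_sub_mem b ha hz
  have h2 := lcFloor_dist_le b z
  rw [h1] at h2
  exact mem_closedBall.2 h2

theorem lc_self_mem_cell (a : E) : a ∈ lcCell b a := by
  simp only [lcCell, Set.mem_ofPred_eq, sub_self]
  rw [ZSpan.mem_fundamentalDomain]
  intro i
  simp

/-- number of lattice points in a ball -/
theorem lc_card_le_of_subset_closedBall (A : Finset E)
    (hA : ∀ a ∈ A, a ∈ Submodule.span ℤ (Set.range b)) (y : E) (R : ℝ)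
    (hAy : ∀ a ∈ A, a ∈ closedBall y R) :
    (A.card : ℝ≥0∞) * μ (fundamentalDomain b) ≤ μ (closedBall 0 (R + ∑ i, ‖b i‖)) := by
  rw [← lcCell_measure_biUnion b μ A hA, ← Measure.addHaar_closedBall_center μ y]
  apply measure_mono
  intro z hz
  simp only [Set.mem_iUnion] at hz
  obtain ⟨a, ha, hz⟩ := hz
  have h1 := lcCell_subset_closedBall b a (hA a ha) hz
  have h2 := hAy a ha
  rw [mem_closedBall] at h1 h2 ⊢
  calc dist z y ≤ dist z a + dist a y := dist_triangle _ _ _
    _ ≤ (∑ i, ‖b i‖) + R := add_le_add h1 h2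
    _ = R + ∑ i, ‖b i‖ := add_comm _ _





/-- **Core counting lemma**: the number of lattice points in a bounded measurable set `S`
differs from `μ S / covolume` by at most (number of unit balls covering the frontier) times a
constant depending only on the lattice. -/
theorem lc_core (S : Set E) (hS : IsBounded S) (J : Finset E)
    (hJ : frontier S ⊆ ⋃ y ∈ J, closedBall y 1) :
    |(Nat.card ↥(S ∩ (Submodule.span ℤ (Set.range b) : Set E)) : ℝ)
        - μ.real S / μ.real (fundamentalDomain b)|
      ≤ J.card * (μ.real (closedBall 0 (1 + 2 * ∑ i, ‖b i‖)) / μ.real (fundamentalDomain b)) := by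
  classical
  set δ : ℝ := ∑ i, ‖b i‖ with hδ
  have hδ0 : 0 ≤ δ := Finset.sum_nonneg fun i _ => norm_nonneg _
  set F := fundamentalDomain b with hF
  have hFtop : μ F ≠ ⊤ := (fundamentalDomain_isBounded b).measure_lt_top.ne
  have hF0 : μ F ≠ 0 := measure_fundamentalDomain_ne_zero b
  have hfpos : 0 < μ.real F := ENNReal.toReal_pos hF0 hFtop
  have hStop : μ S ≠ ⊤ := hS.measure_lt_top.ne
  obtain ⟨R, hR⟩ := hS.subset_closedBall (0 : E)
  have hfin : ((closedBall (0 : E) (R + δ)) ∩ (Submodule.span ℤ (Set.range b) : Set E)).Finite :=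
    ZSpan.setFinite_inter b isBounded_closedBall
  set big : Finset E := hfin.toFinset with hbig
  have mem_big : ∀ a, a ∈ big ↔ a ∈ closedBall (0 : E) (R + δ) ∧
      a ∈ Submodule.span ℤ (Set.range b) := by
    intro a
    rw [hbig, Set.Finite.mem_toFinset]
    rfl
  have big_lat : ∀ a ∈ big, a ∈ Submodule.span ℤ (Set.range b) := fun a ha => ((mem_big a).1 ha).2
  set Ain : Finset E := big.filter (fun a => lcCell b a ⊆ S) with hAin
  set Amid : Finset E := big.filter (fun a => a ∈ S) with hAmid
  set Ameet : Finset E := big.filter (fun a => (lcCell b a ∩ S).Nonempty) with hAmeet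
  have h_in_mid : Ain ⊆ Amid := by
    intro a ha
    rw [hAin, Finset.mem_filter] at ha
    rw [hAmid, Finset.mem_filter]
    exact ⟨ha.1, ha.2 (lc_self_mem_cell b a)⟩
  have h_mid_meet : Amid ⊆ Ameet := by
    intro a ha
    rw [hAmid, Finset.mem_filter] at ha
    rw [hAmeet, Finset.mem_filter]
    exact ⟨ha.1, ⟨a, lc_self_mem_cell b a, ha.2⟩⟩
  have hset : S ∩ (Submodule.span ℤ (Set.range b) : Set E) = ↑Amid := by
    ext a
    simp only [Set.mem_inter_iff, SetLike.mem_coe, hAmid, Finset.coe_filter, Set.mem_ofPred_eq,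
      mem_big]
    constructor
    · rintro ⟨h1, h2⟩
      refine ⟨⟨?_, h2⟩, h1⟩
      have := hR h1
      rw [mem_closedBall] at this ⊢
      linarith
    · rintro ⟨⟨_, h2⟩, h1⟩
      exact ⟨h1, h2⟩
  have hcard : (Nat.card ↥(S ∩ (Submodule.span ℤ (Set.range b) : Set E)) : ℝ) = Amid.card := by
    rw [hset, Nat.card_coe_set_eq, Set.ncard_coe_finset]
  -- (1)
  have h1 : (Ain.card : ℝ) * μ.real F ≤ μ.real S := by
    apply lc_toReal_le hStop
    rw [← lcCell_measure_biUnion b μ Ain (fun a ha => big_lat a (Finset.mem_of_mem_filter a ha))]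
    apply measure_mono
    intro z hz
    simp only [Set.mem_iUnion] at hz
    obtain ⟨a, ha, hz⟩ := hz
    rw [hAin, Finset.mem_filter] at ha
    exact ha.2 hz
  -- (2)
  have h2 : μ.real S ≤ (Ameet.card : ℝ) * μ.real F := by
    apply lc_toReal_le' hFtop
    rw [← lcCell_measure_biUnion b μ Ameet (fun a ha => big_lat a (Finset.mem_of_mem_filter a ha))]
    apply measure_mono
    intro z hz
    simp only [Set.mem_iUnion]
    refine ⟨lcFloor b z, ?_, lcFloor_sub_mem b z⟩
    rw [hAmeet, Finset.mem_filter, mem_big]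
    refine ⟨⟨?_, lcFloor_mem b z⟩, ⟨z, lcFloor_sub_mem b z, hz⟩⟩
    have h3 := hR hz
    have h4 := lcFloor_dist_le b z
    rw [mem_closedBall] at h3 ⊢
    calc dist (lcFloor b z) 0 ≤ dist (lcFloor b z) z + dist z 0 := dist_triangle _ _ _
      _ ≤ δ + R := add_le_add (by rw [dist_comm]; exact h4) h3
      _ = R + δ := add_comm _ _
  -- (3)
  have h3 : ((Ameet \ Ain).card : ℝ) * μ.real F
      ≤ J.card * μ.real (closedBall (0 : E) (1 + 2 * δ)) := by
    have hsub : Ameet \ Ain ⊆ J.biUnion (fun y => big.filter (fun a => a ∈ closedBall y (1 + δ))) := by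
      intro a ha
      rw [Finset.mem_sdiff] at ha
      obtain ⟨ha1, ha2⟩ := ha
      rw [hAmeet, Finset.mem_filter] at ha1
      obtain ⟨habig, z1, hz1, hz1S⟩ := ha1
      have ha2' : ¬ lcCell b a ⊆ S := by
        intro h
        exact ha2 (by rw [hAin, Finset.mem_filter]; exact ⟨habig, h⟩)
      obtain ⟨z2, hz2, hz2S⟩ := Set.not_subset.1 ha2'
      have hcell := lcCell_subset_closedBall b a (big_lat a habig)
      obtain ⟨z, hzB, hzfr⟩ := lc_preconnected_inter_frontier
        (isPreconnected_closedBall (x := a) (r := δ)) ⟨z1, hcell hz1, hz1S⟩ ⟨z2, hcell hz2, hz2S⟩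
      have := hJ hzfr
      simp only [Set.mem_iUnion] at this
      obtain ⟨y, hy, hzy⟩ := this
      rw [Finset.mem_biUnion]
      refine ⟨y, hy, ?_⟩
      rw [Finset.mem_filter]
      refine ⟨habig, ?_⟩
      rw [mem_closedBall] at hzB hzy ⊢
      calc dist a y ≤ dist a z + dist z y := dist_triangle _ _ _
        _ ≤ δ + 1 := add_le_add (by rw [dist_comm]; exact hzB) hzy
        _ = 1 + δ := add_comm _ _
    have hcardle : ((Ameet \ Ain).card : ℝ) ≤
        ∑ y ∈ J, ((big.filter (fun a => a ∈ closedBall y (1 + δ))).card : ℝ) := by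
      have := (Finset.card_le_card hsub).trans Finset.card_biUnion_le
      exact_mod_cast this
    have hball : ∀ y ∈ J, ((big.filter (fun a => a ∈ closedBall y (1 + δ))).card : ℝ) * μ.real F
        ≤ μ.real (closedBall (0 : E) (1 + 2 * δ)) := by
      intro y _
      apply lc_toReal_le (isBounded_closedBall.measure_lt_top.ne)
      have := lc_card_le_of_subset_closedBall b μ
        (big.filter (fun a => a ∈ closedBall y (1 + δ)))
        (fun a ha => big_lat a (Finset.mem_of_mem_filter a ha)) y (1 + δ)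
        (fun a ha => (Finset.mem_filter.1 ha).2)
      have h2δ : 1 + δ + δ = 1 + 2 * δ := by ring
      rwa [← hδ, h2δ] at this
    calc ((Ameet \ Ain).card : ℝ) * μ.real F
        ≤ (∑ y ∈ J, ((big.filter (fun a => a ∈ closedBall y (1 + δ))).card : ℝ)) * μ.real F :=
          mul_le_mul_of_nonneg_right hcardle hfpos.le
      _ = ∑ y ∈ J, ((big.filter (fun a => a ∈ closedBall y (1 + δ))).card : ℝ) * μ.real F :=
          Finset.sum_mul _ _ _
      _ ≤ ∑ y ∈ J, μ.real (closedBall (0 : E) (1 + 2 * δ)) := Finset.sum_le_sum hball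
      _ = J.card * μ.real (closedBall (0 : E) (1 + 2 * δ)) := by
          rw [Finset.sum_const, nsmul_eq_mul]
  -- conclusion
  rw [hcard]
  have hsd : ((Ameet \ Ain).card : ℝ) = Ameet.card - Ain.card :=
    Finset.cast_card_sdiff (h_in_mid.trans h_mid_meet)
  have hA1 : (Ain.card : ℝ) ≤ Amid.card := by exact_mod_cast Finset.card_le_card h_in_mid
  have hA2 : (Amid.card : ℝ) ≤ Ameet.card := by exact_mod_cast Finset.card_le_card h_mid_meet
  have hq1 : (Ain.card : ℝ) ≤ μ.real S / μ.real F := by
    rw [le_div_iff₀ hfpos]; exact h1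
  have hq2 : μ.real S / μ.real F ≤ Ameet.card := by
    rw [div_le_iff₀ hfpos]; exact h2
  have hq3 : (Ameet.card : ℝ) - Ain.card
      ≤ J.card * (μ.real (closedBall (0 : E) (1 + 2 * δ)) / μ.real F) := by
    rw [← hsd, ← mul_div_assoc, le_div_iff₀ hfpos]
    exact h3
  rw [abs_le]
  constructor <;> linarith

end Core


/-- `B` can be covered by `≤ C m^d` closed balls of radius `1/m`, for every `m ≥ 1`. -/
def HasCoveringDim {X : Type*} [PseudoMetricSpace X] (d : ℕ) (B : Set X) : Prop :=
  ∃ C : ℝ, ∀ m : ℕ, 0 < m → ∃ T : Finset X, (T.card : ℝ) ≤ C * (m : ℝ) ^ d ∧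
    B ⊆ ⋃ y ∈ T, closedBall y (1 / (m : ℝ))

section Main

variable {E : Type*} [NormedAddCommGroup E] [NormedSpace ℝ E] [FiniteDimensional ℝ E]
  [MeasurableSpace E] [BorelSpace E]
variable {ι : Type*} [Fintype ι] (b : Basis ι ℝ E) (μ : Measure E) [μ.IsAddHaarMeasure]

theorem lc_main (D : Set E) (hD : IsBounded D) (d : ℕ) (hfr : HasCoveringDim d (frontier D)) :
    ∃ C : ℝ, ∀ t : ℝ, 1 ≤ t → ∀ v : E,
      |(Nat.card ↥((t • D) ∩ (v +ᵥ (Submodule.span ℤ (Set.range b) : Set E))) : ℝ)
          - μ.real D * t ^ finrank ℝ E / μ.real (fundamentalDomain b)| ≤ C * t ^ d := by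
  classical
  obtain ⟨C₀, hC₀⟩ := hfr
  set M : ℝ := μ.real (closedBall (0 : E) (1 + 2 * ∑ i, ‖b i‖)) / μ.real (fundamentalDomain b)
    with hM
  have hM0 : 0 ≤ M := div_nonneg measureReal_nonneg measureReal_nonneg
  refine ⟨max C₀ 0 * 2 ^ d * M, fun t ht v => ?_⟩
  have ht0 : 0 < t := lt_of_lt_of_le one_pos ht
  set m : ℕ := ⌈t⌉₊ with hm
  have hmpos : 0 < m := Nat.ceil_pos.2 ht0
  have htm : t ≤ m := Nat.le_ceil t
  have hm2 : (m : ℝ) ≤ 2 * t := by
    have := (Nat.ceil_lt_add_one ht0.le).le
    linarith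
  obtain ⟨T, hTcard, hTcov⟩ := hC₀ m hmpos
  set S : Set E := (fun z => z + v) ⁻¹' (t • D) with hS
  set J : Finset E := T.image (fun y => t • y - v) with hJ
  have hSbdd : IsBounded S := by
    have h1 : IsBounded (t • D) := hD.smul₀ t
    have : S = (fun z => z + (-v)) '' (t • D) := by
      ext z
      simp only [hS, Set.mem_preimage, Set.mem_image]
      constructor
      · intro hz
        exact ⟨z + v, hz, by simp⟩
      · rintro ⟨w, hw, rfl⟩
        simpa using hw
    rw [this]
    have : (fun z : E => z + (-v)) '' (t • D) = (t • D) + {-v} := by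
      ext z; simp
    rw [this]
    exact h1.add isBounded_singleton
  have hfront : frontier S ⊆ ⋃ y ∈ J, closedBall y 1 := by
    intro z hz
    have h1 : frontier S = (fun z => z + v) ⁻¹' (frontier (t • D)) := by
      rw [hS]
      exact ((Homeomorph.addRight v).preimage_frontier (t • D)).symm
    have h2 : frontier (t • D) = t • frontier D := by
      have := (Homeomorph.smulOfNeZero t ht0.ne').image_frontier D
      simpa [Set.image_smul] using this.symm
    rw [h1, h2, Set.mem_preimage, Set.mem_smul_set] at hz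
    obtain ⟨w, hw, hwz⟩ := hz
    have := hTcov hw
    simp only [Set.mem_iUnion] at this
    obtain ⟨y, hy, hwy⟩ := this
    simp only [Set.mem_iUnion]
    refine ⟨t • y - v, Finset.mem_image_of_mem _ hy, ?_⟩
    rw [mem_closedBall, dist_eq_norm] at hwy ⊢
    have hz' : z = t • w - v := by rw [hwz]; simp
    rw [hz']
    have : t • w - v - (t • y - v) = t • (w - y) := by rw [smul_sub]; abel
    rw [this, norm_smul, Real.norm_eq_abs, abs_of_pos ht0]
    calc t * ‖w - y‖ ≤ t * (1 / (m : ℝ)) := mul_le_mul_of_nonneg_left hwy ht0.le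
      _ ≤ 1 := by
        rw [mul_one_div, div_le_one (by exact_mod_cast hmpos)]
        exact htm
  have hcore := lc_core b μ S hSbdd J hfront
  have hcard : Nat.card ↥((t • D) ∩ (v +ᵥ (Submodule.span ℤ (Set.range b) : Set E)))
      = Nat.card ↥(S ∩ (Submodule.span ℤ (Set.range b) : Set E)) := by
    rw [Nat.card_coe_set_eq, Nat.card_coe_set_eq]
    have : S ∩ (Submodule.span ℤ (Set.range b) : Set E)
        = (fun z => z + v) ⁻¹' ((t • D) ∩ (v +ᵥ (Submodule.span ℤ (Set.range b) : Set E))) := by
      ext z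
      simp only [hS, Set.mem_inter_iff, Set.mem_preimage, SetLike.mem_coe, Set.mem_vadd_set,
        vadd_eq_add]
      constructor
      · rintro ⟨h1, h2⟩
        exact ⟨h1, z, h2, add_comm _ _⟩
      · rintro ⟨h1, l, hl, hlz⟩
        refine ⟨h1, ?_⟩
        have : z = l := by
          have := hlz
          rw [add_comm] at this
          exact (add_right_cancel this).symm
        rwa [this]
    rw [this]
    symm
    apply Set.ncard_preimage_of_injective_subset_range (add_left_injective v)
    intro z _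
    exact ⟨z - v, by simp⟩
  have hvol : μ.real S = t ^ finrank ℝ E * μ.real D := by
    rw [hS, measureReal_def, measure_preimage_add_right, Measure.addHaar_smul_of_nonneg μ ht0.le,
      ENNReal.toReal_mul, ENNReal.toReal_ofReal (pow_nonneg ht0.le _), measureReal_def]
  rw [hcard, mul_comm (μ.real D), ← hvol]
  refine hcore.trans ?_
  have hJcard : (J.card : ℝ) ≤ max C₀ 0 * 2 ^ d * t ^ d := by
    calc (J.card : ℝ) ≤ T.card := by exact_mod_cast Finset.card_image_le
      _ ≤ C₀ * (m : ℝ) ^ d := hTcard
      _ ≤ max C₀ 0 * (m : ℝ) ^ d := by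
          apply mul_le_mul_of_nonneg_right (le_max_left _ _) (by positivity)
      _ ≤ max C₀ 0 * (2 * t) ^ d := by
          apply mul_le_mul_of_nonneg_left _ (le_max_right _ _)
          exact pow_le_pow_left₀ (by positivity) hm2 d
      _ = max C₀ 0 * 2 ^ d * t ^ d := by rw [mul_pow]; ring
  calc (J.card : ℝ) * M ≤ (max C₀ 0 * 2 ^ d * t ^ d) * M := mul_le_mul_of_nonneg_right hJcard hM0
    _ = max C₀ 0 * 2 ^ d * M * t ^ d := by ring

end Main


section Lattice

variable {E : Type*} [NormedAddCommGroup E] [NormedSpace ℝ E] [FiniteDimensional ℝ E]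
  [MeasurableSpace E] [BorelSpace E]
variable (L : Submodule ℤ E) [DiscreteTopology L] [IsZLattice ℝ L]
  (μ : Measure E) [μ.IsAddHaarMeasure]

/-- **Lattice point counting with power saving** (translated lattice, dilated region). -/
theorem lc_main_lattice (D : Set E) (hD : IsBounded D) (d : ℕ)
    (hfr : HasCoveringDim d (frontier D)) :
    ∃ C : ℝ, ∀ t : ℝ, 1 ≤ t → ∀ v : E,
      |(Nat.card ↥((t • D) ∩ (v +ᵥ (L : Set E))) : ℝ)
          - μ.real D * t ^ finrank ℝ E / ZLattice.covolume L μ| ≤ C * t ^ d := by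
  set b₀ := Module.Free.chooseBasis ℤ L with hb₀
  have hspan : Submodule.span ℤ (Set.range (b₀.ofZLatticeBasis ℝ L)) = L :=
    b₀.ofZLatticeBasis_span ℝ
  have hcov : ZLattice.covolume L μ = μ.real (fundamentalDomain (b₀.ofZLatticeBasis ℝ L)) :=
    ZLattice.covolume_eq_measure_fundamentalDomain L μ (ZLattice.isAddFundamentalDomain b₀ μ)
  have := lc_main (b₀.ofZLatticeBasis ℝ L) μ D hD d hfr
  rw [hspan, ← hcov] at this
  exact this

end Lattice


end Fermat.Agent.S14
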