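import Mathlib
import Fermat.Agent.S14.Count.LipschitzCount

/-!
# Covering dimension toolkit (S14, block Q1/Q2)

Stability properties of `HasCoveringDim`: subsets, unions, Lipschitz images, products, bounded
subsets of the real line.
-/

set_option autoImplicit false
set_option linter.unusedSectionVars false

namespace Fermat.Agent.S14

open Metric Set
open scoped NNReal

namespace HasCoveringDim

variable {X : Type*} [PseudoMetricSpace X]

theorem exists_nonneg {d : ℕ} {B : Set X} (h : HasCoveringDim d B) :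
    ∃ C : ℝ, 0 ≤ C ∧ ∀ m : ℕ, 0 < m → ∃ T : Finset X, (T.card : ℝ) ≤ C * (m : ℝ) ^ d ∧
      B ⊆ ⋃ y ∈ T, closedBall y (1 / (m : ℝ)) := by
  obtain ⟨C, hC⟩ := h
  refine ⟨max C 0, le_max_right _ _, fun m hm => ?_⟩
  obtain ⟨T, hT, hB⟩ := hC m hm
  exact ⟨T, hT.trans (mul_le_mul_of_nonneg_right (le_max_left _ _) (by positivity)), hB⟩

theorem mono {d : ℕ} {B B' : Set X} (hBB : B' ⊆ B) (h : HasCoveringDim d B) :
    HasCoveringDim d B' := by
  obtain ⟨C, hC⟩ := h
  refine ⟨C, fun m hm => ?_⟩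
  obtain ⟨T, hT, hB⟩ := hC m hm
  exact ⟨T, hT, hBB.trans hB⟩

theorem mono_dim {d d' : ℕ} {B : Set X} (hdd : d ≤ d') (h : HasCoveringDim d B) :
    HasCoveringDim d' B := by
  obtain ⟨C, hC0, hC⟩ := h.exists_nonneg
  refine ⟨C, fun m hm => ?_⟩
  obtain ⟨T, hT, hB⟩ := hC m hm
  refine ⟨T, hT.trans ?_, hB⟩
  apply mul_le_mul_of_nonneg_left _ hC0
  apply pow_le_pow_right₀ _ hdd
  exact_mod_cast hm

theorem empty (d : ℕ) : HasCoveringDim d (∅ : Set X) :=
  ⟨0, fun _ _ => ⟨∅, by simp, by simp⟩⟩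

theorem singleton (x : X) : HasCoveringDim 0 ({x} : Set X) := by
  refine ⟨1, fun m hm => ⟨{x}, by simp, ?_⟩⟩
  intro y hy
  rw [Set.mem_singleton_iff] at hy
  simp only [Finset.mem_singleton, Set.iUnion_iUnion_eq_left, hy]
  exact mem_closedBall_self (by positivity)

theorem union {d : ℕ} {A B : Set X} (hA : HasCoveringDim d A) (hB : HasCoveringDim d B) :
    HasCoveringDim d (A ∪ B) := by
  classical
  obtain ⟨C₁, hC₁⟩ := hA
  obtain ⟨C₂, hC₂⟩ := hB
  refine ⟨C₁ + C₂, fun m hm => ?_⟩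
  obtain ⟨T₁, hT₁, hB₁⟩ := hC₁ m hm
  obtain ⟨T₂, hT₂, hB₂⟩ := hC₂ m hm
  refine ⟨T₁ ∪ T₂, ?_, ?_⟩
  · calc ((T₁ ∪ T₂).card : ℝ) ≤ (T₁.card : ℝ) + T₂.card := by
          exact_mod_cast Finset.card_union_le T₁ T₂
      _ ≤ C₁ * (m : ℝ) ^ d + C₂ * (m : ℝ) ^ d := add_le_add hT₁ hT₂
      _ = (C₁ + C₂) * (m : ℝ) ^ d := by ring
  · intro x hx
    simp only [Set.mem_iUnion, Finset.mem_union]
    rcases hx with hx | hx
    · have := hB₁ hx
      simp only [Set.mem_iUnion] at this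
      obtain ⟨y, hy, hxy⟩ := this
      exact ⟨y, Or.inl hy, hxy⟩
    · have := hB₂ hx
      simp only [Set.mem_iUnion] at this
      obtain ⟨y, hy, hxy⟩ := this
      exact ⟨y, Or.inr hy, hxy⟩

theorem biUnion_finset {ι : Type*} {d : ℕ} (s : Finset ι) {B : ι → Set X}
    (h : ∀ i ∈ s, HasCoveringDim d (B i)) : HasCoveringDim d (⋃ i ∈ s, B i) := by
  classical
  induction s using Finset.induction_on with
  | empty => simpa using empty d
  | insert a s ha ih =>
    rw [Finset.set_biUnion_insert]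
    exact (h a (Finset.mem_insert_self a s)).union
      (ih fun i hi => h i (Finset.mem_insert_of_mem hi))

theorem iUnion {ι : Type*} [Finite ι] {d : ℕ} {B : ι → Set X}
    (h : ∀ i, HasCoveringDim d (B i)) : HasCoveringDim d (⋃ i, B i) := by
  have := Fintype.ofFinite ι
  have := biUnion_finset (Finset.univ : Finset ι) (B := B) (fun i _ => h i)
  simpa using this

/-- Lipschitz images do not increase the covering dimension. -/
theorem image_lipschitzOn {Y : Type*} [PseudoMetricSpace Y] {d : ℕ} {B : Set X} {f : X → Y}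
    {K : ℝ≥0} (hf : LipschitzOnWith K f B) (h : HasCoveringDim d B) :
    HasCoveringDim d (f '' B) := by
  classical
  rcases B.eq_empty_or_nonempty with rfl | ⟨x₀, hx₀⟩
  · rw [Set.image_empty]
    exact ⟨0, fun _ _ => ⟨∅, by simp, by simp⟩⟩
  obtain ⟨C, hC0, hC⟩ := h.exists_nonneg
  set k : ℕ := ⌈2 * (K : ℝ)⌉₊ + 1 with hk
  have hkpos : 0 < k := Nat.succ_pos _
  have hk2 : 2 * (K : ℝ) ≤ k := by
    rw [hk]; push_cast
    exact (Nat.le_ceil _).trans (by linarith)
  refine ⟨C * (k : ℝ) ^ d, fun m hm => ?_⟩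
  obtain ⟨T, hT, hB⟩ := hC (m * k) (Nat.mul_pos hm hkpos)
  set r : ℝ := 1 / ((m * k : ℕ) : ℝ) with hr
  let g : X → Y := fun y =>
    f (if h : (closedBall y r ∩ B).Nonempty then h.choose else x₀)
  refine ⟨T.image g, ?_, ?_⟩
  · calc ((T.image g).card : ℝ) ≤ T.card := by exact_mod_cast Finset.card_image_le
      _ ≤ C * ((m * k : ℕ) : ℝ) ^ d := hT
      _ = C * (k : ℝ) ^ d * (m : ℝ) ^ d := by push_cast; rw [mul_pow]; ring
  · rintro _ ⟨x, hx, rfl⟩
    have := hB hx
    simp only [Set.mem_iUnion] at this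
    obtain ⟨y, hy, hxy⟩ := this
    simp only [Set.mem_iUnion]
    refine ⟨g y, Finset.mem_image_of_mem g hy, ?_⟩
    have hne : (closedBall y r ∩ B).Nonempty := ⟨x, hxy, hx⟩
    have hg : g y = f hne.choose := by
      simp only [g, dif_pos hne]
    obtain ⟨hz1, hz2⟩ := hne.choose_spec
    rw [hg, mem_closedBall]
    have hmk : (0 : ℝ) < ((m * k : ℕ) : ℝ) := by exact_mod_cast Nat.mul_pos hm hkpos
    have hmpos : (0 : ℝ) < m := by exact_mod_cast hm
    have hkpos' : (0 : ℝ) < k := by exact_mod_cast hkpos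
    calc dist (f x) (f hne.choose) ≤ K * dist x hne.choose := hf.dist_le_mul x hx _ hz2
      _ ≤ K * (r + r) := by
          apply mul_le_mul_of_nonneg_left _ K.2
          calc dist x hne.choose ≤ dist x y + dist y hne.choose := dist_triangle _ _ _
            _ ≤ r + r := add_le_add (mem_closedBall.1 hxy)
                (by rw [dist_comm]; exact mem_closedBall.1 hz1)
      _ = (2 * K) * r := by ring
      _ ≤ k * r := mul_le_mul_of_nonneg_right hk2 (by positivity)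
      _ = 1 / m := by
          rw [hr]; push_cast; field_simp

/-- products -/
theorem prod {Y : Type*} [PseudoMetricSpace Y] {d₁ d₂ : ℕ} {A : Set X} {B : Set Y}
    (hA : HasCoveringDim d₁ A) (hB : HasCoveringDim d₂ B) :
    HasCoveringDim (d₁ + d₂) (A ×ˢ B) := by
  classical
  obtain ⟨C₁, hC₁0, hC₁⟩ := hA.exists_nonneg
  obtain ⟨C₂, hC₂0, hC₂⟩ := hB.exists_nonneg
  refine ⟨C₁ * C₂, fun m hm => ?_⟩
  obtain ⟨T₁, hT₁, hB₁⟩ := hC₁ m hm
  obtain ⟨T₂, hT₂, hB₂⟩ := hC₂ m hm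
  refine ⟨T₁ ×ˢ T₂, ?_, ?_⟩
  · rw [Finset.card_product]
    push_cast
    calc (T₁.card : ℝ) * T₂.card ≤ (C₁ * (m : ℝ) ^ d₁) * (C₂ * (m : ℝ) ^ d₂) :=
          mul_le_mul hT₁ hT₂ (Nat.cast_nonneg _) (by positivity)
      _ = C₁ * C₂ * (m : ℝ) ^ (d₁ + d₂) := by rw [pow_add]; ring
  · rintro ⟨a, b⟩ ⟨ha, hb⟩
    have h1 := hB₁ ha
    have h2 := hB₂ hb
    simp only [Set.mem_iUnion] at h1 h2 ⊢
    obtain ⟨y₁, hy₁, h1⟩ := h1
    obtain ⟨y₂, hy₂, h2⟩ := h2
    refine ⟨(y₁, y₂), Finset.mk_mem_product hy₁ hy₂, ?_⟩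
    rw [mem_closedBall, Prod.dist_eq]
    exact max_le (mem_closedBall.1 h1) (mem_closedBall.1 h2)

/-- finite products -/
theorem pi {ι : Type*} [Fintype ι] {Y : ι → Type*} [∀ i, PseudoMetricSpace (Y i)]
    {d : ι → ℕ} {B : ∀ i, Set (Y i)} (h : ∀ i, HasCoveringDim (d i) (B i)) :
    HasCoveringDim (∑ i, d i) (Set.pi Set.univ B) := by
  classical
  have h' := fun i => (h i).exists_nonneg
  choose C hC0 hC using h'
  refine ⟨∏ i, C i, fun m hm => ?_⟩
  have h'' := fun i => hC i m hm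
  choose T hT hB using h''
  refine ⟨Fintype.piFinset T, ?_, ?_⟩
  · rw [Fintype.card_piFinset]
    push_cast
    calc ∏ i, ((T i).card : ℝ) ≤ ∏ i, (C i * (m : ℝ) ^ d i) :=
          Finset.prod_le_prod (fun i _ => Nat.cast_nonneg _) (fun i _ => hT i)
      _ = (∏ i, C i) * (m : ℝ) ^ (∑ i, d i) := by
          rw [Finset.prod_mul_distrib, Finset.prod_pow_eq_pow_sum]
  · intro x hx
    have hx' : ∀ i, ∃ y ∈ T i, x i ∈ closedBall y (1 / (m : ℝ)) := by
      intro i
      have := hB i (hx i (Set.mem_univ i))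
      simp only [Set.mem_iUnion] at this
      obtain ⟨y, hy, hxy⟩ := this
      exact ⟨y, hy, hxy⟩
    choose y hy hxy using hx'
    simp only [Set.mem_iUnion]
    refine ⟨y, Fintype.mem_piFinset.2 hy, ?_⟩
    rw [mem_closedBall, dist_pi_le_iff (by positivity)]
    intro i
    exact mem_closedBall.1 (hxy i)

/-- bounded subsets of the real line have covering dimension `1` -/
theorem of_isBounded_real {B : Set ℝ} (hB : Bornology.IsBounded B) : HasCoveringDim 1 B := by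
  obtain ⟨R₀, hR₀⟩ := hB.subset_closedBall (0 : ℝ)
  set R : ℕ := ⌈R₀⌉₊ with hR
  have hBR : ∀ x ∈ B, |x| ≤ R := by
    intro x hx
    have := hR₀ hx
    rw [mem_closedBall, Real.dist_eq, sub_zero] at this
    exact this.trans (Nat.le_ceil _)
  refine ⟨2 * R + 1, fun m hm => ?_⟩
  have hmpos : (0 : ℝ) < m := by exact_mod_cast hm
  refine ⟨(Finset.Icc (-(R * m : ℤ)) (R * m : ℤ)).image (fun k : ℤ => (k : ℝ) / m), ?_, ?_⟩
  · calc (((Finset.Icc (-(R * m : ℤ)) (R * m : ℤ)).image (fun k : ℤ => (k : ℝ) / m)).card : ℝ)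
        ≤ (Finset.Icc (-(R * m : ℤ)) (R * m : ℤ)).card := by exact_mod_cast Finset.card_image_le
      _ = 2 * R * m + 1 := by
          rw [Int.card_Icc]
          have : ((R * m : ℤ) + 1 - -(R * m : ℤ)).toNat = 2 * R * m + 1 := by
            have : ((R : ℤ) * m + 1 - -((R : ℤ) * m)) = ((2 * R * m + 1 : ℕ) : ℤ) := by
              push_cast; ring
            rw [this, Int.toNat_natCast]
          rw [this]; push_cast; ring
      _ ≤ (2 * R + 1) * (m : ℝ) ^ 1 := by
          rw [pow_one]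
          have : (1 : ℝ) ≤ m := by exact_mod_cast hm
          nlinarith
  · intro x hx
    simp only [Set.mem_iUnion, Finset.mem_image, Finset.mem_Icc]
    have hxR := hBR x hx
    rw [abs_le] at hxR
    refine ⟨(⌊x * m⌋ : ℝ) / m, ⟨⌊x * m⌋, ⟨?_, ?_⟩, rfl⟩, ?_⟩
    · rw [Int.le_floor]
      push_cast
      have := mul_le_mul_of_nonneg_right hxR.1 hmpos.le
      linarith
    · have h1 : (⌊x * m⌋ : ℝ) ≤ x * m := Int.floor_le _
      have h2 : x * m ≤ (R : ℝ) * m := mul_le_mul_of_nonneg_right hxR.2 hmpos.le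
      have : ((⌊x * m⌋ : ℤ) : ℝ) ≤ ((R * m : ℤ) : ℝ) := by push_cast; linarith
      exact_mod_cast this
    · rw [mem_closedBall, Real.dist_eq]
      have h1 : (⌊x * m⌋ : ℝ) ≤ x * m := Int.floor_le _
      have h2 : x * m < ⌊x * m⌋ + 1 := Int.lt_floor_add_one _
      have hq1 : (⌊x * m⌋ : ℝ) / m ≤ x := by
        rw [div_le_iff₀ hmpos]; exact h1
      have hq2 : x < (⌊x * m⌋ : ℝ) / m + 1 / m := by
        rw [← add_div, lt_div_iff₀ hmpos]; exact h2
      rw [abs_le]
      constructor <;> linarith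

end HasCoveringDim

end Fermat.Agent.S14
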