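import Mathlib
import Fermat.Agent.S14.Count.CoveringDim

/-!
# The frontier of `normLeOne K` has covering dimension `n - 1` (S14, block Q2)

Explicit parametrisation `nlParam` of (a region containing) the closure of Mathlib's `normLeOne K`
by a scaling factor `c ∈ [0,1]`, log-coordinates `y ∈ [0,1]^r`, signs at the real places and
angles at the complex places.  The parametrisation is `C^1`, hence Lipschitz on the compact convex
parameter box, and the frontier of `normLeOne K` is contained in the image of the faces of the box.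
-/

set_option autoImplicit false
set_option linter.unusedSectionVars false

namespace Fermat.Agent.S14

open Metric Set
open NumberField NumberField.InfinitePlace NumberField.mixedEmbedding
  NumberField.mixedEmbedding.fundamentalCone NumberField.Units
  NumberField.Units.dirichletUnitTheorem
open scoped NNReal Classical

variable (K : Type*) [Field K] [NumberField K]

/-- parameter space: scaling factor, logarithmic coordinates, angles -/
abbrev NlParamSpace := ℝ × realSpace K × ({w : InfinitePlace K // IsComplex w} → ℝ)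

/-- the parametrisation of (a region containing) the closure of `normLeOne K`, for a sign
vector `ε`. -/
noncomputable def nlParam (ε : {w : InfinitePlace K // IsReal w} → ℝ) (p : NlParamSpace K) :
    mixedSpace K :=
  (fun w => ε w * (p.1 * expMapBasis p.2.1 w.1),
   fun w => ((p.1 * expMapBasis p.2.1 w.1 : ℝ) : ℂ) * Complex.exp ((p.2.2 w : ℂ) * Complex.I))

theorem nl_contDiff_expMapBasis (w : InfinitePlace K) :
    ContDiff ℝ 1 (fun y : realSpace K => expMapBasis y w) := by
  have h1 : ∀ y : realSpace K, expMapBasis y w =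
      Real.exp ((w.mult : ℝ)⁻¹ * ((completeBasis K).equivFunL.symm y) w) := by
    intro y
    rw [expMapBasis_apply, expMap_apply]
    rfl
  simp_rw [h1]
  apply Real.contDiff_exp.comp
  apply contDiff_const.mul
  have h2 : ContDiff ℝ 1 (fun y : realSpace K => (completeBasis K).equivFunL.symm y) :=
    (completeBasis K).equivFunL.symm.contDiff
  exact (contDiff_pi.1 h2) w

theorem nl_contDiff_nlParam (ε : {w : InfinitePlace K // IsReal w} → ℝ) :
    ContDiff ℝ 1 (nlParam K ε) := by
  have hE : ∀ w : InfinitePlace K,
      ContDiff ℝ 1 (fun p : NlParamSpace K => p.1 * expMapBasis p.2.1 w) := by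
    intro w
    exact contDiff_fst.mul ((nl_contDiff_expMapBasis K w).comp (contDiff_fst.comp contDiff_snd))
  apply ContDiff.prodMk
  · rw [contDiff_pi]
    intro w
    exact contDiff_const.mul (hE w.1)
  · rw [contDiff_pi]
    intro w
    apply ContDiff.mul
    · exact Complex.ofRealCLM.contDiff.comp (hE w.1)
    · have hexp : ContDiff ℝ 1 Complex.exp :=
        (Complex.contDiff_exp (𝕜 := ℂ) (n := 1)).restrict_scalars ℝ
      apply hexp.comp
      apply ContDiff.mul _ contDiff_const
      apply Complex.ofRealCLM.contDiff.comp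
      exact (contDiff_pi.1 (contDiff_snd.comp contDiff_snd)) w


/-- box of log-coordinates with the coordinates in `s` frozen to the values `e` -/
def nlYBox (s : Finset (InfinitePlace K)) (e : InfinitePlace K → ℝ) : Set (realSpace K) :=
  Set.pi Set.univ fun w => if w ∈ s then {e w} else Set.Icc 0 1

/-- box of angles -/
def nlThetaBox : Set ({w : InfinitePlace K // IsComplex w} → ℝ) :=
  Set.pi Set.univ fun _ => Set.Icc (-Real.pi) Real.pi

/-- the full parameter box -/
def nlBox : Set (NlParamSpace K) :=
  Set.Icc 0 1 ×ˢ (nlYBox K {w₀} 0 ×ˢ nlThetaBox K)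

/-- faces where the scaling factor is frozen -/
def nlFaceC (c₀ : ℝ) : Set (NlParamSpace K) :=
  {c₀} ×ˢ (nlYBox K {w₀} 0 ×ˢ nlThetaBox K)

/-- faces where a log-coordinate is frozen -/
def nlFaceY (v : InfinitePlace K) (e : ℝ) : Set (NlParamSpace K) :=
  Set.Icc 0 1 ×ˢ (nlYBox K {w₀, v} (fun w => if w = v then e else 0) ×ˢ nlThetaBox K)

/-- all the faces -/
def nlFaces : Set (NlParamSpace K) :=
  (nlFaceC K 0 ∪ nlFaceC K 1) ∪
    ⋃ v : {w : InfinitePlace K // w ≠ w₀}, (nlFaceY K v.1 0 ∪ nlFaceY K v.1 1)

theorem nl_isCompact_box : IsCompact (nlBox K) := by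
  refine isCompact_Icc.prod (IsCompact.prod ?_ ?_)
  · refine isCompact_univ_pi fun w => ?_
    split_ifs
    · exact isCompact_singleton
    · exact isCompact_Icc
  · exact isCompact_univ_pi fun w => isCompact_Icc

theorem nl_convex_box : Convex ℝ (nlBox K) := by
  refine (convex_Icc 0 1).prod (Convex.prod ?_ ?_)
  · refine convex_pi fun w _ => ?_
    split_ifs
    · exact convex_singleton _
    · exact convex_Icc 0 1
  · exact convex_pi fun w _ => convex_Icc _ _

theorem nl_lipschitzOn_box (ε : {w : InfinitePlace K // IsReal w} → ℝ) :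
    ∃ C : ℝ≥0, LipschitzOnWith C (nlParam K ε) (nlBox K) :=
  (nl_contDiff_nlParam K ε).contDiffOn.exists_lipschitzOnWith one_ne_zero (nl_convex_box K)
    (nl_isCompact_box K)

theorem nl_faceC_subset_box {c₀ : ℝ} (hc : c₀ ∈ Set.Icc (0 : ℝ) 1) : nlFaceC K c₀ ⊆ nlBox K := by
  intro p hp
  obtain ⟨h1, h2⟩ := hp
  rw [Set.mem_singleton_iff] at h1
  exact ⟨h1 ▸ hc, h2⟩

theorem nl_faceY_subset_box {v : InfinitePlace K} (hv : v ≠ w₀) {e : ℝ}
    (he : e ∈ Set.Icc (0 : ℝ) 1) : nlFaceY K v e ⊆ nlBox K := by
  intro p hp
  obtain ⟨h1, h2, h3⟩ := hp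
  refine ⟨h1, ?_, h3⟩
  intro w _
  have := h2 w (Set.mem_univ w)
  simp only [Finset.mem_insert, Finset.mem_singleton] at this ⊢
  by_cases hw : w = w₀
  · simp only [hw, true_or, if_true] at this ⊢
    rw [Set.mem_singleton_iff] at this ⊢
    rw [this, if_neg (Ne.symm hv)]
    rfl
  · by_cases hwv : w = v
    · subst hwv
      simp only [hw, or_true, if_true, if_false] at this ⊢
      rw [Set.mem_singleton_iff] at this
      rw [this]; exact he
    · simpa [hw, hwv] using this

theorem nl_faces_subset_box : nlFaces K ⊆ nlBox K := by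
  intro p hp
  rcases hp with (hp | hp) | hp
  · exact nl_faceC_subset_box K ⟨le_refl _, zero_le_one⟩ hp
  · exact nl_faceC_subset_box K ⟨zero_le_one, le_refl _⟩ hp
  · simp only [Set.mem_iUnion] at hp
    obtain ⟨v, hp | hp⟩ := hp
    · exact nl_faceY_subset_box K v.2 ⟨le_refl _, zero_le_one⟩ hp
    · exact nl_faceY_subset_box K v.2 ⟨zero_le_one, le_refl _⟩ hp


theorem nl_coveringDim_YBox (s : Finset (InfinitePlace K)) (e : InfinitePlace K → ℝ) :
    HasCoveringDim (Fintype.card (InfinitePlace K) - s.card) (nlYBox K s e) := by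
  have h := HasCoveringDim.pi (ι := InfinitePlace K) (Y := fun _ => ℝ)
    (d := fun w => if w ∈ s then 0 else 1)
    (B := fun w => if w ∈ s then {e w} else Set.Icc (0 : ℝ) 1) (fun w => by
      split_ifs
      · exact HasCoveringDim.singleton _
      · exact HasCoveringDim.of_isBounded_real (Metric.isBounded_Icc 0 1))
  have hsum : ∑ w : InfinitePlace K, (if w ∈ s then 0 else 1)
      = Fintype.card (InfinitePlace K) - s.card := by
    have h1 : ∀ w : InfinitePlace K, (if w ∈ s then 0 else 1) = if w ∈ sᶜ then 1 else 0 := by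
      intro w
      by_cases hw : w ∈ s <;> simp [hw]
    simp_rw [h1]
    rw [Finset.sum_ite_mem, Finset.univ_inter, Finset.sum_const, smul_eq_mul, mul_one,
      Finset.card_compl]
  rw [hsum] at h
  exact h

theorem nl_coveringDim_thetaBox :
    HasCoveringDim (nrComplexPlaces K) (nlThetaBox K) := by
  have h := HasCoveringDim.pi (ι := {w : InfinitePlace K // IsComplex w}) (Y := fun _ => ℝ)
    (d := fun _ => 1)
    (B := fun _ => Set.Icc (-Real.pi) Real.pi)
    (fun _ => HasCoveringDim.of_isBounded_real (Metric.isBounded_Icc _ _))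
  have hsum : ∑ _w : {w : InfinitePlace K // IsComplex w}, 1 = nrComplexPlaces K := by
    simp [nrComplexPlaces]
  rw [hsum] at h
  exact h


theorem nl_coveringDim_faceC (c₀ : ℝ) :
    HasCoveringDim (Module.finrank ℚ K - 1) (nlFaceC K c₀) := by
  have h := (HasCoveringDim.singleton c₀).prod
    ((nl_coveringDim_YBox K {w₀} 0).prod (nl_coveringDim_thetaBox K))
  refine h.mono_dim ?_
  have h1 := card_eq_nrRealPlaces_add_nrComplexPlaces K
  have h2 := card_add_two_mul_card_eq_rank K
  rw [Finset.card_singleton]
  omega

theorem nl_coveringDim_faceY {v : InfinitePlace K} (hv : v ≠ w₀) (e : ℝ) :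
    HasCoveringDim (Module.finrank ℚ K - 1) (nlFaceY K v e) := by
  have h := (HasCoveringDim.of_isBounded_real (Metric.isBounded_Icc (0 : ℝ) 1)).prod
    ((nl_coveringDim_YBox K {w₀, v} (fun w => if w = v then e else 0)).prod
      (nl_coveringDim_thetaBox K))
  refine h.mono_dim ?_
  have h1 := card_eq_nrRealPlaces_add_nrComplexPlaces K
  have h2 := card_add_two_mul_card_eq_rank K
  have h3 : ({w₀, v} : Finset (InfinitePlace K)).card = 2 := Finset.card_pair (Ne.symm hv)
  have h4 : 2 ≤ Fintype.card (InfinitePlace K) := by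
    rw [← h3]; exact Finset.card_le_univ _
  rw [h3]
  omega

theorem nl_coveringDim_faces : HasCoveringDim (Module.finrank ℚ K - 1) (nlFaces K) := by
  refine ((nl_coveringDim_faceC K 0).union (nl_coveringDim_faceC K 1)).union ?_
  exact HasCoveringDim.iUnion fun v =>
    (nl_coveringDim_faceY K v.2 0).union (nl_coveringDim_faceY K v.2 1)


/-- sign vectors -/
def nlSign (σ : {w : InfinitePlace K // IsReal w} → Bool) :
    {w : InfinitePlace K // IsReal w} → ℝ :=
  fun w => if σ w then -1 else 1

theorem nl_frontier_subset :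
    frontier (normLeOne K) ⊆
      ⋃ σ : {w : InfinitePlace K // IsReal w} → Bool, nlParam K (nlSign K σ) '' nlFaces K := by
  intro x hx
  have hxc : normAtAllPlaces x ∈ compactSet K := closure_normLeOne_subset K hx.1
  have hxi : normAtAllPlaces x ∉ expMapBasis '' interior (paramSet K) :=
    fun h => hx.2 (subset_interior_normLeOne K h)
  obtain ⟨c, hc, z, ⟨y, hy, rfl⟩, hcz⟩ := hxc
  have hcz' : ∀ w, c * expMapBasis y w = normAtAllPlaces x w := by
    intro w
    have := congrFun hcz w
    simpa using this
  have hyw₀ : y w₀ = 0 := by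
    have := hy w₀ (Set.mem_univ _)
    simpa using this
  have hyw : ∀ w, w ≠ w₀ → y w ∈ Set.Icc (0 : ℝ) 1 := by
    intro w hw
    have := hy w (Set.mem_univ _)
    simpa [hw] using this
  by_cases hface : c = 0 ∨ c = 1 ∨ ∃ v, v ≠ w₀ ∧ (y v = 0 ∨ y v = 1)
  · -- the point lies on a face
    simp only [Set.mem_iUnion]
    refine ⟨fun w => decide (x.1 w < 0), (c, y, fun w => Complex.arg (x.2 w)), ?_, ?_⟩
    · have hyB : y ∈ nlYBox K {w₀} 0 := by
        intro w _
        by_cases hw : w = w₀
        · simp [hw, hyw₀]
        · simpa [hw] using hyw w hw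
      have hθ : (fun w : {w : InfinitePlace K // IsComplex w} => Complex.arg (x.2 w))
          ∈ nlThetaBox K := by
        intro w _
        exact ⟨(Complex.neg_pi_lt_arg _).le, Complex.arg_le_pi _⟩
      rcases hface with h0 | h1 | ⟨v, hv, hv01⟩
      · left; left
        exact ⟨by simp [h0], hyB, hθ⟩
      · left; right
        exact ⟨by simp [h1], hyB, hθ⟩
      · right
        simp only [Set.mem_iUnion]
        refine ⟨⟨v, hv⟩, ?_⟩
        have key : ∀ e : ℝ, y v = e → (c, y, fun w : {w : InfinitePlace K // IsComplex w} =>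
            Complex.arg (x.2 w)) ∈ nlFaceY K v e := by
          intro e hve
          refine ⟨hc, ?_, hθ⟩
          intro w _
          by_cases hw : w = w₀
          · have : ¬ (w₀ = v) := fun h => hv h.symm
            simp [hw, hyw₀, this]
          · by_cases hwv : w = v
            · subst hwv
              simp [hve]
            · simpa [hw, hwv] using hyw w hw
        rcases hv01 with h | h
        · exact Or.inl (key 0 h)
        · exact Or.inr (key 1 h)
    · -- the parametrisation hits `x`
      refine Prod.ext ?_ ?_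
      · funext w
        have h1 : c * expMapBasis y w.1 = ‖x.1 w‖ := by
          rw [hcz' w.1, normAtAllPlaces_apply, normAtPlace_apply_of_isReal w.2]
        simp only [nlParam, nlSign, h1, Real.norm_eq_abs]
        by_cases hneg : x.1 w < 0
        · simp [hneg, abs_of_neg hneg]
        · simp [hneg, abs_of_nonneg (not_lt.1 hneg)]
      · funext w
        have h1 : c * expMapBasis y w.1 = ‖x.2 w‖ := by
          rw [hcz' w.1, normAtAllPlaces_apply, normAtPlace_apply_of_isComplex w.2]
        simp only [nlParam, h1]
        exact Complex.norm_mul_exp_arg_mul_I _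
  · -- otherwise the point is interior
    exfalso
    push Not at hface
    obtain ⟨hc0, hc1, hyv⟩ := hface
    have hcpos : 0 < c := lt_of_le_of_ne hc.1 (Ne.symm hc0)
    have hclt : c < 1 := lt_of_le_of_ne hc.2 hc1
    apply hxi
    refine ⟨fun w => if w = w₀ then Real.log c else y w, ?_, ?_⟩
    · rw [interior_paramSet, Set.mem_univ_pi]
      intro w
      by_cases hw : w = w₀
      · simp only [hw, if_true]
        exact Real.log_neg hcpos hclt
      · simp only [hw, if_false]
        have h1 := hyw w hw
        have h2 := hyv w hw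
        exact ⟨lt_of_le_of_ne h1.1 (Ne.symm h2.1), lt_of_le_of_ne h1.2 h2.2⟩
    · rw [expMapBasis_apply'', if_pos rfl, Real.exp_log hcpos, ← hcz]
      congr 2
      funext i
      by_cases hi : i = w₀
      · simp [hi, hyw₀]
      · simp [hi]

/-- **Q2**: the frontier of `normLeOne K` has covering dimension `n - 1`. -/
theorem nl_coveringDim_frontier_normLeOne :
    HasCoveringDim (Module.finrank ℚ K - 1) (frontier (normLeOne K)) := by
  refine HasCoveringDim.mono (nl_frontier_subset K) ?_
  refine HasCoveringDim.iUnion fun σ => ?_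
  obtain ⟨C, hC⟩ := nl_lipschitzOn_box K (nlSign K σ)
  exact HasCoveringDim.image_lipschitzOn (hC.mono (nl_faces_subset_box K))
    (nl_coveringDim_faces K)

end Fermat.Agent.S14
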