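import Mathlib
import Fermat.Agent.S14.Count.NormLeOneCover

/-!
# Counting algebraic integers of a residue class in the fundamental cone (S14, block Q3.1)

`cone_count`: for a nonzero ideal `J` of `𝓞 K` there is `C` such that for all `X ≥ 1` and all
`a₀ : 𝓞 K`, the number of `a ∈ a₀ + J` in the fundamental cone with `|N a| ≤ X` equals
`coneDensity K * X / N J` up to an error `≤ C * X ^ (1 - 1/n)`.
-/

set_option autoImplicit false
set_option linter.unusedSectionVars false

namespace Fermat.Agent.S14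

open Metric Set Module MeasureTheory Pointwise
open NumberField NumberField.InfinitePlace NumberField.mixedEmbedding
  NumberField.mixedEmbedding.fundamentalCone NumberField.Units
open scoped NNReal Classical nonZeroDivisors

variable (K : Type*) [Field K] [NumberField K]

/-- density constant of the fundamental cone -/
noncomputable def coneDensity : ℝ :=
  volume.real (normLeOne K) / ((2⁻¹ : ℝ) ^ nrComplexPlaces K * √|(discr K : ℝ)|)

/-- the counted set: algebraic integers in the coset `a₀ + J` lying in the fundamental cone, of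
norm at most `X` -/
def coneSet (J : Ideal (𝓞 K)) (a₀ : 𝓞 K) (X : ℝ) : Set (𝓞 K) :=
  {a | a - a₀ ∈ J ∧ mixedEmbedding K (a : K) ∈ fundamentalCone K ∧
    mixedEmbedding.norm (mixedEmbedding K (a : K)) ≤ X}

theorem cn_smul_normLeOne {t : ℝ} (ht : 0 < t) :
    t • normLeOne K = {x | x ∈ fundamentalCone K ∧ mixedEmbedding.norm x ≤ t ^ finrank ℚ K} := by
  ext x
  rw [Set.mem_smul_set_iff_inv_smul_mem₀ ht.ne', mem_normLeOne,
    smul_mem_iff_mem (inv_ne_zero ht.ne'), mixedEmbedding.norm_smul, abs_of_pos (inv_pos.2 ht),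
    inv_pow, inv_mul_le_iff₀ (pow_pos ht _), mul_one]
  rfl

theorem cn_image (J : (Ideal (𝓞 K))⁰) (a₀ : 𝓞 K) {t : ℝ} (ht : 0 < t) :
    (fun a : 𝓞 K => mixedEmbedding K (a : K)) '' coneSet K J a₀ (t ^ finrank ℚ K) =
      (t • normLeOne K) ∩ (mixedEmbedding K (a₀ : K) +ᵥ
        (idealLattice K (FractionalIdeal.mk0 K J) : Set (mixedSpace K))) := by
  rw [cn_smul_normLeOne K ht]
  ext x
  simp only [Set.mem_image, coneSet, Set.mem_ofPred_eq, Set.mem_inter_iff, Set.mem_vadd_set,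
    SetLike.mem_coe, mem_idealLattice, FractionalIdeal.coe_mk0, vadd_eq_add]
  constructor
  · rintro ⟨a, ⟨h1, h2, h3⟩, rfl⟩
    refine ⟨⟨h2, h3⟩, mixedEmbedding K ((a - a₀ : 𝓞 K) : K), ⟨((a - a₀ : 𝓞 K) : K), ?_, rfl⟩, ?_⟩
    · exact (FractionalIdeal.mem_coeIdeal _).2 ⟨a - a₀, h1, rfl⟩
    · rw [← map_add]
      congr 1
      push_cast
      ring
  · rintro ⟨⟨h2, h3⟩, _, ⟨y, hy, rfl⟩, rfl⟩
    obtain ⟨b, hb, rfl⟩ := (FractionalIdeal.mem_coeIdeal _).1 hy
    refine ⟨a₀ + b, ⟨by simpa using hb, ?_, ?_⟩, ?_⟩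
    · convert h2 using 2
      push_cast
      rw [map_add]
    · convert h3 using 3
      push_cast
      rw [map_add]
    · push_cast
      rw [map_add]


theorem cn_injective : Function.Injective (fun a : 𝓞 K => mixedEmbedding K (a : K)) :=
  (mixedEmbedding_injective K).comp RingOfIntegers.coe_injective

/-- **Counting in the fundamental cone, in residue classes, with power saving.** -/
theorem cone_count (J : (Ideal (𝓞 K))⁰) :
    ∃ C : ℝ, ∀ X : ℝ, 1 ≤ X → ∀ a₀ : 𝓞 K,
      |((coneSet K J a₀ X).ncard : ℝ) - coneDensity K * X / Ideal.absNorm (J : Ideal (𝓞 K))|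
        ≤ C * X ^ (1 - 1 / (finrank ℚ K : ℝ)) := by
  have hn : 0 < finrank ℚ K := finrank_pos
  have hn' : (finrank ℚ K : ℝ) ≠ 0 := Nat.cast_ne_zero.2 hn.ne'
  obtain ⟨C, hC⟩ := lc_main_lattice (idealLattice K (FractionalIdeal.mk0 K J)) volume
    (normLeOne K) (isBounded_normLeOne K) (finrank ℚ K - 1)
    (nl_coveringDim_frontier_normLeOne K)
  refine ⟨C, fun X hX a₀ => ?_⟩
  have hX0 : 0 < X := lt_of_lt_of_le one_pos hX
  set t : ℝ := X ^ ((finrank ℚ K : ℝ)⁻¹) with ht
  have ht1 : 1 ≤ t := Real.one_le_rpow hX (inv_nonneg.2 (Nat.cast_nonneg _))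
  have ht0 : 0 < t := lt_of_lt_of_le one_pos ht1
  have htn : t ^ finrank ℚ K = X := Real.rpow_inv_natCast_pow hX0.le hn.ne'
  have htn1 : t ^ (finrank ℚ K - 1) = X ^ (1 - 1 / (finrank ℚ K : ℝ)) := by
    rw [ht, ← Real.rpow_natCast, ← Real.rpow_mul hX0.le]
    congr 1
    rw [Nat.cast_sub hn, Nat.cast_one]
    field_simp
  have h := hC t ht1 (mixedEmbedding K (a₀ : K))
  rw [← cn_image K J a₀ ht0, Nat.card_coe_set_eq,
    Set.ncard_image_of_injective _ (cn_injective K), htn, mixedEmbedding.finrank, htn, htn1,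
    covolume_idealLattice, FractionalIdeal.coe_mk0, FractionalIdeal.coeIdeal_absNorm] at h
  have heq : volume.real (normLeOne K) * X /
      (((Ideal.absNorm (J : Ideal (𝓞 K)) : ℚ) : ℝ) * 2⁻¹ ^ nrComplexPlaces K * √|(discr K : ℝ)|)
      = coneDensity K * X / Ideal.absNorm (J : Ideal (𝓞 K)) := by
    rw [coneDensity]
    have h1 : ((Ideal.absNorm (J : Ideal (𝓞 K)) : ℚ) : ℝ) = (Ideal.absNorm (J : Ideal (𝓞 K)) : ℝ) := by
      norm_cast
    rw [h1]
    have h2 : (Ideal.absNorm (J : Ideal (𝓞 K)) : ℝ) ≠ 0 :=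
      Nat.cast_ne_zero.2 (Ideal.absNorm_ne_zero_of_nonZeroDivisors J)
    have h3 : (2⁻¹ : ℝ) ^ nrComplexPlaces K * √|(discr K : ℝ)| ≠ 0 := by
      apply mul_ne_zero (by positivity)
      rw [Real.sqrt_ne_zero']
      exact abs_pos.2 (Int.cast_ne_zero.2 (discr_ne_zero K))
    field_simp
  rw [heq] at h
  exact h

end Fermat.Agent.S14
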