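import Mathlib
import Fermat.Agent.S14.Count.ConeCount

/-!
# Principal ideals and their generators in the fundamental cone (S14, block Q3, stage 1; file RayGen)

`ry_sum_red`: a sum of `G (span {a})` over the reduced elements `a ∈ J` (image in the fundamental
cone) of norm `≤ Y` equals `torsionOrder K` times the sum of `G I` over the nonzero principal
ideals `I ≤ J` of norm `≤ Y`.
-/

set_option autoImplicit false
set_option linter.unusedSectionVars false

namespace Fermat.Agent.S14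

open Metric Set Module MeasureTheory Pointwise Ideal
open NumberField NumberField.InfinitePlace NumberField.mixedEmbedding
  NumberField.mixedEmbedding.fundamentalCone NumberField.Units
open scoped NNReal Classical nonZeroDivisors

variable (K : Type*) [Field K] [NumberField K]

/-- reduced elements of an ideal `J` with norm at most `Y` -/
def ryRed (J : Ideal (𝓞 K)) (Y : ℝ) : Set (𝓞 K) :=
  {a | a ∈ J ∧ mixedEmbedding K (a : K) ∈ fundamentalCone K ∧
    mixedEmbedding.norm (mixedEmbedding K (a : K)) ≤ Y}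

theorem ryRed_eq_coneSet (J : Ideal (𝓞 K)) (Y : ℝ) : ryRed K J Y = coneSet K J 0 Y := by
  ext a; simp [ryRed, coneSet]

variable {K}

theorem ry_norm_eq_absNorm (a : 𝓞 K) :
    mixedEmbedding.norm (mixedEmbedding K (a : K)) = (absNorm (span {a}) : ℝ) := by
  rw [mixedEmbedding.norm_eq_norm, absNorm_span_singleton, Nat.cast_natAbs, ← Rat.cast_intCast,
    Int.cast_abs, Algebra.coe_norm_int]

theorem ry_ne_zero_of_mem_cone {a : 𝓞 K} (ha : mixedEmbedding K (a : K) ∈ fundamentalCone K) :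
    a ≠ 0 := by
  rintro rfl
  have := norm_pos_of_mem ha
  simp at this

theorem ry_unit_smul (u : (𝓞 K)ˣ) (a : 𝓞 K) :
    u • mixedEmbedding K (a : K) = mixedEmbedding K (((u : 𝓞 K) * a : 𝓞 K) : K) :=
  unit_smul_eq_iff_mul_eq.2 rfl

/-- every nonzero principal ideal has a generator in the fundamental cone -/
theorem ry_exists_generator {I : Ideal (𝓞 K)} (hI0 : I ≠ ⊥) (hIp : I.IsPrincipal) :
    ∃ g : 𝓞 K, mixedEmbedding K (g : K) ∈ fundamentalCone K ∧ span {g} = I := by
  obtain ⟨g₀, hg₀⟩ := hIp.principal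
  have hg₀' : I = span {g₀} := hg₀
  have hg₀0 : g₀ ≠ 0 := by
    rintro rfl
    apply hI0
    rw [hg₀']; simp
  have hnorm : mixedEmbedding.norm (mixedEmbedding K (g₀ : K)) ≠ 0 := by
    rw [ry_norm_eq_absNorm, ← hg₀']
    exact Nat.cast_ne_zero.2 (absNorm_eq_zero_iff.not.2 hI0)
  obtain ⟨u, hu⟩ := exists_unit_smul_mem hnorm
  refine ⟨(u : 𝓞 K) * g₀, ?_, ?_⟩
  · rw [← ry_unit_smul]; exact hu
  · rw [hg₀', Ideal.span_singleton_mul_left_unit u.isUnit]

/-- the fibre of `a ↦ span {a}` over a nonzero principal ideal, inside the reduced elements,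
has exactly `torsionOrder K` elements -/
theorem ry_ncard_fiber {J I : Ideal (𝓞 K)} {Y : ℝ} (hI0 : I ≠ ⊥) (hIJ : I ≤ J)
    (hIp : I.IsPrincipal) (hIY : (absNorm I : ℝ) ≤ Y) :
    {a | a ∈ ryRed K J Y ∧ span {a} = I}.ncard = torsionOrder K := by
  obtain ⟨g, hgc, hgI⟩ := ry_exists_generator hI0 hIp
  have hg0 : g ≠ 0 := ry_ne_zero_of_mem_cone hgc
  have hset : {a | a ∈ ryRed K J Y ∧ span {a} = I} =
      Set.range (fun ζ : torsion K => (((ζ : (𝓞 K)ˣ) : 𝓞 K)) * g) := by
    ext a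
    simp only [Set.mem_ofPred_eq, Set.mem_range]
    constructor
    · rintro ⟨⟨_, hac, _⟩, haI⟩
      rw [← hgI, Ideal.span_singleton_eq_span_singleton] at haI
      obtain ⟨v, hv⟩ := haI
      have ha : a = ((v⁻¹ : (𝓞 K)ˣ) : 𝓞 K) * g := by
        rw [← hv]; simp [mul_comm]
      have hmem : (v⁻¹ : (𝓞 K)ˣ) • mixedEmbedding K (g : K) ∈ fundamentalCone K := by
        rw [ry_unit_smul, ← ha]; exact hac
      have htor := (unit_smul_mem_iff_mem_torsion hgc _).1 hmem
      exact ⟨⟨v⁻¹, htor⟩, ha.symm⟩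
    · rintro ⟨ζ, rfl⟩
      have hspan : span {(((ζ : (𝓞 K)ˣ) : 𝓞 K)) * g} = I := by
        rw [Ideal.span_singleton_mul_left_unit (ζ : (𝓞 K)ˣ).isUnit, hgI]
      refine ⟨⟨?_, ?_, ?_⟩, hspan⟩
      · apply hIJ
        rw [← hspan]
        exact Ideal.mem_span_singleton_self _
      · rw [← ry_unit_smul]
        exact torsion_smul_mem_of_mem hgc ζ.2
      · rw [ry_norm_eq_absNorm, hspan]; exact hIY
  have hinj : Function.Injective (fun ζ : torsion K => (((ζ : (𝓞 K)ˣ) : 𝓞 K)) * g) := by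
    intro ζ ζ' h
    have := mul_right_cancel₀ hg0 h
    exact Subtype.ext (Units.ext this)
  rw [hset, ← Set.image_univ, Set.ncard_image_of_injective _ hinj, Set.ncard_univ, torsionOrder]


variable (K)

theorem ry_finite_inter_integerLattice {B : Set (mixedSpace K)} (hB : Bornology.IsBounded B) :
    (B ∩ (mixedEmbedding.integerLattice K : Set (mixedSpace K))).Finite := by
  change (B ∩ (mixedEmbedding.integerLattice K).toAddSubgroup).Finite
  have : DiscreteTopology (mixedEmbedding.integerLattice K).toAddSubgroup :=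
    (inferInstance : DiscreteTopology (mixedEmbedding.integerLattice K))
  exact Metric.finite_isBounded_inter_isClosed DiscreteTopology.isDiscrete hB inferInstance

theorem ry_finite_red_top (Y : ℝ) : (ryRed K ⊤ Y).Finite := by
  have hmono : ryRed K ⊤ Y ⊆ ryRed K ⊤ (max Y 1) := by
    rintro a ⟨h1, h2, h3⟩
    exact ⟨h1, h2, h3.trans (le_max_left _ _)⟩
  refine Set.Finite.subset ?_ hmono
  set Z := max Y 1 with hZ
  have hZ1 : 1 ≤ Z := le_max_right _ _
  have hZ0 : 0 < Z := lt_of_lt_of_le one_pos hZ1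
  have hn : 0 < finrank ℚ K := finrank_pos
  set t : ℝ := Z ^ ((finrank ℚ K : ℝ)⁻¹) with ht
  have ht0 : 0 < t := Real.rpow_pos_of_pos hZ0 _
  have htn : t ^ finrank ℚ K = Z := Real.rpow_inv_natCast_pow hZ0.le hn.ne'
  apply Set.Finite.of_finite_image (f := fun a : 𝓞 K => mixedEmbedding K (a : K)) _
    (cn_injective K).injOn
  have hbdd : Bornology.IsBounded (t • normLeOne K) := (isBounded_normLeOne K).smul₀ t
  refine (ry_finite_inter_integerLattice K hbdd).subset ?_
  rintro _ ⟨a, ⟨_, h2, h3⟩, rfl⟩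
  refine ⟨?_, ?_⟩
  · rw [cn_smul_normLeOne K ht0, htn]
    exact ⟨h2, h3⟩
  · simp only [SetLike.mem_coe, mixedEmbedding.integerLattice, LinearMap.mem_range]
    exact ⟨a, rfl⟩

theorem ry_finite_coneSet (J : Ideal (𝓞 K)) (a₀ : 𝓞 K) (Y : ℝ) : (coneSet K J a₀ Y).Finite := by
  refine (ry_finite_red_top K Y).subset ?_
  rintro a ⟨_, h2, h3⟩
  exact ⟨Submodule.mem_top, h2, h3⟩

theorem ry_finite_red (J : Ideal (𝓞 K)) (Y : ℝ) : (ryRed K J Y).Finite := by
  rw [ryRed_eq_coneSet]; exact ry_finite_coneSet K J 0 Y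


/-- nonzero principal ideals contained in `J` of norm at most `Y` -/
def ryPrinc (J : Ideal (𝓞 K)) (Y : ℝ) : Set (Ideal (𝓞 K)) :=
  {I | I ≠ ⊥ ∧ I ≤ J ∧ I.IsPrincipal ∧ (absNorm I : ℝ) ≤ Y}

theorem ry_finite_absNorm_le (Y : ℝ) : {I : Ideal (𝓞 K) | (absNorm I : ℝ) ≤ Y}.Finite := by
  refine (Ideal.finite_setOfPred_absNorm_le (S := 𝓞 K) ⌊Y⌋₊).subset ?_
  intro I hI
  simp only [Set.mem_ofPred_eq] at hI ⊢
  exact Nat.le_floor hI

theorem ry_finite_princ (J : Ideal (𝓞 K)) (Y : ℝ) : (ryPrinc K J Y).Finite :=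
  (ry_finite_absNorm_le K Y).subset fun _ hI => hI.2.2.2

/-- **Torsion multiplicity**: summing `G (span {a})` over the reduced elements `a ∈ J` of norm
`≤ Y` counts every nonzero principal ideal `I ≤ J` of norm `≤ Y` exactly `torsionOrder K` times. -/
theorem ry_sum_red (G : Ideal (𝓞 K) → ℂ) (J : Ideal (𝓞 K)) (Y : ℝ) :
    ∑ a ∈ (ry_finite_red K J Y).toFinset, G (span {a}) =
      torsionOrder K * ∑ I ∈ (ry_finite_princ K J Y).toFinset, G I := by
  have hmaps : ∀ a ∈ (ry_finite_red K J Y).toFinset,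
      span {a} ∈ (ry_finite_princ K J Y).toFinset := by
    intro a ha
    rw [Set.Finite.mem_toFinset] at ha ⊢
    obtain ⟨h1, h2, h3⟩ := ha
    refine ⟨?_, ?_, ⟨⟨a, rfl⟩⟩, ?_⟩
    · rw [Ne, Ideal.span_singleton_eq_bot]
      exact ry_ne_zero_of_mem_cone h2
    · rw [Ideal.span_singleton_le_iff_mem]; exact h1
    · rw [← ry_norm_eq_absNorm]; exact h3
  rw [← Finset.sum_fiberwise_of_maps_to hmaps, Finset.mul_sum]
  refine Finset.sum_congr rfl fun I hI => ?_
  rw [Set.Finite.mem_toFinset] at hI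
  obtain ⟨hI0, hIJ, hIp, hIY⟩ := hI
  have hcard : (Finset.filter (fun a => span {a} = I) (ry_finite_red K J Y).toFinset).card
      = torsionOrder K := by
    rw [← ry_ncard_fiber hI0 hIJ hIp hIY, ← Set.ncard_coe_finset]
    congr 1
    ext a
    simp [Set.Finite.mem_toFinset]
  rw [Finset.sum_congr rfl (g := fun _ => G I)
    (fun a ha => by rw [(Finset.mem_filter.1 ha).2]), Finset.sum_const, hcard, nsmul_eq_mul]

end Fermat.Agent.S14
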