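import Mathlib
import Fermat.Agent.S14.Count.RayGen

/-!
# Sums over reduced elements by residue classes (S14, block Q3, stage 2; file RayResidue)

`ry_sum_psi` (Theorem A): for `J` coprime to `m` and `ψ` a bounded function of the residue class
mod `m` of a nonzero algebraic integer, the sum of `ψ` over the reduced elements of `J` of norm
`≤ Y` is `ryPsiSum hm ψ * coneDensity K * Y / (N J * N m) + O (Y ^ (1 - 1/n))`.
-/

set_option autoImplicit false
set_option linter.unusedSectionVars false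

namespace Fermat.Agent.S14

open Metric Set Module MeasureTheory Pointwise Ideal
open NumberField NumberField.InfinitePlace NumberField.mixedEmbedding
  NumberField.mixedEmbedding.fundamentalCone NumberField.Units
open scoped NNReal Classical nonZeroDivisors

variable {K : Type*} [Field K] [NumberField K]

theorem ry_exists_lift {m : Ideal (𝓞 K)} (hm : m ≠ ⊥) (r : 𝓞 K ⧸ m) :
    ∃ a : 𝓞 K, a ≠ 0 ∧ Ideal.Quotient.mk m a = r := by
  obtain ⟨a, rfl⟩ := Ideal.Quotient.mk_surjective r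
  by_cases ha : a = 0
  · obtain ⟨b, hbm, hb0⟩ := Submodule.exists_mem_ne_zero_of_ne_bot hm
    refine ⟨b, hb0, ?_⟩
    rw [ha, map_zero, Ideal.Quotient.eq_zero_iff_mem]
    exact hbm
  · exact ⟨a, ha, rfl⟩

/-- a nonzero lift of a residue class -/
noncomputable def ryLift {m : Ideal (𝓞 K)} (hm : m ≠ ⊥) (r : 𝓞 K ⧸ m) : 𝓞 K :=
  (ry_exists_lift hm r).choose

theorem ryLift_ne_zero {m : Ideal (𝓞 K)} (hm : m ≠ ⊥) (r : 𝓞 K ⧸ m) : ryLift hm r ≠ 0 :=
  (ry_exists_lift hm r).choose_spec.1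

theorem ryLift_mk {m : Ideal (𝓞 K)} (hm : m ≠ ⊥) (r : 𝓞 K ⧸ m) :
    Ideal.Quotient.mk m (ryLift hm r) = r :=
  (ry_exists_lift hm r).choose_spec.2

theorem ry_exists_mem_sub_mem {R : Type*} [CommRing R] {m J : Ideal R} (hJm : J ⊔ m = ⊤) (a : R) :
    ∃ b ∈ J, b - a ∈ m := by
  have h1 : (1 : R) ∈ J ⊔ m := by rw [hJm]; exact Submodule.mem_top
  obtain ⟨j, hj, μ, hμ, hjμ⟩ := Submodule.mem_sup.1 h1
  refine ⟨a * j, Ideal.mul_mem_left _ _ hj, ?_⟩
  have : a * j - a = - (a * μ) := by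
    have : j = 1 - μ := eq_sub_of_add_eq hjμ
    rw [this]; ring
  rw [this]
  exact (Ideal.neg_mem_iff _).2 (Ideal.mul_mem_left _ _ hμ)

/-- representatives inside an ideal `J` coprime to `m` -/
theorem ry_exists_rep {m J : Ideal (𝓞 K)} (hm : m ≠ ⊥) (hJ : J ≠ ⊥) (hJm : J ⊔ m = ⊤)
    (r : 𝓞 K ⧸ m) : ∃ a : 𝓞 K, a ∈ J ∧ a ≠ 0 ∧ Ideal.Quotient.mk m a = r := by
  obtain ⟨a, rfl⟩ := Ideal.Quotient.mk_surjective r
  obtain ⟨b, hbJ, hba⟩ := ry_exists_mem_sub_mem hJm a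
  have hmk : Ideal.Quotient.mk m b = Ideal.Quotient.mk m a := Ideal.Quotient.eq.2 hba
  by_cases h0 : b = 0
  · have hJm0 : J * m ≠ ⊥ := mul_ne_zero hJ hm
    obtain ⟨c, hc, hc0⟩ := Submodule.exists_mem_ne_zero_of_ne_bot hJm0
    refine ⟨c, Ideal.mul_le_left hc, hc0, ?_⟩
    rw [← hmk, h0, map_zero, Ideal.Quotient.eq_zero_iff_mem]
    exact Ideal.mul_le_right hc
  · exact ⟨b, hbJ, h0, hmk⟩


/-- the reduced elements of `J` in a residue class mod `m` form a shifted-lattice cone set -/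
theorem ry_filter_eq {m J : Ideal (𝓞 K)} (hJm : J ⊔ m = ⊤) (Y : ℝ) (r : 𝓞 K ⧸ m) {b : 𝓞 K}
    (hbJ : b ∈ J) (hbr : Ideal.Quotient.mk m b = r) :
    {a | a ∈ ryRed K J Y ∧ Ideal.Quotient.mk m a = r} = coneSet K (J * m) b Y := by
  have hinf : J ⊓ m = J * m :=
    (Ideal.mul_eq_inf_of_isCoprime (Ideal.isCoprime_iff_sup_eq.2 hJm)).symm
  ext a
  simp only [ryRed, coneSet, Set.mem_ofPred_eq]
  constructor
  · rintro ⟨⟨haJ, hc, hn⟩, har⟩
    refine ⟨?_, hc, hn⟩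
    rw [← hinf]
    refine ⟨J.sub_mem haJ hbJ, ?_⟩
    rw [SetLike.mem_coe, ← Ideal.Quotient.eq, har, hbr]
  · rintro ⟨hab, hc, hn⟩
    rw [← hinf] at hab
    refine ⟨⟨?_, hc, hn⟩, ?_⟩
    · have := J.add_mem hab.1 hbJ
      simpa using this
    · rw [← hbr, Ideal.Quotient.eq]
      exact hab.2

/-- the sum of the values of a function on residue classes, over nonzero lifts -/
noncomputable def ryPsiSum {m : Ideal (𝓞 K)} (hm : m ≠ ⊥) (ψ : 𝓞 K → ℂ) : ℂ :=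
  ∑ᶠ r : 𝓞 K ⧸ m, ψ (ryLift hm r)

/-- **Theorem A**: sums of a function of the residue class mod `m` over the reduced elements of an
ideal `J` coprime to `m`, with power saving error term. -/
theorem ry_sum_psi {m J : Ideal (𝓞 K)} (hm : m ≠ ⊥) (hJ : J ≠ ⊥) (hJm : J ⊔ m = ⊤)
    (ψ : 𝓞 K → ℂ) (hψ1 : ∀ a, ‖ψ a‖ ≤ 1)
    (hψ : ∀ a b, a ≠ 0 → b ≠ 0 → a - b ∈ m → ψ a = ψ b) :
    ∃ C : ℝ, ∀ Y : ℝ, 1 ≤ Y →
      ‖∑ a ∈ (ry_finite_red K J Y).toFinset, ψ a -
        ryPsiSum hm ψ * ((coneDensity K * Y / (absNorm J * absNorm m) : ℝ) : ℂ)‖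
        ≤ C * Y ^ (1 - 1 / (finrank ℚ K : ℝ)) := by
  have hfin : Finite (𝓞 K ⧸ m) := Ideal.finiteQuotientOfFreeOfNeBot m hm
  have hft : Fintype (𝓞 K ⧸ m) := Fintype.ofFinite _
  have hJm0 : J * m ≠ ⊥ := mul_ne_zero hJ hm
  obtain ⟨C₀, hC₀⟩ := cone_count K ⟨J * m, mem_nonZeroDivisors_of_ne_zero hJm0⟩
  have hrep := fun r => ry_exists_rep hm hJ hJm r
  choose rep hrepJ hrep0 hrepr using hrep
  refine ⟨Fintype.card (𝓞 K ⧸ m) * C₀, fun Y hY => ?_⟩
  set e : ℝ := 1 - 1 / (finrank ℚ K : ℝ) with he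
  set D : ℝ := coneDensity K * Y / (absNorm J * absNorm m) with hD
  -- step 1: decompose according to residue classes
  have hdecomp : ∑ a ∈ (ry_finite_red K J Y).toFinset, ψ a =
      ∑ r : 𝓞 K ⧸ m, ψ (ryLift hm r) * ((coneSet K (J * m) (rep r) Y).ncard : ℂ) := by
    rw [← Finset.sum_fiberwise (ry_finite_red K J Y).toFinset (Ideal.Quotient.mk m) ψ]
    refine Finset.sum_congr rfl fun r _ => ?_
    have hset : (↑(Finset.filter (fun a => Ideal.Quotient.mk m a = r)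
        (ry_finite_red K J Y).toFinset) : Set (𝓞 K)) = coneSet K (J * m) (rep r) Y := by
      rw [← ry_filter_eq hJm Y r (hrepJ r) (hrepr r)]
      ext a
      simp [Set.Finite.mem_toFinset]
    have hval : ∀ a ∈ Finset.filter (fun a => Ideal.Quotient.mk m a = r)
        (ry_finite_red K J Y).toFinset, ψ a = ψ (ryLift hm r) := by
      intro a ha
      rw [Finset.mem_filter, Set.Finite.mem_toFinset] at ha
      obtain ⟨⟨_, hc, _⟩, har⟩ := ha
      apply hψ a _ (ry_ne_zero_of_mem_cone hc) (ryLift_ne_zero hm r)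
      rw [← Ideal.Quotient.eq, har, ryLift_mk]
    rw [Finset.sum_congr rfl hval, Finset.sum_const, nsmul_eq_mul, mul_comm, ← hset,
      Set.ncard_coe_finset]
  have hpsi : ryPsiSum hm ψ = ∑ r : 𝓞 K ⧸ m, ψ (ryLift hm r) := by
    rw [ryPsiSum, finsum_eq_sum_of_fintype]
  rw [hdecomp, hpsi, Finset.sum_mul, ← Finset.sum_sub_distrib]
  calc ‖∑ r : 𝓞 K ⧸ m, (ψ (ryLift hm r) * ((coneSet K (J * m) (rep r) Y).ncard : ℂ)
          - ψ (ryLift hm r) * ((D : ℝ) : ℂ))‖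
      ≤ ∑ r : 𝓞 K ⧸ m, ‖ψ (ryLift hm r) * ((coneSet K (J * m) (rep r) Y).ncard : ℂ)
          - ψ (ryLift hm r) * ((D : ℝ) : ℂ)‖ := norm_sum_le _ _
    _ ≤ ∑ _r : 𝓞 K ⧸ m, C₀ * Y ^ e := by
        refine Finset.sum_le_sum fun r _ => ?_
        rw [← mul_sub, norm_mul]
        have h1 := hC₀ Y hY (rep r)
        have h2 : ‖((coneSet K (J * m) (rep r) Y).ncard : ℂ) - ((D : ℝ) : ℂ)‖
            = |((coneSet K (J * m) (rep r) Y).ncard : ℝ) - D| := by
          rw [← Complex.ofReal_natCast, ← Complex.ofReal_sub, Complex.norm_real, Real.norm_eq_abs]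
        rw [h2]
        have h3 : D = coneDensity K * Y /
            (absNorm ((⟨J * m, mem_nonZeroDivisors_of_ne_zero hJm0⟩ : (Ideal (𝓞 K))⁰) :
              Ideal (𝓞 K)) : ℝ) := by
          rw [hD]
          simp only [map_mul, Nat.cast_mul]
        rw [h3]
        calc ‖ψ (ryLift hm r)‖ * _ ≤ 1 * _ :=
              mul_le_mul_of_nonneg_right (hψ1 _) (abs_nonneg _)
          _ = _ := one_mul _
          _ ≤ _ := h1
    _ = Fintype.card (𝓞 K ⧸ m) * C₀ * Y ^ e := by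
        rw [Finset.sum_const, Finset.card_univ, nsmul_eq_mul, mul_assoc]

end Fermat.Agent.S14
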