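import Mathlib
import Fermat.Agent.S14.Count.RayResidue
import Fermat.Agent.S14.Count.Moving

/-!
# Power-saving bound for sums of ray class characters (S14, block Q3; file RayCount)

`ry_charSum_bound`: let `m ≠ ⊥` be an ideal of `𝓞 K` and `X : Ideal (𝓞 K) →* ℂ` a completely
multiplicative function bounded by `1`, supported exactly on the ideals coprime to `m`, trivial on
the principal ideals generated by elements `≡ 1 mod m`, and not identically `1` on its support.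
Then `∑_{I ≠ ⊥, N I ≤ x} X I = O (x ^ (1 - 1/n))`.

No ray class group is needed: the ideals are sorted by their class in the ordinary class group;
for a representative `J` (coprime to `m`) of the inverse class the sum becomes a sum over the
reduced elements of `J`, which is evaluated by residue classes modulo `m` (`ry_sum_psi`); the main
terms are `ryCoeff / X J * x` and cancel by translation invariance over the class group.
-/

set_option autoImplicit false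
set_option linter.unusedSectionVars false

namespace Fermat.Agent.S14

open Metric Set Module MeasureTheory Pointwise Ideal
open NumberField NumberField.InfinitePlace NumberField.mixedEmbedding
  NumberField.mixedEmbedding.fundamentalCone NumberField.Units
open scoped NNReal Classical nonZeroDivisors

variable {K : Type*} [Field K] [NumberField K]

/-- the ideal class of a bare ideal (junk `1` at `⊥`) -/
noncomputable def ryCls (I : Ideal (𝓞 K)) : ClassGroup (𝓞 K) :=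
  if h : I = ⊥ then 1 else ClassGroup.mk0 ⟨I, mem_nonZeroDivisors_of_ne_zero h⟩

theorem ryCls_of_ne {I : Ideal (𝓞 K)} (h : I ≠ ⊥) :
    ryCls I = ClassGroup.mk0 ⟨I, mem_nonZeroDivisors_of_ne_zero h⟩ := by
  rw [ryCls, dif_neg h]

theorem ryCls_coe (I : (Ideal (𝓞 K))⁰) : ryCls (I : Ideal (𝓞 K)) = ClassGroup.mk0 I := by
  rw [ryCls_of_ne (nonZeroDivisors.coe_ne_zero I)]

theorem ryCls_mul {I J : Ideal (𝓞 K)} (hI : I ≠ ⊥) (hJ : J ≠ ⊥) :
    ryCls (I * J) = ryCls I * ryCls J := by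
  rw [ryCls_of_ne hI, ryCls_of_ne hJ, ryCls_of_ne (mul_ne_zero hI hJ), ← map_mul]
  rfl

theorem ryCls_eq_one_iff {I : Ideal (𝓞 K)} (hI : I ≠ ⊥) : ryCls I = 1 ↔ I.IsPrincipal := by
  rw [ryCls_of_ne hI, ClassGroup.mk0_eq_one_iff]

/-- nonzero ideals of norm at most `x` -/
theorem ry_finite_idealsLe (x : ℝ) : {I : Ideal (𝓞 K) | I ≠ ⊥ ∧ (absNorm I : ℝ) ≤ x}.Finite :=
  (ry_finite_absNorm_le K x).subset fun _ hI => hI.2

/-- nonzero ideals of norm at most `x` (as a finset) -/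
noncomputable def ryIdealsLe (K : Type*) [Field K] [NumberField K] (x : ℝ) :
    Finset (Ideal (𝓞 K)) := (ry_finite_idealsLe (K := K) x).toFinset

theorem ry_mem_idealsLe {x : ℝ} {I : Ideal (𝓞 K)} :
    I ∈ ryIdealsLe K x ↔ I ≠ ⊥ ∧ (absNorm I : ℝ) ≤ x := by
  rw [ryIdealsLe, Set.Finite.mem_toFinset]; rfl

/-- multiplication by `J` maps the ideals of norm `≤ x` in the class `(cls J)⁻¹` bijectively onto
the nonzero principal ideals contained in `J` of norm `≤ x * N J` -/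
theorem ry_sum_class_eq (X : Ideal (𝓞 K) →* ℂ) {J : Ideal (𝓞 K)} (hJ : J ≠ ⊥) (x : ℝ) :
    ∑ I' ∈ (ry_finite_princ K J (x * absNorm J)).toFinset, X I' =
      X J * ∑ I ∈ (ryIdealsLe K x).filter (fun I => ryCls I = (ryCls J)⁻¹), X I := by
  have hNJ : (0 : ℝ) < absNorm J := by
    exact_mod_cast Nat.pos_of_ne_zero (absNorm_eq_zero_iff.not.2 hJ)
  rw [Finset.mul_sum]
  symm
  refine Finset.sum_bij (fun I _ => J * I) ?_ ?_ ?_ ?_
  · intro I hI
    rw [Finset.mem_filter, ry_mem_idealsLe] at hI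
    obtain ⟨⟨hI0, hIx⟩, hIc⟩ := hI
    rw [Set.Finite.mem_toFinset]
    refine ⟨mul_ne_zero hJ hI0, Ideal.mul_le_left, ?_, ?_⟩
    · rw [← ryCls_eq_one_iff (mul_ne_zero hJ hI0), ryCls_mul hJ hI0, hIc, mul_inv_cancel]
    · rw [map_mul, Nat.cast_mul, mul_comm]
      exact mul_le_mul_of_nonneg_right hIx hNJ.le
  · intro I _ I' _ h
    exact mul_left_cancel₀ hJ h
  · intro I' hI'
    rw [Set.Finite.mem_toFinset] at hI'
    obtain ⟨hI'0, hI'J, hI'p, hI'x⟩ := hI'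
    obtain ⟨I, rfl⟩ := Ideal.dvd_iff_le.2 hI'J
    have hI0 : I ≠ ⊥ := by
      rintro rfl
      exact hI'0 (by simp)
    refine ⟨I, ?_, rfl⟩
    rw [Finset.mem_filter, ry_mem_idealsLe]
    refine ⟨⟨hI0, ?_⟩, ?_⟩
    · rw [map_mul, Nat.cast_mul, mul_comm] at hI'x
      exact le_of_mul_le_mul_right hI'x hNJ
    · have := (ryCls_eq_one_iff (mul_ne_zero hJ hI0)).2 hI'p
      rw [ryCls_mul hJ hI0] at this
      exact eq_inv_of_mul_eq_one_right this
  · intro I _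
    rw [map_mul]


section Main

variable {m : Ideal (𝓞 K)} (X : Ideal (𝓞 K) →* ℂ)

theorem ry_X_bot (hXn : ∃ a, X a ≠ 0 ∧ X a ≠ 1) : X ⊥ = 0 := by
  obtain ⟨a, _, ha1⟩ := hXn
  have h : X ⊥ = X ⊥ * X a := by rw [← map_mul, bot_mul]
  have h2 : X ⊥ * (1 - X a) = 0 := by rw [mul_sub, mul_one, ← h, sub_self]
  rcases mul_eq_zero.1 h2 with h3 | h3
  · exact h3
  · exact absurd (sub_eq_zero.1 h3).symm ha1

theorem ry_m_ne_top (hX0 : ∀ I, X I ≠ 0 ↔ I ⊔ m = ⊤) (hXn : ∃ a, X a ≠ 0 ∧ X a ≠ 1) :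
    m ≠ ⊤ := by
  rintro rfl
  exact (hX0 ⊥).2 (by simp) (ry_X_bot X hXn)

/-- `X (span {a})` only depends on the residue class of `a ≠ 0` modulo `m` -/
theorem ry_X_span_congr (hX0 : ∀ I, X I ≠ 0 ↔ I ⊔ m = ⊤)
    (hXp : ∀ α : 𝓞 K, α - 1 ∈ m → α ≠ 0 → X (span {α}) = 1) (hXn : ∃ a, X a ≠ 0 ∧ X a ≠ 1)
    (a b : 𝓞 K) (_ha : a ≠ 0) (_hb : b ≠ 0) (hab : a - b ∈ m) :
    X (span {a}) = X (span {b}) := by
  have hmt := ry_m_ne_top X hX0 hXn
  -- both spans have the same sup with `m`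
  have hsup : span {a} ⊔ m = span {b} ⊔ m := by
    apply le_antisymm
    · refine sup_le ?_ le_sup_right
      rw [Ideal.span_singleton_le_iff_mem]
      have : a = b + (a - b) := by abel
      rw [this]
      exact Ideal.add_mem _ (Ideal.mem_sup_left (Ideal.mem_span_singleton_self b))
        (Ideal.mem_sup_right hab)
    · refine sup_le ?_ le_sup_right
      rw [Ideal.span_singleton_le_iff_mem]
      have : b = a - (a - b) := by abel
      rw [this]
      exact Ideal.sub_mem _ (Ideal.mem_sup_left (Ideal.mem_span_singleton_self a))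
        (Ideal.mem_sup_right hab)
  by_cases hcop : span {a} ⊔ m = ⊤
  · -- coprime case
    have h1 : (1 : 𝓞 K) ∈ span {a} ⊔ m := by rw [hcop]; exact Submodule.mem_top
    obtain ⟨y, hy, μ, hμ, hyμ⟩ := Submodule.mem_sup.1 h1
    obtain ⟨c, rfl⟩ := Ideal.mem_span_singleton'.1 hy
    have hca : c * a - 1 ∈ m := by
      have : c * a - 1 = -μ := by rw [← hyμ]; abel
      rw [this]; exact (Ideal.neg_mem_iff _).2 hμ
    have hcb : c * b - 1 ∈ m := by
      have : c * b - 1 = (c * a - 1) - c * (a - b) := by rw [mul_sub]; abel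
      rw [this]
      exact Ideal.sub_mem _ hca (Ideal.mul_mem_left _ _ hab)
    have hne : ∀ z : 𝓞 K, z - 1 ∈ m → z ≠ 0 := by
      rintro z hz rfl
      apply hmt
      rw [Ideal.eq_top_iff_one]
      have : (1 : 𝓞 K) = -(0 - 1) := by simp
      rw [this]
      exact (Ideal.neg_mem_iff _).2 hz
    have e1 := hXp (c * a) hca (hne _ hca)
    have e2 := hXp (c * b) hcb (hne _ hcb)
    rw [← Ideal.span_singleton_mul_span_singleton, map_mul] at e1 e2
    have hc0 : X (span {c}) ≠ 0 := by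
      intro h; rw [h, zero_mul] at e1; exact zero_ne_one e1
    exact mul_left_cancel₀ hc0 (e1.trans e2.symm)
  · have ha0 : X (span {a}) = 0 := by
      by_contra h; exact hcop ((hX0 _).1 h)
    have hb0 : X (span {b}) = 0 := by
      by_contra h; exact hcop (hsup ▸ (hX0 _).1 h)
    rw [ha0, hb0]


/-- the common coefficient of the main terms -/
noncomputable def ryCoeff (hm : m ≠ ⊥) : ℂ :=
  ryPsiSum hm (fun a => X (span {a})) * ((coneDensity K / (absNorm m * torsionOrder K) : ℝ) : ℂ)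

/-- **Per class asymptotics**: for `J ≠ ⊥` coprime to `m`, the sum of `X` over the nonzero ideals
of norm `≤ x` in the class `(cls J)⁻¹` is `(ryCoeff / X J) * x + O (x ^ (1 - 1/n))`. -/
theorem ry_class_asymp (hm : m ≠ ⊥) (hX1 : ∀ I, ‖X I‖ ≤ 1) (hX0 : ∀ I, X I ≠ 0 ↔ I ⊔ m = ⊤)
    (hXp : ∀ α : 𝓞 K, α - 1 ∈ m → α ≠ 0 → X (span {α}) = 1) (hXn : ∃ a, X a ≠ 0 ∧ X a ≠ 1)
    {J : Ideal (𝓞 K)} (hJ : J ≠ ⊥) (hJm : J ⊔ m = ⊤) :
    ∃ B : ℝ, ∀ x : ℝ, 1 ≤ x →
      ‖∑ I ∈ (ryIdealsLe K x).filter (fun I => ryCls I = (ryCls J)⁻¹), X I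
        - ryCoeff X hm / X J * (x : ℂ)‖ ≤ B * x ^ (1 - 1 / (finrank ℚ K : ℝ)) := by
  set e : ℝ := 1 - 1 / (finrank ℚ K : ℝ) with he
  have he0 : 0 ≤ e := by
    have hn : (1 : ℝ) ≤ (finrank ℚ K : ℝ) := by exact_mod_cast (finrank_pos : 0 < finrank ℚ K)
    rw [he, sub_nonneg, div_le_one (by linarith)]
    exact hn
  obtain ⟨C, hC⟩ := ry_sum_psi hm hJ hJm (fun a => X (span {a})) (fun a => hX1 _)
    (ry_X_span_congr X hX0 hXp hXn)
  have hXJ : X J ≠ 0 := (hX0 J).2 hJm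
  have hNJ1 : (1 : ℝ) ≤ absNorm J := by
    exact_mod_cast Nat.one_le_iff_ne_zero.2 (absNorm_eq_zero_iff.not.2 hJ)
  have hNJ0 : (0 : ℝ) < absNorm J := lt_of_lt_of_le one_pos hNJ1
  have hNm0 : (absNorm m : ℝ) ≠ 0 := by
    exact_mod_cast (absNorm_eq_zero_iff.not.2 hm)
  have hw0 : (torsionOrder K : ℝ) ≠ 0 := by
    exact_mod_cast (torsionOrder_pos K).ne'
  have hwX : (torsionOrder K : ℂ) * X J ≠ 0 :=
    mul_ne_zero (by exact_mod_cast (torsionOrder_pos K).ne') hXJ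
  refine ⟨C * (absNorm J : ℝ) ^ e / ‖(torsionOrder K : ℂ) * X J‖, fun x hx => ?_⟩
  have hx0 : 0 < x := lt_of_lt_of_le one_pos hx
  set Y : ℝ := x * absNorm J with hY
  have hY1 : 1 ≤ Y := by nlinarith
  set A : ℂ := ∑ I ∈ (ryIdealsLe K x).filter (fun I => ryCls I = (ryCls J)⁻¹), X I with hA
  -- the sum over reduced elements in two ways
  have h1 := ry_sum_red K (fun I => X I) J Y
  rw [ry_sum_class_eq X hJ x, ← hA] at h1
  have h2 := hC Y hY1
  rw [h1] at h2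
  -- rewrite the main term
  have hmain : ryPsiSum hm (fun a => X (span {a})) *
      ((coneDensity K * Y / (absNorm J * absNorm m) : ℝ) : ℂ)
      = (torsionOrder K : ℂ) * X J * (ryCoeff X hm / X J * (x : ℂ)) := by
    rw [ryCoeff, hY]
    have : ((coneDensity K * (x * absNorm J) / (absNorm J * absNorm m) : ℝ) : ℂ)
        = ((coneDensity K / (absNorm m * torsionOrder K) : ℝ) : ℂ) * (torsionOrder K : ℂ)
          * (x : ℂ) := by
      rw [← Complex.ofReal_natCast (torsionOrder K), ← Complex.ofReal_mul, ← Complex.ofReal_mul]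
      congr 1
      field_simp
    rw [this]
    field_simp
  rw [hmain, ← mul_assoc, ← mul_sub, norm_mul] at h2
  have hpos : 0 < ‖(torsionOrder K : ℂ) * X J‖ := norm_pos_iff.2 hwX
  have h3 : ‖A - ryCoeff X hm / X J * (x : ℂ)‖
      ≤ C * Y ^ e / ‖(torsionOrder K : ℂ) * X J‖ := by
    rw [le_div_iff₀ hpos, mul_comm]; exact h2
  refine h3.trans (le_of_eq ?_)
  rw [hY, Real.mul_rpow hx0.le hNJ0.le]
  ring

end Main


/-- uniqueness of the linear coefficient in an asymptotic expansion with power saving -/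
theorem ry_coeff_unique {f : ℝ → ℂ} {c₁ c₂ : ℂ} {B₁ B₂ e : ℝ} (he : e < 1)
    (h1 : ∀ x : ℝ, 1 ≤ x → ‖f x - c₁ * (x : ℂ)‖ ≤ B₁ * x ^ e)
    (h2 : ∀ x : ℝ, 1 ≤ x → ‖f x - c₂ * (x : ℂ)‖ ≤ B₂ * x ^ e) : c₁ = c₂ := by
  have hlim : Filter.Tendsto (fun x : ℝ => (B₁ + B₂) * x ^ (-(1 - e))) Filter.atTop (nhds 0) := by
    have := (tendsto_rpow_neg_atTop (sub_pos.2 he)).const_mul (B₁ + B₂)
    simpa using this
  have hev : ∀ᶠ x : ℝ in Filter.atTop, ‖c₁ - c₂‖ ≤ (B₁ + B₂) * x ^ (-(1 - e)) := by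
    filter_upwards [Filter.eventually_ge_atTop (1 : ℝ)] with x hx
    have hx0 : 0 < x := lt_of_lt_of_le one_pos hx
    have h3 : ‖(c₁ - c₂) * (x : ℂ)‖ ≤ (B₁ + B₂) * x ^ e := by
      have : (c₁ - c₂) * (x : ℂ) = (f x - c₂ * (x : ℂ)) - (f x - c₁ * (x : ℂ)) := by ring
      rw [this]
      calc ‖(f x - c₂ * (x : ℂ)) - (f x - c₁ * (x : ℂ))‖
          ≤ ‖f x - c₂ * (x : ℂ)‖ + ‖f x - c₁ * (x : ℂ)‖ := norm_sub_le _ _
        _ ≤ B₂ * x ^ e + B₁ * x ^ e := add_le_add (h2 x hx) (h1 x hx)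
        _ = (B₁ + B₂) * x ^ e := by ring
    rw [norm_mul, Complex.norm_real, Real.norm_eq_abs, abs_of_pos hx0] at h3
    have h4 : x ^ (-(1 - e)) = x ^ e / x := by
      rw [neg_sub, Real.rpow_sub hx0, Real.rpow_one]
    rw [h4, ← mul_div_assoc, le_div_iff₀ hx0]
    exact h3
  have hle : ‖c₁ - c₂‖ ≤ 0 := ge_of_tendsto hlim hev
  exact sub_eq_zero.1 (norm_le_zero_iff.1 hle)


/-- **Q3: power-saving bound for sums of nontrivial ray class characters.** -/
theorem ry_charSum_bound {m : Ideal (𝓞 K)} (hm : m ≠ ⊥) (X : Ideal (𝓞 K) →* ℂ)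
    (hX1 : ∀ I, ‖X I‖ ≤ 1) (hX0 : ∀ I, X I ≠ 0 ↔ I ⊔ m = ⊤)
    (hXp : ∀ α : 𝓞 K, α - 1 ∈ m → α ≠ 0 → X (span {α}) = 1)
    (hXn : ∃ a, X a ≠ 0 ∧ X a ≠ 1) :
    ∃ C : ℝ, ∀ x : ℝ, 1 ≤ x →
      ‖∑ I ∈ ryIdealsLe K x, X I‖ ≤ C * x ^ (1 - 1 / (finrank ℚ K : ℝ)) := by
  set e : ℝ := 1 - 1 / (finrank ℚ K : ℝ) with he
  have he1 : e < 1 := by
    have : 0 < 1 / (finrank ℚ K : ℝ) := by
      have : 0 < finrank ℚ K := finrank_pos
      positivity
    rw [he]; linarith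
  obtain ⟨a₀, ha₀0, ha₀1⟩ := hXn
  have hXn' : ∃ a, X a ≠ 0 ∧ X a ≠ 1 := ⟨a₀, ha₀0, ha₀1⟩
  have ha₀b : a₀ ≠ ⊥ := by
    rintro rfl
    exact ha₀0 (ry_X_bot X hXn')
  -- representatives of the classes
  have hrep := fun C : ClassGroup (𝓞 K) => mv_exists_mk0_eq m hm C⁻¹
  choose Jc hJc hJcm using hrep
  have hJc0 : ∀ C, (Jc C : Ideal (𝓞 K)) ≠ ⊥ := fun C => nonZeroDivisors.coe_ne_zero _
  have hJcls : ∀ C, (ryCls (Jc C : Ideal (𝓞 K)))⁻¹ = C := by
    intro C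
    rw [ryCls_coe, hJc, inv_inv]
  -- per class asymptotics
  have hasym := fun C => ry_class_asymp X hm hX1 hX0 hXp hXn' (hJc0 C) (hJcm C)
  choose B hB using hasym
  simp only [hJcls] at hB
  set lam : ClassGroup (𝓞 K) → ℂ := fun C => ryCoeff X hm / X (Jc C : Ideal (𝓞 K)) with hlam
  -- the translation relation
  set g : ClassGroup (𝓞 K) := ryCls a₀ with hg
  have hrel : ∀ C, lam (C * g⁻¹) = lam C / X a₀ := by
    intro C
    have hJ'0 : (Jc C : Ideal (𝓞 K)) * a₀ ≠ ⊥ := mul_ne_zero (hJc0 C) ha₀b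
    have hXJ' : X ((Jc C : Ideal (𝓞 K)) * a₀) ≠ 0 := by
      rw [map_mul]
      exact mul_ne_zero ((hX0 _).2 (hJcm C)) ha₀0
    have hJ'm : (Jc C : Ideal (𝓞 K)) * a₀ ⊔ m = ⊤ := (hX0 _).1 hXJ'
    obtain ⟨B', hB'⟩ := ry_class_asymp X hm hX1 hX0 hXp hXn' hJ'0 hJ'm
    have hcls : (ryCls ((Jc C : Ideal (𝓞 K)) * a₀))⁻¹ = C * g⁻¹ := by
      rw [ryCls_mul (hJc0 C) ha₀b, mul_inv, hJcls]
    rw [hcls] at hB'
    have := ry_coeff_unique
      (f := fun x => ∑ I ∈ (ryIdealsLe K x).filter (fun I => ryCls I = C * g⁻¹), X I)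
      he1 (hB (C * g⁻¹)) hB'
    rw [hlam]
    simp only
    rw [this, map_mul, div_div]
  have hsum0 : ∑ C, lam C = 0 := by
    have h1 : ∑ C, lam (C * g⁻¹) = ∑ C, lam C :=
      Fintype.sum_equiv (Equiv.mulRight g⁻¹) _ _ (fun C => rfl)
    have h2 : ∑ C, lam (C * g⁻¹) = (∑ C, lam C) / X a₀ := by
      rw [Finset.sum_div]
      exact Finset.sum_congr rfl fun C _ => hrel C
    rw [h1] at h2
    have h3 : (∑ C, lam C) * (X a₀ - 1) = 0 := by
      have : (∑ C, lam C) * X a₀ = ∑ C, lam C := by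
        nth_rewrite 1 [h2]
        rw [div_mul_cancel₀ _ ha₀0]
      rw [mul_sub, mul_one, this, sub_self]
    rcases mul_eq_zero.1 h3 with h | h
    · exact h
    · exact absurd (sub_eq_zero.1 h) ha₀1
  refine ⟨∑ C, B C, fun x hx => ?_⟩
  have hfib : ∑ I ∈ ryIdealsLe K x, X I =
      ∑ C, ∑ I ∈ (ryIdealsLe K x).filter (fun I => ryCls I = C), X I :=
    (Finset.sum_fiberwise (ryIdealsLe K x) ryCls (fun I => X I)).symm
  have hsplit : ∑ I ∈ ryIdealsLe K x, X I =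
      ∑ C, (∑ I ∈ (ryIdealsLe K x).filter (fun I => ryCls I = C), X I - lam C * (x : ℂ)) := by
    rw [Finset.sum_sub_distrib, ← Finset.sum_mul, hsum0, zero_mul, sub_zero, hfib]
  rw [hsplit, Finset.sum_mul]
  exact (norm_sum_le _ _).trans (Finset.sum_le_sum fun C _ => hB C x hx)

end Fermat.Agent.S14
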