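import Mathlib
import Fermat.Agent.S14.Count.RayCount
import Fermat.Agent.S14.Density.ModulusIneq

/-!
# Q3 in the shape consumed by the density block (S14)

`ry_partialSumHyp : dn_PartialSumHyp E m` for every nonzero ideal `m`, hence the second
inequality with modulus `ry_second_inequality_modulus` without any analytic hypothesis.
-/

set_option autoImplicit false

namespace Fermat.Agent.S14

open NumberField Ideal Module

variable {E : Type*} [Field E] [NumberField E]

theorem ry_idealsLe_natCast (N : ℕ) : ryIdealsLe E (N : ℝ) = dn_normLe E N := by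
  ext I
  rw [ry_mem_idealsLe, dn_mem_normLe, Nat.cast_le]

/-- **Q3** in the shape of the density block. -/
theorem ry_partialSumHyp (m : Ideal (𝓞 E)) (hm : m ≠ ⊥) : dn_PartialSumHyp E m := by
  intro X hX1 hX0 hXp hXn
  obtain ⟨C, hC⟩ := ry_charSum_bound hm X hX1 hX0 hXp hXn
  have hn : (1 : ℝ) ≤ (finrank ℚ E : ℝ) := by exact_mod_cast (finrank_pos : 0 < finrank ℚ E)
  refine ⟨C, 1 - 1 / (finrank ℚ E : ℝ), ?_, ?_, fun N hN => ?_⟩
  · rw [sub_nonneg, div_le_one (by linarith)]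
    exact hn
  · have : 0 < 1 / (finrank ℚ E : ℝ) := by positivity
    linarith
  · have := hC N (by exact_mod_cast hN)
    rwa [ry_idealsLe_natCast] at this

/-- **Q4**: boundedness of the Dirichlet series of nontrivial ray class characters. -/
theorem ry_boundedHyp (m : Ideal (𝓞 E)) (hm : m ≠ ⊥) : dn_BoundedHyp E m :=
  dn_boundedHyp_of_partialSumHyp (ry_partialSumHyp m hm)

/-- **The second inequality with modulus**, unconditionally. -/
theorem ry_second_inequality_modulus (L : Type*) [Field L] [NumberField L] [Algebra E L]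
    [IsGalois E L] {Q : Type*} [CommGroup Q] [Finite Q] (m : Ideal (𝓞 E)) (hm : m ≠ ⊥)
    (c : Ideal (𝓞 E) → Q) (hc1 : c ⊤ = 1)
    (hc2 : ∀ a b : Ideal (𝓞 E), a ⊔ m = ⊤ → b ⊔ m = ⊤ → c (a * b) = c a * c b)
    (hc3 : ∀ x : Q, ∃ a : Ideal (𝓞 E), a ⊔ m = ⊤ ∧ c a = x)
    (hc4 : ∀ γ : 𝓞 E, γ - 1 ∈ m → γ ≠ 0 → c (Ideal.span {γ}) = 1)
    (hc5 : ∀ P : Ideal (𝓞 L), P.IsPrime → P ≠ ⊥ → (P.under (𝓞 E)) ⊔ m = ⊤ →
      P.inertiaDeg (𝓞 E) = 1 → c (P.under (𝓞 E)) = 1) :
    Nat.card Q ≤ Module.finrank E L :=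
  dn_second_inequality_modulus L m hm (ry_boundedHyp m hm) c hc1 hc2 hc3 hc4 hc5

end Fermat.Agent.S14
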