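import Mathlib

/-!
# Lipschitz parametrisation of the frontier of `normLeOne K`

For a number field `K` of degree `n`, the frontier of the set
`NumberField.mixedEmbedding.fundamentalCone.normLeOne K` (the elements of norm `≤ 1` of the
fundamental cone in the mixed space) is covered by finitely many Lipschitz images of the unit
cube `[0,1]^(n-1)`.  This is the geometric input for counting lattice points in `t • normLeOne K`
with an error term `O(t^(n-1))`.
-/

open NumberField NumberField.InfinitePlace NumberField.mixedEmbedding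
  NumberField.mixedEmbedding.fundamentalCone NumberField.Units
  NumberField.Units.dirichletUnitTheorem
open scoped NNReal Pointwise Classical

namespace Fermat.Agent.S14

noncomputable section

variable (K : Type*) [Field K] [NumberField K]

/-- The radial part of the parametrisation: `v w₀` is the scaling factor `ρ ∈ [0,1]` and the other
coordinates are the exponents of the fundamental units. -/
def nlRad (v : realSpace K) : realSpace K :=
  v w₀ • expMapBasis (fun w ↦ if w = w₀ then 0 else v w)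

theorem nl_exists_of_mem_frontier {y : mixedSpace K} (hy : y ∈ frontier (normLeOne K)) :
    ∃ v : realSpace K, v ∈ Set.Icc (0 : realSpace K) 1 ∧ (∃ w, v w = 0 ∨ v w = 1) ∧
      normAtAllPlaces y = nlRad K v := by
  have h1 : normAtAllPlaces y ∈ compactSet K := closure_normLeOne_subset K hy.1
  have h2 : normAtAllPlaces y ∉ expMapBasis '' interior (paramSet K) :=
    fun h ↦ hy.2 (subset_interior_normLeOne K h)
  obtain ⟨c, hc, _, ⟨x, hx, rfl⟩, hcx⟩ := h1
  have hx0 : x w₀ = 0 := by simpa using hx w₀ (Set.mem_univ _)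
  have hx1 : ∀ w, w ≠ w₀ → x w ∈ Set.Icc (0 : ℝ) 1 := fun w hw ↦ by
    simpa [hw] using hx w (Set.mem_univ _)
  have hxeq : (fun w ↦ if w = w₀ then 0 else (if w = w₀ then c else x w)) = x := by
    ext w
    by_cases hw : w = w₀
    · simp [hw, hx0]
    · simp [hw]
  refine ⟨fun w ↦ if w = w₀ then c else x w, ?_, ?_, ?_⟩
  · refine ⟨fun w ↦ ?_, fun w ↦ ?_⟩
    · by_cases hw : w = w₀
      · simpa [hw] using hc.1
      · simpa [hw] using (hx1 w hw).1
    · by_cases hw : w = w₀
      · simpa [hw] using hc.2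
      · simpa [hw] using (hx1 w hw).2
  · by_contra hcon
    simp only [not_exists, not_or, ← ne_eq] at hcon
    apply h2
    have hc0 : 0 < c := lt_of_le_of_ne hc.1 (by simpa using (hcon w₀).1.symm)
    have hc1 : c < 1 := lt_of_le_of_ne hc.2 (by simpa using (hcon w₀).2)
    refine ⟨fun w ↦ if w = w₀ then Real.log c else x w, ?_, ?_⟩
    · rw [interior_paramSet, Set.mem_univ_pi]
      intro w
      by_cases hw : w = w₀
      · simpa [hw] using Real.log_neg hc0 hc1
      · have := hcon w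
        simp only [hw, if_false] at this ⊢
        exact ⟨lt_of_le_of_ne (hx1 w hw).1 (Ne.symm this.1), lt_of_le_of_ne (hx1 w hw).2 this.2⟩
    · rw [expMapBasis_apply'', if_pos rfl, Real.exp_log hc0, ← hcx]
      congr 2
      ext w
      by_cases hw : w = w₀
      · simp [hw, hx0]
      · simp [hw]
  · rw [nlRad, if_pos rfl, hxeq]
    exact hcx.symm


/-- Polar coordinates on the mixed space: signs at the real places, angles (normalised to
`[0,1]`) at the complex places. -/
def nlPolar (ε : {w : InfinitePlace K // IsReal w} → SignType) (r : realSpace K)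
    (t : {w : InfinitePlace K // IsComplex w} → ℝ) : mixedSpace K :=
  (fun w ↦ (ε w : ℝ) * r w.1,
   fun w ↦ (r w.1 : ℂ) * Complex.exp (((2 * t w - 1) * Real.pi : ℝ) * Complex.I))

omit [NumberField K] in
theorem nl_exists_polar (y : mixedSpace K) :
    ∃ (ε : {w : InfinitePlace K // IsReal w} → SignType)
      (t : {w : InfinitePlace K // IsComplex w} → ℝ),
      t ∈ Set.Icc (0 : {w : InfinitePlace K // IsComplex w} → ℝ) 1 ∧
        y = nlPolar K ε (normAtAllPlaces y) t := by
  refine ⟨fun w ↦ SignType.sign (y.1 w), fun w ↦ (Complex.arg (y.2 w) / Real.pi + 1) / 2,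
    ⟨fun w ↦ ?_, fun w ↦ ?_⟩, ?_⟩
  · have h1 : -Real.pi < Complex.arg (y.2 w) := Complex.neg_pi_lt_arg _
    have h2 : -1 < Complex.arg (y.2 w) / Real.pi := by
      rw [lt_div_iff₀ Real.pi_pos]; linarith
    simp only [Pi.zero_apply]
    linarith
  · have h1 : Complex.arg (y.2 w) ≤ Real.pi := Complex.arg_le_pi _
    have h2 : Complex.arg (y.2 w) / Real.pi ≤ 1 := by
      rw [div_le_iff₀ Real.pi_pos]; linarith
    simp only [Pi.one_apply]
    linarith
  · refine Prod.ext (funext fun w ↦ ?_) (funext fun w ↦ ?_)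
    · simp only [nlPolar, normAtAllPlaces_apply, normAtPlace_apply_of_isReal w.2, Real.norm_eq_abs]
      exact (sign_mul_abs (y.1 w)).symm
    · simp only [nlPolar, normAtAllPlaces_apply, normAtPlace_apply_of_isComplex w.2]
      have : (2 * ((Complex.arg (y.2 w) / Real.pi + 1) / 2) - 1) * Real.pi = Complex.arg (y.2 w) := by
        field_simp
        ring
      rw [this]
      exact (Complex.norm_mul_exp_arg_mul_I (y.2 w)).symm

/-- The index type of the parameter space: one coordinate for each infinite place (the scaling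
factor at `w₀` and the exponents of the fundamental units at the other places) and one angle for
each complex place. -/
abbrev nlIdx := InfinitePlace K ⊕ {w : InfinitePlace K // IsComplex w}

/-- The full parametrisation. -/
def nlPsi (ε : {w : InfinitePlace K // IsReal w} → SignType) (u : nlIdx K → ℝ) : mixedSpace K :=
  nlPolar K ε (nlRad K (fun w ↦ u (Sum.inl w))) (fun w ↦ u (Sum.inr w))

theorem nl_exists_nlPsi_of_mem_frontier {y : mixedSpace K} (hy : y ∈ frontier (normLeOne K)) :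
    ∃ (ε : {w : InfinitePlace K // IsReal w} → SignType) (u : nlIdx K → ℝ),
      u ∈ Set.Icc (0 : nlIdx K → ℝ) 1 ∧ (∃ w, u (Sum.inl w) = 0 ∨ u (Sum.inl w) = 1) ∧
        y = nlPsi K ε u := by
  obtain ⟨v, hv, hw, hvy⟩ := nl_exists_of_mem_frontier K hy
  obtain ⟨ε, t, ht, hy'⟩ := nl_exists_polar K y
  refine ⟨ε, Sum.elim v t, ⟨?_, ?_⟩, hw, ?_⟩
  · rintro (w | w)
    · exact hv.1 w
    · exact ht.1 w
  · rintro (w | w)
    · exact hv.2 w
    · exact ht.2 w
  · rw [hy', hvy]
    rfl

theorem nl_nlRad_apply (v : realSpace K) (w : InfinitePlace K) :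
    nlRad K v w = v w₀ * Real.exp ((w.mult : ℝ)⁻¹ *
      ∑ i, (if i = w₀ then 0 else v i) * completeBasis K i w) := by
  simp only [nlRad, Pi.smul_apply, smul_eq_mul, expMapBasis_apply, expMap_apply,
    Module.Basis.equivFun_symm_apply, Finset.sum_apply]

theorem nl_contDiff_nlRad_comp (w : InfinitePlace K) :
    ContDiff ℝ ⊤ (fun u : nlIdx K → ℝ ↦ nlRad K (fun w' ↦ u (Sum.inl w')) w) := by
  simp only [nl_nlRad_apply]
  refine ContDiff.mul (contDiff_apply ℝ ℝ _)
    (ContDiff.exp (contDiff_const.mul (ContDiff.sum fun i _ ↦ ?_)))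
  by_cases hi : i = w₀
  · simp only [hi, if_true, zero_mul]
    exact contDiff_const
  · simp only [hi, if_false]
    fun_prop

theorem nl_contDiff_nlPsi (ε : {w : InfinitePlace K // IsReal w} → SignType) :
    ContDiff ℝ ⊤ (nlPsi K ε) := by
  unfold nlPsi nlPolar
  refine ContDiff.prodMk (contDiff_pi.2 fun w ↦ ?_) (contDiff_pi.2 fun w ↦ ?_)
  · exact contDiff_const.mul (nl_contDiff_nlRad_comp K w.1)
  · refine ContDiff.mul ?_ ?_
    · exact Complex.ofRealCLM.contDiff.comp (nl_contDiff_nlRad_comp K w.1)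
    · refine ContDiff.cexp (ContDiff.mul ?_ contDiff_const)
      refine Complex.ofRealCLM.contDiff.comp ?_
      exact ((contDiff_const.mul (contDiff_apply ℝ ℝ _)).sub contDiff_const).mul contDiff_const

theorem nl_exists_lipschitzOnWith_nlPsi (ε : {w : InfinitePlace K // IsReal w} → SignType) :
    ∃ L : ℝ≥0, LipschitzOnWith L (nlPsi K ε) (Set.Icc 0 1) :=
  (nl_contDiff_nlPsi K ε).contDiffOn.exists_lipschitzOnWith (by simp) (convex_Icc 0 1)
    isCompact_Icc

theorem nl_card_nlIdx : Fintype.card (nlIdx K) = Module.finrank ℚ K := by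
  rw [Fintype.card_sum, card_eq_nrRealPlaces_add_nrComplexPlaces,
    ← card_add_two_mul_card_eq_rank K]
  ring

theorem nl_card_nlIdx_ne (j₀ : nlIdx K) :
    Fintype.card {i : nlIdx K // i ≠ j₀} = Module.finrank ℚ K - 1 := by
  rw [Fintype.card_subtype_compl, nl_card_nlIdx, Fintype.card_subtype_eq]

/-- Reindexing of the coordinates of a face of the unit cube. -/
def nlFaceEquiv (j₀ : nlIdx K) : {i : nlIdx K // i ≠ j₀} ≃ Fin (Module.finrank ℚ K - 1) :=
  Fintype.equivFinOfCardEq (nl_card_nlIdx_ne K j₀)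

/-- The affine embedding of `[0,1]^(n-1)` as the face `u j₀ = c` of the unit cube. -/
def nlFace (j₀ : nlIdx K) (c : ℝ) (v : Fin (Module.finrank ℚ K - 1) → ℝ) : nlIdx K → ℝ :=
  fun i ↦ if h : i = j₀ then c else v (nlFaceEquiv K j₀ ⟨i, h⟩)

theorem nl_lipschitzWith_nlFace (j₀ : nlIdx K) (c : ℝ) : LipschitzWith 1 (nlFace K j₀ c) := by
  refine LipschitzWith.of_dist_le_mul fun v v' ↦ ?_
  rw [NNReal.coe_one, one_mul, dist_pi_le_iff dist_nonneg]
  intro i
  by_cases h : i = j₀
  · simp [nlFace, h]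
  · simp only [nlFace, h, dif_neg, not_false_eq_true]
    exact dist_le_pi_dist v v' _

theorem nl_nlFace_mem_Icc (j₀ : nlIdx K) {c : ℝ} (hc : c ∈ Set.Icc (0 : ℝ) 1)
    {v : Fin (Module.finrank ℚ K - 1) → ℝ}
    (hv : v ∈ Set.Icc (0 : Fin (Module.finrank ℚ K - 1) → ℝ) 1) :
    nlFace K j₀ c v ∈ Set.Icc (0 : nlIdx K → ℝ) 1 := by
  refine ⟨fun i ↦ ?_, fun i ↦ ?_⟩
  · by_cases h : i = j₀
    · simpa [nlFace, h] using hc.1
    · simpa [nlFace, h] using hv.1 _
  · by_cases h : i = j₀
    · simpa [nlFace, h] using hc.2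
    · simpa [nlFace, h] using hv.2 _

theorem nl_exists_nlFace_eq (j₀ : nlIdx K) {u : nlIdx K → ℝ}
    (hu : u ∈ Set.Icc (0 : nlIdx K → ℝ) 1) :
    ∃ v ∈ Set.Icc (0 : Fin (Module.finrank ℚ K - 1) → ℝ) 1, nlFace K j₀ (u j₀) v = u := by
  refine ⟨fun k ↦ u ((nlFaceEquiv K j₀).symm k).1, ⟨fun k ↦ hu.1 _, fun k ↦ hu.2 _⟩, ?_⟩
  ext i
  by_cases h : i = j₀
  · simp [nlFace, h]
  · simp [nlFace, h]

/-- The finite family of face parametrisations. -/
def nlFaceMap (j : ({w : InfinitePlace K // IsReal w} → SignType) × InfinitePlace K × Bool) :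
    (Fin (Module.finrank ℚ K - 1) → ℝ) → mixedSpace K :=
  nlPsi K j.1 ∘ nlFace K (Sum.inl j.2.1) (if j.2.2 then 1 else 0)

theorem nl_frontier_normLeOne_subset_iUnion_nlFaceMap :
    frontier (normLeOne K) ⊆ ⋃ j, nlFaceMap K j '' Set.Icc 0 1 := by
  intro y hy
  obtain ⟨ε, u, hu, ⟨w, hw⟩, rfl⟩ := nl_exists_nlPsi_of_mem_frontier K hy
  obtain ⟨v, hv, hvu⟩ := nl_exists_nlFace_eq K (Sum.inl w) hu
  rcases hw with hw | hw
  · refine Set.mem_iUnion.2 ⟨(ε, w, false), v, hv, ?_⟩
    simp only [nlFaceMap, Function.comp_apply, Bool.false_eq_true, if_false]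
    rw [← hw, hvu]
  · refine Set.mem_iUnion.2 ⟨(ε, w, true), v, hv, ?_⟩
    simp only [nlFaceMap, Function.comp_apply, if_true]
    rw [← hw, hvu]

theorem nl_exists_lipschitzOnWith_nlFaceMap :
    ∃ L : ℝ≥0, ∀ j, LipschitzOnWith L (nlFaceMap K j) (Set.Icc 0 1) := by
  choose Lε hLε using nl_exists_lipschitzOnWith_nlPsi K
  refine ⟨Finset.univ.sup Lε, fun j ↦ ?_⟩
  have h1 : LipschitzOnWith (Finset.univ.sup Lε) (nlPsi K j.1) (Set.Icc 0 1) :=
    (hLε j.1).weaken (Finset.le_sup (Finset.mem_univ j.1))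
  have h2 : LipschitzOnWith 1 (nlFace K (Sum.inl j.2.1) (if j.2.2 then 1 else 0)) (Set.Icc 0 1) :=
    (nl_lipschitzWith_nlFace K _ _).lipschitzOnWith
  have h3 : Set.MapsTo (nlFace K (Sum.inl j.2.1) (if j.2.2 then 1 else 0)) (Set.Icc 0 1)
      (Set.Icc 0 1) := fun v hv ↦ nl_nlFace_mem_Icc K _ (by split_ifs <;> simp) hv
  have h4 := h1.comp h2 h3
  rw [mul_one] at h4
  exact h4

/-- **Lipschitz parametrisation of the frontier of `normLeOne K`**: it is covered by finitely many
images of the unit cube `[0,1]^(n-1)` under maps that are Lipschitz on the cube. -/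
theorem nl_frontier_normLeOne_subset :
    ∃ (m : ℕ) (φ : Fin m → (Fin (Module.finrank ℚ K - 1) → ℝ) → mixedSpace K) (L : ℝ≥0),
      (∀ j, LipschitzOnWith L (φ j) (Set.Icc 0 1)) ∧
        frontier (normLeOne K) ⊆ ⋃ j, φ j '' Set.Icc 0 1 := by
  obtain ⟨L, hL⟩ := nl_exists_lipschitzOnWith_nlFaceMap K
  let e := Fintype.equivFin
    (({w : InfinitePlace K // IsReal w} → SignType) × InfinitePlace K × Bool)
  refine ⟨_, fun k ↦ nlFaceMap K (e.symm k), L, fun k ↦ hL _, ?_⟩
  refine (nl_frontier_normLeOne_subset_iUnion_nlFaceMap K).trans ?_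
  refine Set.iUnion_subset fun j ↦ ?_
  refine Set.subset_iUnion_of_subset (e j) ?_
  simp only [Equiv.symm_apply_apply]
  exact subset_rfl

/-- Clamping to the unit cube. -/
def nlClamp {ι : Type*} (v : ι → ℝ) : ι → ℝ := fun i ↦ max 0 (min 1 (v i))

theorem nl_lipschitzWith_nlClamp {ι : Type*} [Fintype ι] :
    LipschitzWith 1 (nlClamp : (ι → ℝ) → ι → ℝ) := by
  refine LipschitzWith.of_dist_le_mul fun v v' ↦ ?_
  rw [NNReal.coe_one, one_mul, dist_pi_le_iff dist_nonneg]
  intro i
  have h : LipschitzWith 1 (fun x : ι → ℝ ↦ max 0 (min 1 (x i))) :=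
    ((LipschitzWith.eval i).const_min 1).const_max 0
  have := h.dist_le_mul v v'
  simpa [nlClamp] using this

theorem nl_nlClamp_mem_Icc {ι : Type*} (v : ι → ℝ) : nlClamp v ∈ Set.Icc (0 : ι → ℝ) 1 :=
  ⟨fun _ ↦ le_max_left _ _, fun _ ↦ max_le zero_le_one (min_le_left _ _)⟩

theorem nl_nlClamp_of_mem_Icc {ι : Type*} {v : ι → ℝ} (hv : v ∈ Set.Icc (0 : ι → ℝ) 1) :
    nlClamp v = v := by
  ext i
  have h0 : 0 ≤ v i := hv.1 i
  have h1 : v i ≤ 1 := hv.2 i
  simp only [nlClamp]
  rw [min_eq_right h1, max_eq_right h0]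

variable (K : Type*) [Field K] [NumberField K]

/-- Global version of `nl_frontier_normLeOne_subset`, with maps that are Lipschitz on the whole
space. -/
theorem nl_frontier_normLeOne_subset' :
    ∃ (m : ℕ) (φ : Fin m → (Fin (Module.finrank ℚ K - 1) → ℝ) → mixedSpace K) (L : ℝ≥0),
      (∀ j, LipschitzWith L (φ j)) ∧
        frontier (normLeOne K) ⊆ ⋃ j, φ j '' Set.Icc 0 1 := by
  obtain ⟨m, φ, L, hL, hφ⟩ := nl_frontier_normLeOne_subset K
  refine ⟨m, fun j ↦ φ j ∘ nlClamp, L, fun j ↦ ?_, hφ.trans ?_⟩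
  · have h := (hL j).comp (nl_lipschitzWith_nlClamp.lipschitzOnWith (s := Set.univ))
      (fun v _ ↦ nl_nlClamp_mem_Icc v)
    rw [mul_one, lipschitzOnWith_univ] at h
    exact h
  · refine Set.iUnion_mono fun j ↦ ?_
    rintro _ ⟨v, hv, rfl⟩
    exact ⟨v, hv, by simp [nl_nlClamp_of_mem_Icc hv]⟩

end

end Fermat.Agent.S14
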