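import Mathlib
import Fermat.Agent.S14.Count.CoveringDim
import Fermat.Agent.S14.Count.NormLeOneLipschitz

/-!
# The frontier of `normLeOne K` has covering dimension `n - 1`

Wiring of `nl_frontier_normLeOne_subset` (Lipschitz parametrisation of the frontier) with the
covering-dimension toolkit: this is the hypothesis of `lc_main_lattice` for `D = normLeOne K`.
-/

open NumberField NumberField.mixedEmbedding NumberField.mixedEmbedding.fundamentalCone
open scoped NNReal Pointwise Classical

namespace Fermat.Agent.S14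

/-- The unit cube `[0,1]^d` has covering dimension `d`. -/
theorem nl_hasCoveringDim_Icc (d : ℕ) :
    HasCoveringDim d (Set.Icc (0 : Fin d → ℝ) 1) := by
  have h : HasCoveringDim (∑ _i : Fin d, 1)
      (Set.pi Set.univ fun _ : Fin d ↦ Set.Icc (0 : ℝ) 1) :=
    HasCoveringDim.pi fun _ ↦ HasCoveringDim.of_isBounded_real (Metric.isBounded_Icc 0 1)
  have hd : (∑ _i : Fin d, 1) = d := by simp
  rw [hd] at h
  have hset : (Set.pi Set.univ fun _ : Fin d ↦ Set.Icc (0 : ℝ) 1) = Set.Icc (0 : Fin d → ℝ) 1 := by
    ext x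
    simp only [Set.mem_pi, Set.mem_univ, Set.mem_Icc, forall_true_left, Pi.le_def, Pi.zero_apply,
      Pi.one_apply]
    exact forall_and
  rwa [hset] at h

variable (K : Type*) [Field K] [NumberField K]

/-- **The frontier of `normLeOne K` has covering dimension `n - 1`**, `n = [K : ℚ]`. -/
theorem nl_hasCoveringDim_frontier_normLeOne :
    HasCoveringDim (Module.finrank ℚ K - 1) (frontier (normLeOne K)) := by
  obtain ⟨m, φ, L, hL, hφ⟩ := nl_frontier_normLeOne_subset K
  refine HasCoveringDim.mono hφ (HasCoveringDim.iUnion fun j ↦ ?_)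
  exact HasCoveringDim.image_lipschitzOn (hL j) (nl_hasCoveringDim_Icc _)

/-- Lattice point counting in `t • normLeOne K` with error term `O(t^(n-1))`, uniformly in the
translate of the lattice. -/
theorem nl_card_smul_normLeOne_inter_lattice
    (L : Submodule ℤ (mixedSpace K)) [DiscreteTopology L] [IsZLattice ℝ L]
    (μ : MeasureTheory.Measure (mixedSpace K)) [μ.IsAddHaarMeasure] :
    ∃ C : ℝ, ∀ t : ℝ, 1 ≤ t → ∀ v : mixedSpace K,
      |(Nat.card ↥((t • normLeOne K) ∩ (v +ᵥ (L : Set (mixedSpace K)))) : ℝ)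
          - μ.real (normLeOne K) * t ^ Module.finrank ℚ K / ZLattice.covolume L μ|
        ≤ C * t ^ (Module.finrank ℚ K - 1) := by
  have h := lc_main_lattice L μ (normLeOne K) (isBounded_normLeOne K) _
    (nl_hasCoveringDim_frontier_normLeOne K)
  rwa [mixedEmbedding.finrank] at h

/-- The form without translates and without explicit constants (`cc_CountHyp` of the class-count
block). -/
theorem nl_countHyp (L : Submodule ℤ (mixedSpace K)) [DiscreteTopology L] [IsZLattice ℝ L] :
    ∃ κ C : ℝ, ∀ t : ℝ, 1 ≤ t →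
      |(Nat.card ↥((t • normLeOne K) ∩ (L : Set (mixedSpace K))) : ℝ)
          - κ * t ^ Module.finrank ℚ K| ≤ C * t ^ (Module.finrank ℚ K - 1) := by
  obtain ⟨C, hC⟩ := nl_card_smul_normLeOne_inter_lattice K L MeasureTheory.volume
  refine ⟨MeasureTheory.volume.real (normLeOne K) / ZLattice.covolume L MeasureTheory.volume, C,
    fun t ht ↦ ?_⟩
  have h := hC t ht 0
  rw [zero_vadd] at h
  rwa [div_mul_eq_mul_div]

end Fermat.Agent.S14
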