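import Fermat.Agent.S14.Count.ClassLSeries
import Fermat.Agent.S14.Count.NormLeOneFrontier

/-!
# S14 / Count / ClassBounded

Unconditional form (modulus one): the lattice point counting hypothesis holds, hence the Dirichlet
series of a mean-zero function on the class group is bounded on `(1, 2]`, and the number of
ideals of norm `≤ s` in a class is `κ s + O (s ^ (1 - 1 / n))`.
-/

namespace Fermat.Agent.S14

open NumberField Ideal Module

open scoped nonZeroDivisors

variable (K : Type*) [Field K] [NumberField K]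

/-- The lattice point counting hypothesis holds. -/
theorem cc_countHyp : cc_CountHyp K := fun L _ _ ↦ nl_countHyp K L

variable {K}

/-- The number of nonzero integral ideals of norm `≤ s` in a fixed ideal class is
`cc_kappa K * s + O (s ^ (1 - 1 / n))`. -/
theorem cc_count_class_uncond (C : ClassGroup (𝓞 K)) :
    ∃ B : ℝ, ∀ s : ℝ, 1 ≤ s →
      |(Nat.card {I : (Ideal (𝓞 K))⁰ //
          absNorm (I : Ideal (𝓞 K)) ≤ s ∧ ClassGroup.mk0 I = C} : ℝ) - cc_kappa K * s|
        ≤ B * s ^ (1 - 1 / (finrank ℚ K : ℝ)) :=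
  cc_count_class (cc_countHyp K).to' C

/-- The Dirichlet series of a mean-zero function of the ideal class is bounded on `(1, 2]`. -/
theorem cl_norm_tsum_class_le (c : ClassGroup (𝓞 K) → ℂ) (hc : ∑ C, c C = 0) :
    ∃ B : ℝ, ∀ s ∈ Set.Ioc (1 : ℝ) 2,
      ‖∑' I : (Ideal (𝓞 K))⁰,
        c (ClassGroup.mk0 I) * ((absNorm (I : Ideal (𝓞 K)) : ℕ) : ℂ) ^ (-(s : ℂ))‖ ≤ B :=
  cl_norm_tsum_le_of_countHyp (cc_countHyp K) c hc

end Fermat.Agent.S14
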