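import Mathlib

/-!
# S14 / Count / ClassCount (abstract Q3 for the class group)

Counting integral ideals of bounded norm in a fixed ideal class, with a power-saving error term,
assuming a lattice point count with error term in the homogeneous expansions of `normLeOne K`.
-/

namespace Fermat.Agent.S14

open NumberField NumberField.mixedEmbedding NumberField.mixedEmbedding.fundamentalCone
  NumberField.Units Ideal Filter Topology Module

open scoped nonZeroDivisors Pointwise Real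

variable (K : Type*) [Field K] [NumberField K]

open scoped Classical in
/-- Lattice point counting hypothesis (output of the Lipschitz-boundary counting), `t`-form:
the number of points of a lattice `L` in `t • normLeOne K` is `κ t ^ n + O (t ^ (n - 1))`. -/
def cc_CountHyp : Prop :=
  ∀ (L : Submodule ℤ (mixedSpace K)) [DiscreteTopology L] [IsZLattice ℝ L],
    ∃ κ C : ℝ, ∀ t : ℝ, 1 ≤ t →
      |(Nat.card ↥((t • normLeOne K) ∩ (L : Set (mixedSpace K))) : ℝ) - κ * t ^ finrank ℚ K|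
        ≤ C * t ^ (finrank ℚ K - 1)

open scoped Classical in
/-- Lattice point counting hypothesis, `s`-form: the number of points `x` of a lattice `L` in the
fundamental cone with `norm x ≤ s` is `κ s + O (s ^ (1 - 1 / n))`. -/
def cc_CountHyp' : Prop :=
  ∀ (L : Submodule ℤ (mixedSpace K)) [DiscreteTopology L] [IsZLattice ℝ L],
    ∃ κ C : ℝ, ∀ s : ℝ, 1 ≤ s →
      |(Nat.card ↥({x | x ∈ fundamentalCone K ∧ mixedEmbedding.norm x ≤ s} ∩
          (L : Set (mixedSpace K))) : ℝ) - κ * s|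
        ≤ C * s ^ (1 - 1 / (finrank ℚ K : ℝ))

variable {K}

theorem cc_smul_normLeOne {t : ℝ} (ht : 0 < t) :
    t • normLeOne K =
      {x | x ∈ fundamentalCone K ∧ mixedEmbedding.norm x ≤ t ^ finrank ℚ K} := by
  ext x
  rw [Set.mem_smul_set_iff_inv_smul_mem₀ ht.ne', mem_normLeOne, smul_mem_iff_mem (inv_ne_zero ht.ne'),
    mixedEmbedding.norm_smul, abs_of_pos (inv_pos.mpr ht), inv_pow,
    inv_mul_le_iff₀ (pow_pos ht _), mul_one]
  rfl

theorem cc_CountHyp.to' (h : cc_CountHyp K) : cc_CountHyp' K := by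
  intro L _ _
  obtain ⟨κ, C, hC⟩ := h L
  refine ⟨κ, C, fun s hs ↦ ?_⟩
  have hn : 0 < finrank ℚ K := finrank_pos
  have hn' : (finrank ℚ K : ℝ) ≠ 0 := Nat.cast_ne_zero.mpr hn.ne'
  have hs0 : 0 < s := zero_lt_one.trans_le hs
  set t : ℝ := s ^ (1 / (finrank ℚ K : ℝ)) with ht
  have ht1 : 1 ≤ t := Real.one_le_rpow hs (by positivity)
  have ht0 : 0 < t := zero_lt_one.trans_le ht1
  have htn : t ^ finrank ℚ K = s := by
    rw [ht, ← Real.rpow_natCast, ← Real.rpow_mul hs0.le, one_div, inv_mul_cancel₀ hn',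
      Real.rpow_one]
  have htn1 : t ^ (finrank ℚ K - 1) = s ^ (1 - 1 / (finrank ℚ K : ℝ)) := by
    rw [ht, ← Real.rpow_natCast, ← Real.rpow_mul hs0.le, Nat.cast_sub hn, Nat.cast_one]
    congr 1
    field_simp
  have := hC t ht1
  rwa [cc_smul_normLeOne ht0, htn, htn1] at this


/-- Ideals of norm `≤ s` in the class `C` correspond to principal ideals of norm `≤ s * N J`
divisible by `J`, where `J` is a fixed integral ideal in the class `C⁻¹`. -/
theorem cc_card_class_eq {C : ClassGroup (𝓞 K)} {J : (Ideal (𝓞 K))⁰} (s : ℝ)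
    (hJ : ClassGroup.mk0 J = C⁻¹) :
    Nat.card {I : (Ideal (𝓞 K))⁰ // absNorm (I : Ideal (𝓞 K)) ≤ s ∧ ClassGroup.mk0 I = C}
      = Nat.card {I : (Ideal (𝓞 K))⁰ // (J : Ideal (𝓞 K)) ∣ I ∧ Submodule.IsPrincipal (I : Ideal (𝓞 K)) ∧
        absNorm (I : Ideal (𝓞 K)) ≤ s * absNorm (J : Ideal (𝓞 K))} := by
  simp_rw [← nonZeroDivisors_dvd_iff_dvd_coe]
  refine Nat.card_congr ?_
  refine ((Equiv.dvd J).subtypeEquiv fun I ↦ ?_).trans
    (Equiv.subtypeSubtypeEquivSubtypeInter (fun I : (Ideal (𝓞 K))⁰ ↦ J ∣ I) _)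
  rw [← ClassGroup.mk0_eq_one_iff (SetLike.coe_mem _)]
  simp_rw [Equiv.dvd_apply, Submonoid.coe_mul, ← Submonoid.mul_def, _root_.map_mul, hJ,
    inv_mul_eq_one, Nat.cast_mul, mul_comm s, eq_comm, and_comm, and_congr_left_iff]
  exact fun _ ↦
    (mul_le_mul_iff_of_pos_left (Nat.cast_pos.mpr (absNorm_pos_of_nonZeroDivisors J))).symm

/-- The points of `idealSet K J` of norm `≤ s` are the points of the ideal lattice of `J` in the
fundamental cone of norm `≤ s`. -/
theorem cc_card_idealSet_eq (J : (Ideal (𝓞 K))⁰) (s : ℝ) :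
    Nat.card {a : idealSet K J // mixedEmbedding.norm (a : mixedSpace K) ≤ s} =
      Nat.card ↥({x | x ∈ fundamentalCone K ∧ mixedEmbedding.norm x ≤ s} ∩
        (idealLattice K (FractionalIdeal.mk0 K J) : Set (mixedSpace K))) := by
  refine Nat.card_congr ?_
  refine (Equiv.subtypeSubtypeEquivSubtypeInter _ (mixedEmbedding.norm · ≤ s)).trans
    (Equiv.subtypeEquivProp ?_)
  ext x
  simp only [idealSet, Set.mem_inter_iff, Set.mem_ofPred_eq]
  tauto


/-- Weak form of the count in a class: some main term constant `κ`. -/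
theorem cc_exists_count_class (h : cc_CountHyp' K) (C : ClassGroup (𝓞 K)) :
    ∃ κ B : ℝ, ∀ s : ℝ, 1 ≤ s →
      |(Nat.card {I : (Ideal (𝓞 K))⁰ //
          absNorm (I : Ideal (𝓞 K)) ≤ s ∧ ClassGroup.mk0 I = C} : ℝ) - κ * s|
        ≤ B * s ^ (1 - 1 / (finrank ℚ K : ℝ)) := by
  classical
  obtain ⟨J, hJ⟩ := ClassGroup.mk0_surjective C⁻¹
  obtain ⟨κ, B, hB⟩ := h (idealLattice K (FractionalIdeal.mk0 K J))
  have hN1 : (1 : ℝ) ≤ (absNorm (J : Ideal (𝓞 K)) : ℝ) := by
    exact_mod_cast absNorm_pos_of_nonZeroDivisors J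
  have hw : (0 : ℝ) < (torsionOrder K : ℝ) := Nat.cast_pos.mpr (torsionOrder_pos K)
  refine ⟨κ * absNorm (J : Ideal (𝓞 K)) / torsionOrder K,
    B * (absNorm (J : Ideal (𝓞 K)) : ℝ) ^ (1 - 1 / (finrank ℚ K : ℝ)) / torsionOrder K,
    fun s hs ↦ ?_⟩
  have hs0 : 0 ≤ s := zero_le_one.trans hs
  have key := hB (s * absNorm (J : Ideal (𝓞 K))) (by nlinarith)
  rw [← cc_card_idealSet_eq, ← card_isPrincipal_dvd_norm_le, ← cc_card_class_eq s hJ,
    Nat.cast_mul, Real.mul_rpow hs0 (zero_le_one.trans hN1)] at key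
  set cnt : ℝ := (Nat.card {I : (Ideal (𝓞 K))⁰ //
          absNorm (I : Ideal (𝓞 K)) ≤ s ∧ ClassGroup.mk0 I = C} : ℝ)
  calc |cnt - κ * absNorm (J : Ideal (𝓞 K)) / torsionOrder K * s|
      = |cnt * torsionOrder K - κ * (s * absNorm (J : Ideal (𝓞 K)))| / torsionOrder K := by
        rw [← abs_of_pos hw, ← abs_div, abs_of_pos hw]
        congr 1
        field_simp
    _ ≤ B * (s ^ (1 - 1 / (finrank ℚ K : ℝ)) *
          (absNorm (J : Ideal (𝓞 K)) : ℝ) ^ (1 - 1 / (finrank ℚ K : ℝ))) / torsionOrder K :=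
        div_le_div_of_nonneg_right key hw.le
    _ = _ := by ring

variable (K) in
/-- The class-independent main term constant (Mathlib's value). -/
noncomputable def cc_kappa : ℝ :=
  (2 ^ InfinitePlace.nrRealPlaces K * (2 * π) ^ InfinitePlace.nrComplexPlaces K * regulator K) /
    (torsionOrder K * Real.sqrt |discr K|)

/-- (cc1) The number of nonzero integral ideals of norm `≤ s` in a fixed class is
`cc_kappa K * s + O (s ^ (1 - 1 / n))`, with a main term independent of the class. -/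
theorem cc_count_class (h : cc_CountHyp' K) (C : ClassGroup (𝓞 K)) :
    ∃ B : ℝ, ∀ s : ℝ, 1 ≤ s →
      |(Nat.card {I : (Ideal (𝓞 K))⁰ //
          absNorm (I : Ideal (𝓞 K)) ≤ s ∧ ClassGroup.mk0 I = C} : ℝ) - cc_kappa K * s|
        ≤ B * s ^ (1 - 1 / (finrank ℚ K : ℝ)) := by
  obtain ⟨κ, B, hB⟩ := cc_exists_count_class h C
  suffices hκ : κ = cc_kappa K by
    subst hκ
    exact ⟨B, hB⟩
  have hn : (0 : ℝ) < 1 / (finrank ℚ K : ℝ) := by
    have : 0 < finrank ℚ K := finrank_pos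
    positivity
  have h1 : Tendsto (fun s : ℝ ↦
      (Nat.card {I : (Ideal (𝓞 K))⁰ //
        absNorm (I : Ideal (𝓞 K)) ≤ s ∧ ClassGroup.mk0 I = C} : ℝ) / s - κ) atTop (𝓝 0) := by
    have h0 : Tendsto (fun s : ℝ ↦ B * s ^ (-(1 / (finrank ℚ K : ℝ)))) atTop (𝓝 0) := by
      simpa using (tendsto_rpow_neg_atTop hn).const_mul B
    refine squeeze_zero_norm' ?_ h0
    filter_upwards [eventually_ge_atTop 1] with s hs
    have hs0 : 0 < s := zero_lt_one.trans_le hs
    have := hB s hs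
    rw [Real.norm_eq_abs, div_sub' hs0.ne', abs_div, abs_of_pos hs0, div_le_iff₀ hs0, mul_comm s κ]
    refine this.trans (le_of_eq ?_)
    rw [mul_assoc, ← Real.rpow_add_one hs0.ne']
    congr 2
    ring
  have h2 := (tendsto_norm_le_and_mk_eq_div_atTop K C).sub_const κ
  have := tendsto_nhds_unique h1 h2
  rw [cc_kappa]
  linarith


variable (K) in
/-- The finite set of nonzero integral ideals of norm `≤ N`. -/
noncomputable def cc_idealsLe (N : ℕ) : Finset (Ideal (𝓞 K))⁰ :=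
  (finite_setOfPred_absNorm_le₀ (S := 𝓞 K) N).toFinset

@[simp]
theorem cc_mem_idealsLe {N : ℕ} {I : (Ideal (𝓞 K))⁰} :
    I ∈ cc_idealsLe K N ↔ absNorm (I : Ideal (𝓞 K)) ≤ N := by
  simp [cc_idealsLe]

theorem cc_card_filter_idealsLe [DecidableEq (ClassGroup (𝓞 K))] (N : ℕ) (C : ClassGroup (𝓞 K)) :
    ((cc_idealsLe K N).filter (fun I ↦ ClassGroup.mk0 I = C)).card =
      Nat.card {I : (Ideal (𝓞 K))⁰ //
        absNorm (I : Ideal (𝓞 K)) ≤ (N : ℝ) ∧ ClassGroup.mk0 I = C} := by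
  rw [← Set.ncard_coe_finset, ← Nat.card_coe_set_eq]
  refine Nat.card_congr (Equiv.subtypeEquivProp ?_)
  ext I
  simp

theorem cc_sum_idealsLe_eq [DecidableEq (ClassGroup (𝓞 K))] (c : ClassGroup (𝓞 K) → ℂ) (N : ℕ) :
    ∑ I ∈ cc_idealsLe K N, c (ClassGroup.mk0 I) =
      ∑ C, c C * (Nat.card {I : (Ideal (𝓞 K))⁰ //
        absNorm (I : Ideal (𝓞 K)) ≤ (N : ℝ) ∧ ClassGroup.mk0 I = C} : ℂ) := by
  rw [← Finset.sum_fiberwise (cc_idealsLe K N) (fun I ↦ ClassGroup.mk0 I)]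
  refine Finset.sum_congr rfl fun C _ ↦ ?_
  rw [← cc_card_filter_idealsLe, Finset.sum_congr rfl (g := fun _ ↦ c C)
    (fun I hI ↦ by rw [(Finset.mem_filter.mp hI).2]), Finset.sum_const, nsmul_eq_mul, mul_comm]

/-- (cc2) Cancellation: if `∑ C, c C = 0` then the sum of `c (class of I)` over the nonzero ideals
of norm `≤ N` is `O (N ^ (1 - 1 / n))`. -/
theorem cc_norm_sum_le (h : cc_CountHyp' K) (c : ClassGroup (𝓞 K) → ℂ) (hc : ∑ C, c C = 0) :
    ∃ B : ℝ, 0 ≤ B ∧ ∀ N : ℕ, ‖∑ I ∈ cc_idealsLe K N, c (ClassGroup.mk0 I)‖ ≤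
      B * (N : ℝ) ^ (1 - 1 / (finrank ℚ K : ℝ)) := by
  classical
  choose B hB using cc_count_class h
  refine ⟨∑ C, ‖c C‖ * |B C|, Finset.sum_nonneg fun C _ ↦ by positivity, fun N ↦ ?_⟩
  rcases Nat.eq_zero_or_pos N with rfl | hN
  · have : cc_idealsLe K 0 = ∅ := by
      ext I
      simp only [cc_mem_idealsLe, Finset.notMem_empty, iff_false, not_le]
      exact absNorm_pos_of_nonZeroDivisors I
    rw [this, Finset.sum_empty, norm_zero]
    exact mul_nonneg (Finset.sum_nonneg fun C _ ↦ by positivity) (Real.rpow_nonneg (by simp) _)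
  have hN1 : (1 : ℝ) ≤ N := by exact_mod_cast hN
  have hpow : 0 ≤ (N : ℝ) ^ (1 - 1 / (finrank ℚ K : ℝ)) := Real.rpow_nonneg (by positivity) _
  have key : ∑ I ∈ cc_idealsLe K N, c (ClassGroup.mk0 I) =
      ∑ C, c C * (((Nat.card {I : (Ideal (𝓞 K))⁰ //
        absNorm (I : Ideal (𝓞 K)) ≤ (N : ℝ) ∧ ClassGroup.mk0 I = C} : ℝ) -
          cc_kappa K * N : ℝ) : ℂ) := by
    rw [cc_sum_idealsLe_eq]
    have : ∑ C, c C * ((cc_kappa K * N : ℝ) : ℂ) = 0 := by rw [← Finset.sum_mul, hc, zero_mul]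
    rw [← sub_zero (∑ C, c C * _), ← this, ← Finset.sum_sub_distrib]
    refine Finset.sum_congr rfl fun C _ ↦ ?_
    push_cast
    ring
  rw [key, Finset.sum_mul]
  refine (norm_sum_le _ _).trans (Finset.sum_le_sum fun C _ ↦ ?_)
  rw [norm_mul, Complex.norm_real, Real.norm_eq_abs, mul_assoc]
  refine mul_le_mul_of_nonneg_left (((hB C) N hN1).trans ?_) (norm_nonneg _)
  exact mul_le_mul_of_nonneg_right (le_abs_self _) hpow

end Fermat.Agent.S14
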