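import Mathlib

/-!
# S14 / Count / LBounded (abstract Q4)

If the partial sums of `f : ℕ → ℂ` are `O(N ^ r)` with `0 ≤ r < 1`, then the `L`-series of `f`
is bounded on the real interval `(1, 2]`.
-/

namespace Fermat.Agent.S14

open Finset Filter MeasureTheory Asymptotics Complex

/-- Partial sums bounded by `B * N ^ r` give the big-O hypothesis of Mathlib. -/
theorem lb_isBigO_of_bound {f : ℕ → ℂ} {r B : ℝ}
    (hS : ∀ N : ℕ, ‖∑ k ∈ Icc 1 N, f k‖ ≤ B * (N : ℝ) ^ r) :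
    (fun n : ℕ ↦ ∑ k ∈ Icc 1 n, f k) =O[atTop] fun n : ℕ ↦ (n : ℝ) ^ r := by
  refine isBigO_iff.mpr ⟨B, Eventually.of_forall fun n ↦ ?_⟩
  have h0 : (0 : ℝ) ≤ (n : ℝ) ^ r := Real.rpow_nonneg (Nat.cast_nonneg n) r
  simpa [Real.norm_of_nonneg h0] using hS n

/-- Abstract Q4: explicit bound of an `L`-series at real `s > 1` from a power-saving bound of the
partial sums of the coefficients. -/
theorem lb_norm_LSeries_le {f : ℕ → ℂ} {r B : ℝ} (hr : 0 ≤ r) (hB : 0 ≤ B)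
    (hS : ∀ N : ℕ, ‖∑ k ∈ Icc 1 N, f k‖ ≤ B * (N : ℝ) ^ r)
    {s : ℝ} (hrs : r < s) (hs0 : 0 < s) (hsum : LSeriesSummable f s) :
    ‖LSeries f s‖ ≤ s * B / (s - r) := by
  have hO := lb_isBigO_of_bound hS
  have hs' : r < (s : ℂ).re := by simpa using hrs
  rw [LSeries_eq_mul_integral f hr hs' hsum hO]
  have hint : IntegrableOn (fun t : ℝ ↦ B * t ^ (r - s - 1)) (Set.Ioi 1) :=
    (integrableOn_Ioi_rpow_of_lt (by linarith) zero_lt_one).const_mul B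
  have hbound : ∀ᵐ t : ℝ ∂(volume.restrict (Set.Ioi (1 : ℝ))),
      ‖(∑ k ∈ Icc 1 ⌊t⌋₊, f k) * (t : ℂ) ^ (-((s : ℂ) + 1))‖ ≤ B * t ^ (r - s - 1) := by
    refine (ae_restrict_iff' measurableSet_Ioi).mpr (Eventually.of_forall fun t ht ↦ ?_)
    have ht0 : (0 : ℝ) < t := zero_lt_one.trans ht
    have h1 : ‖(t : ℂ) ^ (-((s : ℂ) + 1))‖ = t ^ (-(s + 1)) := by
      rw [norm_cpow_eq_rpow_re_of_pos ht0]
      simp
    have h2 : ((⌊t⌋₊ : ℕ) : ℝ) ^ r ≤ t ^ r :=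
      Real.rpow_le_rpow (Nat.cast_nonneg _) (Nat.floor_le ht0.le) hr
    rw [norm_mul, h1]
    calc ‖∑ k ∈ Icc 1 ⌊t⌋₊, f k‖ * t ^ (-(s + 1))
        ≤ (B * t ^ r) * t ^ (-(s + 1)) := by
          refine mul_le_mul_of_nonneg_right ((hS _).trans ?_) (Real.rpow_nonneg ht0.le _)
          exact mul_le_mul_of_nonneg_left h2 hB
      _ = B * t ^ (r - s - 1) := by
          rw [mul_assoc, ← Real.rpow_add ht0]
          congr 2
          ring
  have hnorm := norm_integral_le_of_norm_le hint hbound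
  have hval : ∫ t in Set.Ioi (1 : ℝ), B * t ^ (r - s - 1) = B / (s - r) := by
    rw [integral_const_mul, integral_Ioi_rpow_of_lt (by linarith) zero_lt_one]
    have hne : s - r ≠ 0 := (sub_pos.mpr hrs).ne'
    have hne' : r - s - 1 + 1 ≠ 0 := by
      have : r - s - 1 + 1 = -(s - r) := by ring
      rw [this]; exact neg_ne_zero.mpr hne
    simp only [Real.one_rpow]
    field_simp
    ring
  rw [norm_mul, Complex.norm_real, Real.norm_of_nonneg hs0.le, mul_div_assoc]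
  refine mul_le_mul_of_nonneg_left ?_ hs0.le
  rw [← hval]
  exact hnorm

/-- Abstract Q4, uniform version on `(1, 2]`. -/
theorem lb_norm_LSeries_le_of_mem_Ioc {f : ℕ → ℂ} {r B : ℝ} (hr : 0 ≤ r) (hr1 : r < 1) (hB : 0 ≤ B)
    (hS : ∀ N : ℕ, ‖∑ k ∈ Icc 1 N, f k‖ ≤ B * (N : ℝ) ^ r)
    (hsum : ∀ s : ℝ, 1 < s → LSeriesSummable f s) {s : ℝ} (hs : s ∈ Set.Ioc (1 : ℝ) 2) :
    ‖LSeries f s‖ ≤ 2 * B / (1 - r) := by
  have h1 := lb_norm_LSeries_le hr hB hS (hr1.trans hs.1) (zero_lt_one.trans hs.1) (hsum s hs.1)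
  refine h1.trans ?_
  have h1r : 0 < 1 - r := sub_pos.mpr hr1
  have hsr : 0 < s - r := by linarith [hs.1]
  rw [div_le_div_iff₀ hsr h1r]
  have : s * B ≤ 2 * B := mul_le_mul_of_nonneg_right hs.2 hB
  nlinarith [hs.1, hs.2, mul_nonneg hB h1r.le, mul_nonneg hB hsr.le]

end Fermat.Agent.S14
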