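import Fermat.Agent.S14.Count.ClassCount
import Fermat.Agent.S14.Count.LBounded

/-!
# S14 / Count / ClassLSeries (Q4 for class functions)

Dirichlet series over the nonzero integral ideals of a number field as `L`-series, and
boundedness on `(1, 2]` of the series attached to a function on the class group with mean zero.
-/

namespace Fermat.Agent.S14

open NumberField Ideal Filter Topology Module Finset

open scoped nonZeroDivisors

variable (K : Type*) [Field K] [NumberField K]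

theorem cl_finite_absNorm_eq (k : ℕ) :
    {I : (Ideal (𝓞 K))⁰ | absNorm (I : Ideal (𝓞 K)) = k}.Finite :=
  (finite_setOfPred_absNorm_le₀ (S := 𝓞 K) k).subset fun _ hI ↦ le_of_eq hI

/-- The finite set of nonzero integral ideals of norm `k`. -/
noncomputable def cl_idealsEq (k : ℕ) : Finset (Ideal (𝓞 K))⁰ :=
  (cl_finite_absNorm_eq K k).toFinset

variable {K}

@[simp]
theorem cl_mem_idealsEq {k : ℕ} {I : (Ideal (𝓞 K))⁰} :
    I ∈ cl_idealsEq K k ↔ absNorm (I : Ideal (𝓞 K)) = k := by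
  simp [cl_idealsEq]

theorem cl_idealsEq_zero : cl_idealsEq K 0 = ∅ := by
  ext I
  simp only [cl_mem_idealsEq, Finset.notMem_empty, iff_false]
  exact (absNorm_pos_of_nonZeroDivisors I).ne'

/-- Grouping a sum over the ideals of norm `≤ N` according to the norm. -/
theorem cl_sum_idealsLe_fiberwise {M : Type*} [AddCommMonoid M] (f : (Ideal (𝓞 K))⁰ → M) (N : ℕ) :
    ∑ I ∈ cc_idealsLe K N, f I = ∑ k ∈ Icc 1 N, ∑ I ∈ cl_idealsEq K k, f I := by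
  classical
  rw [← Finset.sum_fiberwise_of_maps_to (s := cc_idealsLe K N) (t := Icc 1 N)
    (g := fun I ↦ absNorm (I : Ideal (𝓞 K)))
    (fun I hI ↦ Finset.mem_Icc.mpr ⟨absNorm_pos_of_nonZeroDivisors I, cc_mem_idealsLe.mp hI⟩)]
  refine Finset.sum_congr rfl fun k hk ↦ Finset.sum_congr ?_ fun _ _ ↦ rfl
  ext I
  simp only [Finset.mem_filter, cc_mem_idealsLe, cl_mem_idealsEq]
  exact ⟨fun h ↦ h.2, fun h ↦ ⟨h ▸ (Finset.mem_Icc.mp hk).2, h⟩⟩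


theorem cl_card_idealsLe (N : ℕ) :
    (cc_idealsLe K N).card =
      Nat.card {I : (Ideal (𝓞 K))⁰ // absNorm (I : Ideal (𝓞 K)) ≤ (N : ℝ)} := by
  rw [← Set.ncard_coe_finset, ← Nat.card_coe_set_eq]
  refine Nat.card_congr (Equiv.subtypeEquivProp ?_)
  ext I
  simp

variable (K) in
theorem cl_isBigO_card_idealsLe :
    (fun N : ℕ ↦ ((cc_idealsLe K N).card : ℝ)) =O[atTop] fun N : ℕ ↦ (N : ℝ) ^ (1 : ℝ) := by
  have := (NumberField.Ideal.tendsto_norm_le_div_atTop₀ K).comp tendsto_natCast_atTop_atTop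
  refine Asymptotics.isBigO_atTop_natCast_rpow_of_tendsto_div_rpow (𝕜 := ℝ) (this.congr fun N ↦ ?_)
  simp only [Function.comp_apply, Real.rpow_one, cl_card_idealsLe, RCLike.ofReal_real_eq_id, id]

variable (K) in
/-- The coefficients of the Dirichlet series `∑ χ I / N I ^ s` grouped by norm. -/
noncomputable def cl_coeff (χ : (Ideal (𝓞 K))⁰ → ℂ) (k : ℕ) : ℂ := ∑ I ∈ cl_idealsEq K k, χ I

theorem cl_sum_coeff (χ : (Ideal (𝓞 K))⁰ → ℂ) (N : ℕ) :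
    ∑ k ∈ Icc 1 N, cl_coeff K χ k = ∑ I ∈ cc_idealsLe K N, χ I :=
  (cl_sum_idealsLe_fiberwise χ N).symm

theorem cl_norm_coeff_le {χ : (Ideal (𝓞 K))⁰ → ℂ} {M : ℝ} (hχ : ∀ I, ‖χ I‖ ≤ M) (k : ℕ) :
    ‖cl_coeff K χ k‖ ≤ M * (cl_idealsEq K k).card := by
  refine (norm_sum_le _ _).trans ((Finset.sum_le_sum fun I _ ↦ hχ I).trans (le_of_eq ?_))
  rw [Finset.sum_const, nsmul_eq_mul, mul_comm]

theorem cl_isBigO_sum_norm_coeff {χ : (Ideal (𝓞 K))⁰ → ℂ} {M : ℝ} (hχ : ∀ I, ‖χ I‖ ≤ M) :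
    (fun N : ℕ ↦ ∑ k ∈ Icc 1 N, ‖cl_coeff K χ k‖) =O[atTop] fun N : ℕ ↦ (N : ℝ) ^ (1 : ℝ) := by
  refine Asymptotics.IsBigO.trans ?_ ((cl_isBigO_card_idealsLe K).const_mul_left M)
  refine Asymptotics.isBigO_of_le _ fun N ↦ ?_
  have h0 : 0 ≤ ∑ k ∈ Icc 1 N, ‖cl_coeff K χ k‖ := Finset.sum_nonneg fun _ _ ↦ norm_nonneg _
  have h1 : ∑ k ∈ Icc 1 N, ‖cl_coeff K χ k‖ ≤ M * ((cc_idealsLe K N).card : ℝ) := by
    have : ((cc_idealsLe K N).card : ℝ) = ∑ k ∈ Icc 1 N, ((cl_idealsEq K k).card : ℝ) := by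
      have := cl_sum_idealsLe_fiberwise (K := K) (fun _ ↦ (1 : ℝ)) N
      simpa using this
    rw [this, Finset.mul_sum]
    exact Finset.sum_le_sum fun k _ ↦ cl_norm_coeff_le hχ k
  rw [Real.norm_of_nonneg h0]
  exact h1.trans (le_abs_self _)

/-- For a bounded function `χ` on the nonzero ideals, the `L`-series of the grouped coefficients
converges for `1 < s.re`. -/
theorem cl_LSeriesSummable {χ : (Ideal (𝓞 K))⁰ → ℂ} {M : ℝ} (hχ : ∀ I, ‖χ I‖ ≤ M) {s : ℂ}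
    (hs : 1 < s.re) : LSeriesSummable (cl_coeff K χ) s :=
  LSeriesSummable_of_sum_norm_bigO (cl_isBigO_sum_norm_coeff hχ) zero_le_one hs


theorem cl_sum_idealsEq_absNorm {M : Type*} [AddCommMonoid M] (F : ℕ → M) (k : ℕ) :
    ∑ I ∈ cl_idealsEq K k, F (absNorm (I : Ideal (𝓞 K))) = (cl_idealsEq K k).card • F k := by
  rw [Finset.sum_congr rfl (g := fun _ ↦ F k) (fun I hI ↦ by rw [cl_mem_idealsEq.mp hI]),
    Finset.sum_const]

/-- `∑ N I ^ (-σ)` over the nonzero integral ideals converges for `σ > 1`. -/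
theorem cl_summable_absNorm_rpow {σ : ℝ} (hσ : 1 < σ) :
    Summable fun I : (Ideal (𝓞 K))⁰ ↦ ((absNorm (I : Ideal (𝓞 K)) : ℕ) : ℝ) ^ (-σ) := by
  classical
  have hL : LSeriesSummable (cl_coeff K (fun _ ↦ 1)) (σ : ℂ) :=
    cl_LSeriesSummable (M := 1) (fun _ ↦ by simp) (by simpa using hσ)
  have hL' : Summable fun k ↦ ‖LSeries.term (cl_coeff K (fun _ ↦ 1)) (σ : ℂ) k‖ := hL.norm
  refine summable_of_sum_le (c := ∑' k, ‖LSeries.term (cl_coeff K (fun _ ↦ 1)) (σ : ℂ) k‖)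
    (fun I ↦ by positivity) fun u ↦ ?_
  set N := u.sup (fun I : (Ideal (𝓞 K))⁰ ↦ absNorm (I : Ideal (𝓞 K))) with hN
  have hu : u ⊆ cc_idealsLe K N := fun I hI ↦
    cc_mem_idealsLe.mpr
      (Finset.le_sup (f := fun I : (Ideal (𝓞 K))⁰ ↦ absNorm (I : Ideal (𝓞 K))) hI)
  calc ∑ I ∈ u, ((absNorm (I : Ideal (𝓞 K)) : ℕ) : ℝ) ^ (-σ)
      ≤ ∑ I ∈ cc_idealsLe K N, ((absNorm (I : Ideal (𝓞 K)) : ℕ) : ℝ) ^ (-σ) :=
        Finset.sum_le_sum_of_subset_of_nonneg hu (fun _ _ _ ↦ by positivity)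
    _ = ∑ k ∈ Icc 1 N, ∑ I ∈ cl_idealsEq K k, ((absNorm (I : Ideal (𝓞 K)) : ℕ) : ℝ) ^ (-σ) :=
        cl_sum_idealsLe_fiberwise _ N
    _ = ∑ k ∈ Icc 1 N, ‖LSeries.term (cl_coeff K (fun _ ↦ 1)) (σ : ℂ) k‖ := by
        refine Finset.sum_congr rfl fun k hk ↦ ?_
        have hk0 : k ≠ 0 := (zero_lt_one.trans_le (Finset.mem_Icc.mp hk).1).ne'
        rw [LSeries.norm_term_eq, if_neg hk0, cl_sum_idealsEq_absNorm (fun k ↦ (k : ℝ) ^ (-σ)),
          cl_coeff, Finset.sum_const, nsmul_eq_mul, nsmul_eq_mul, mul_one, Complex.norm_natCast,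
          Complex.ofReal_re, Real.rpow_neg (Nat.cast_nonneg k), div_eq_mul_inv]
    _ ≤ ∑' k, ‖LSeries.term (cl_coeff K (fun _ ↦ 1)) (σ : ℂ) k‖ :=
        hL'.sum_le_tsum _ (fun _ _ ↦ norm_nonneg _)

/-- For bounded `χ`, the Dirichlet series over the nonzero ideals converges absolutely for
`1 < s.re`. -/
theorem cl_summable {χ : (Ideal (𝓞 K))⁰ → ℂ} {M : ℝ} (hχ : ∀ I, ‖χ I‖ ≤ M) {s : ℂ}
    (hs : 1 < s.re) :
    Summable fun I : (Ideal (𝓞 K))⁰ ↦ χ I * ((absNorm (I : Ideal (𝓞 K)) : ℕ) : ℂ) ^ (-s) := by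
  refine Summable.of_norm_bounded ((cl_summable_absNorm_rpow hs).mul_left M) fun I ↦ ?_
  rw [norm_mul, Complex.norm_natCast_cpow_of_pos (absNorm_pos_of_nonZeroDivisors I), Complex.neg_re]
  exact mul_le_mul_of_nonneg_right (hχ I) (by positivity)

/-- For bounded `χ`, the Dirichlet series over the nonzero ideals is the `L`-series of the
coefficients grouped by norm. -/
theorem cl_tsum_eq_LSeries {χ : (Ideal (𝓞 K))⁰ → ℂ} {M : ℝ} (hχ : ∀ I, ‖χ I‖ ≤ M) {s : ℂ}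
    (hs : 1 < s.re) :
    ∑' I : (Ideal (𝓞 K))⁰, χ I * ((absNorm (I : Ideal (𝓞 K)) : ℕ) : ℂ) ^ (-s) =
      LSeries (cl_coeff K χ) s := by
  have h1 := (cl_summable hχ hs).hasSum.tsum_fiberwise (fun I ↦ absNorm (I : Ideal (𝓞 K)))
  rw [LSeries]
  refine h1.tsum_eq.symm.trans (tsum_congr fun k ↦ ?_)
  have hset : (fun I : (Ideal (𝓞 K))⁰ ↦ absNorm (I : Ideal (𝓞 K))) ⁻¹' {k} =
      ((cl_idealsEq K k : Finset (Ideal (𝓞 K))⁰) : Set (Ideal (𝓞 K))⁰) := by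
    ext I
    simp
  rw [tsum_congr_set_coe
    (fun I : (Ideal (𝓞 K))⁰ ↦ χ I * ((absNorm (I : Ideal (𝓞 K)) : ℕ) : ℂ) ^ (-s)) hset,
    Finset.tsum_subtype' (cl_idealsEq K k)
      (fun I : (Ideal (𝓞 K))⁰ ↦ χ I * ((absNorm (I : Ideal (𝓞 K)) : ℕ) : ℂ) ^ (-s))]
  rcases Nat.eq_zero_or_pos k with rfl | hk
  · simp [cl_idealsEq_zero]
  · rw [LSeries.term_of_ne_zero hk.ne', cl_coeff, Finset.sum_div]
    refine Finset.sum_congr rfl fun I hI ↦ ?_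
    rw [cl_mem_idealsEq.mp hI, Complex.cpow_neg, div_eq_mul_inv]


/-- GENERIC Q4 BRIDGE (modulus independent): a bounded function `χ` on the nonzero ideals whose
partial sums over the ideals of norm `≤ N` are `≤ B * N ^ r` with `0 ≤ r < 1` has a Dirichlet
series bounded by `2 * B / (1 - r)` on `(1, 2]`. -/
theorem cl_norm_tsum_le_of_sum_le {χ : (Ideal (𝓞 K))⁰ → ℂ} {M : ℝ} (hχ : ∀ I, ‖χ I‖ ≤ M)
    {r B : ℝ} (hr : 0 ≤ r) (hr1 : r < 1) (hB : 0 ≤ B)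
    (hS : ∀ N : ℕ, ‖∑ I ∈ cc_idealsLe K N, χ I‖ ≤ B * (N : ℝ) ^ r)
    {s : ℝ} (hs : s ∈ Set.Ioc (1 : ℝ) 2) :
    ‖∑' I : (Ideal (𝓞 K))⁰, χ I * ((absNorm (I : Ideal (𝓞 K)) : ℕ) : ℂ) ^ (-(s : ℂ))‖ ≤
      2 * B / (1 - r) := by
  rw [cl_tsum_eq_LSeries hχ (by simpa using hs.1)]
  refine lb_norm_LSeries_le_of_mem_Ioc hr hr1 hB (fun N ↦ ?_)
    (fun s hs ↦ cl_LSeriesSummable hχ (by simpa using hs)) hs
  rw [cl_sum_coeff]
  exact hS N

/-- Rewriting a Dirichlet series over all ideals (real powers, the zero ideal contributes `0`) as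
a series over the nonzero ideals. -/
theorem cl_tsum_ideal_eq (f : Ideal (𝓞 K) → ℂ) {s : ℝ} (hs : 0 < s) :
    ∑' I : Ideal (𝓞 K), f I * (((absNorm I : ℝ) ^ (-s) : ℝ) : ℂ) =
      ∑' I : (Ideal (𝓞 K))⁰,
        f (I : Ideal (𝓞 K)) * ((absNorm (I : Ideal (𝓞 K)) : ℕ) : ℂ) ^ (-(s : ℂ)) := by
  have hinj : Function.Injective (fun I : (Ideal (𝓞 K))⁰ ↦ (I : Ideal (𝓞 K))) :=
    Subtype.val_injective
  have hsupp : Function.support (fun I : Ideal (𝓞 K) ↦ f I * (((absNorm I : ℝ) ^ (-s) : ℝ) : ℂ)) ⊆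
      Set.range (fun I : (Ideal (𝓞 K))⁰ ↦ (I : Ideal (𝓞 K))) := by
    intro I hI
    have hI0 : I ≠ ⊥ := by
      rintro rfl
      apply hI
      have : -s ≠ 0 := by linarith
      simp [Real.zero_rpow this]
    exact ⟨⟨I, mem_nonZeroDivisors_of_ne_zero hI0⟩, rfl⟩
  rw [← hinj.tsum_eq hsupp]
  refine tsum_congr fun I ↦ ?_
  rw [Complex.ofReal_cpow (Nat.cast_nonneg _), Complex.ofReal_neg, Complex.ofReal_natCast]

/-- GENERIC Q4 BRIDGE in the shape of the density block (`dn_term`): `f` a bounded function on all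
ideals; only its values on nonzero ideals matter. -/
theorem cl_norm_tsum_ideal_le {f : Ideal (𝓞 K) → ℂ} {M : ℝ} (hf : ∀ I, ‖f I‖ ≤ M)
    {r B : ℝ} (hr : 0 ≤ r) (hr1 : r < 1) (hB : 0 ≤ B)
    (hS : ∀ N : ℕ, ‖∑ I ∈ cc_idealsLe K N, f (I : Ideal (𝓞 K))‖ ≤ B * (N : ℝ) ^ r)
    {s : ℝ} (hs : s ∈ Set.Ioc (1 : ℝ) 2) :
    ‖∑' I : Ideal (𝓞 K), f I * (((absNorm I : ℝ) ^ (-s) : ℝ) : ℂ)‖ ≤ 2 * B / (1 - r) := by
  rw [cl_tsum_ideal_eq f (zero_lt_one.trans hs.1)]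
  exact cl_norm_tsum_le_of_sum_le (K := K) (χ := fun I : (Ideal (𝓞 K))⁰ ↦ f (I : Ideal (𝓞 K)))
    (fun I ↦ hf I) hr hr1 hB hS hs

/-- A function on the class group is bounded by the sum of the norms of its values. -/
theorem cl_norm_class_le (c : ClassGroup (𝓞 K) → ℂ) (I : (Ideal (𝓞 K))⁰) :
    ‖c (ClassGroup.mk0 I)‖ ≤ ∑ C, ‖c C‖ :=
  Finset.single_le_sum (f := fun C ↦ ‖c C‖) (fun _ _ ↦ norm_nonneg _) (Finset.mem_univ _)

/-- (lb2) If `c` is a function on the class group with `∑ C, c C = 0` (for instance a nontrivial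
character of a quotient of the class group), then, under the lattice point counting hypothesis,
the Dirichlet series `∑ c [I] / N I ^ s` over the nonzero integral ideals is bounded for real
`s ∈ (1, 2]`. -/
theorem cl_norm_tsum_le (h : cc_CountHyp' K) (c : ClassGroup (𝓞 K) → ℂ) (hc : ∑ C, c C = 0) :
    ∃ B : ℝ, ∀ s ∈ Set.Ioc (1 : ℝ) 2,
      ‖∑' I : (Ideal (𝓞 K))⁰,
        c (ClassGroup.mk0 I) * ((absNorm (I : Ideal (𝓞 K)) : ℕ) : ℂ) ^ (-(s : ℂ))‖ ≤ B := by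
  obtain ⟨B, hB0, hB⟩ := cc_norm_sum_le h c hc
  have hn : (1 : ℝ) ≤ (finrank ℚ K : ℝ) := by exact_mod_cast (finrank_pos : 0 < finrank ℚ K)
  have hr0 : 0 ≤ 1 - 1 / (finrank ℚ K : ℝ) := by
    rw [sub_nonneg, div_le_one (by linarith)]
    exact hn
  have hr1 : 1 - 1 / (finrank ℚ K : ℝ) < 1 := by
    have : 0 < 1 / (finrank ℚ K : ℝ) := by positivity
    linarith
  refine ⟨2 * B / (1 - (1 - 1 / (finrank ℚ K : ℝ))), fun s hs ↦ ?_⟩
  rw [cl_tsum_eq_LSeries (χ := fun I ↦ c (ClassGroup.mk0 I)) (cl_norm_class_le c)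
    (by simpa using hs.1)]
  refine lb_norm_LSeries_le_of_mem_Ioc hr0 hr1 hB0 (fun N ↦ ?_)
    (fun s hs ↦ cl_LSeriesSummable (cl_norm_class_le c) (by simpa using hs)) hs
  rw [cl_sum_coeff]
  exact hB N

/-- Summability of the same series (no hypothesis needed). -/
theorem cl_summable_class (c : ClassGroup (𝓞 K) → ℂ) {s : ℝ} (hs : 1 < s) :
    Summable fun I : (Ideal (𝓞 K))⁰ ↦
      c (ClassGroup.mk0 I) * ((absNorm (I : Ideal (𝓞 K)) : ℕ) : ℂ) ^ (-(s : ℂ)) :=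
  cl_summable (χ := fun I ↦ c (ClassGroup.mk0 I)) (cl_norm_class_le c) (by simpa using hs)


/-- (lb2), from the `t`-form of the counting hypothesis. -/
theorem cl_norm_tsum_le_of_countHyp (h : cc_CountHyp K) (c : ClassGroup (𝓞 K) → ℂ)
    (hc : ∑ C, c C = 0) :
    ∃ B : ℝ, ∀ s ∈ Set.Ioc (1 : ℝ) 2,
      ‖∑' I : (Ideal (𝓞 K))⁰,
        c (ClassGroup.mk0 I) * ((absNorm (I : Ideal (𝓞 K)) : ℕ) : ℂ) ^ (-(s : ℂ))‖ ≤ B :=
  cl_norm_tsum_le h.to' c hc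

end Fermat.Agent.S14
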