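import Fermat.Agent.S14.Count.ClassLSeries
import Fermat.Agent.S14.Density.EulerSieve

/-!
# S14 / Count / LBoundedDn (lb2)

Conversion of a power-saving bound for the partial sums `∑_{I ≠ ⊥, N I ≤ N} X I` into the
boundedness on `(1, 2]` of the Dirichlet series `dn_L E X s` of the density block.
-/

namespace Fermat.Agent.S14

open NumberField Ideal Module

open scoped nonZeroDivisors

variable {E : Type*} [Field E] [NumberField E]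

/-- Sum over the nonzero ideals of norm `≤ N` as a sum over any finset of ideals with the same
members. -/
theorem lb_sum_idealsLe_eq {M : Type*} [AddCommMonoid M] (f : Ideal (𝓞 E) → M) (N : ℕ)
    (T : Finset (Ideal (𝓞 E))) (hT : ∀ I, I ∈ T ↔ I ≠ ⊥ ∧ absNorm I ≤ N) :
    ∑ I ∈ cc_idealsLe E N, f (I : Ideal (𝓞 E)) = ∑ I ∈ T, f I := by
  refine Finset.sum_bij (fun I _ ↦ (I : Ideal (𝓞 E))) (fun I hI ↦ ?_) (fun I _ J _ h ↦ ?_)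
    (fun I hI ↦ ?_) (fun _ _ ↦ rfl)
  · exact (hT _).mpr ⟨nonZeroDivisors.coe_ne_zero I, cc_mem_idealsLe.mp hI⟩
  · exact Subtype.ext h
  · obtain ⟨h0, hN⟩ := (hT I).mp hI
    exact ⟨⟨I, mem_nonZeroDivisors_of_ne_zero h0⟩, cc_mem_idealsLe.mpr hN, rfl⟩

/-- (lb2) GENERAL FORM: `f` any function on ideals bounded by `M`, partial sums over the nonzero
ideals of norm `≤ N` bounded by `C * N ^ r` with `0 ≤ r < 1`. Then the Dirichlet series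
`∑' I, f I * N I ^ (-s)` is bounded by `2 * C / (1 - r)` on `(1, 2]`. The finsets `T N` are
arbitrary finsets with the stated members. -/
theorem lb_norm_tsum_le {f : Ideal (𝓞 E) → ℂ} {M : ℝ} (hf : ∀ I, ‖f I‖ ≤ M)
    {r C : ℝ} (hr : 0 ≤ r) (hr1 : r < 1) (hC : 0 ≤ C)
    (T : ℕ → Finset (Ideal (𝓞 E))) (hT : ∀ N I, I ∈ T N ↔ I ≠ ⊥ ∧ absNorm I ≤ N)
    (hS : ∀ N : ℕ, ‖∑ I ∈ T N, f I‖ ≤ C * (N : ℝ) ^ r) {s : ℝ} (hs1 : 1 < s) (hs2 : s ≤ 2) :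
    ‖∑' I : Ideal (𝓞 E), f I * (((absNorm I : ℝ) ^ (-s) : ℝ) : ℂ)‖ ≤ 2 * C / (1 - r) :=
  cl_norm_tsum_ideal_le hf hr hr1 hC
    (fun N ↦ by rw [lb_sum_idealsLe_eq f N (T N) (hT N)]; exact hS N) ⟨hs1, hs2⟩

/-- (lb2) in the EXACT `hbdd` shape of `dn_second_inequality`: for `X : Ideal (𝓞 E) →* ℂ` with
`‖X I‖ ≤ 1` whose partial sums over the nonzero ideals of norm `≤ N` are `≤ C * N ^ (1 - 1 / n)`,
`n = [E : ℚ]`, the series `dn_L E X s` is bounded for `1 < s ≤ 2`. -/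
theorem lb_norm_dn_L_le (X : Ideal (𝓞 E) →* ℂ) (hX : ∀ I, ‖X I‖ ≤ 1) {C : ℝ} (hC : 0 ≤ C)
    (T : ℕ → Finset (Ideal (𝓞 E))) (hT : ∀ N I, I ∈ T N ↔ I ≠ ⊥ ∧ absNorm I ≤ N)
    (hS : ∀ N : ℕ, ‖∑ I ∈ T N, X I‖ ≤ C * (N : ℝ) ^ (1 - 1 / (finrank ℚ E : ℝ))) :
    ∃ B : ℝ, ∀ s : ℝ, 1 < s → s ≤ 2 → ‖dn_L E X s‖ ≤ B := by
  have hn : (1 : ℝ) ≤ (finrank ℚ E : ℝ) := by exact_mod_cast (finrank_pos : 0 < finrank ℚ E)
  have hr0 : 0 ≤ 1 - 1 / (finrank ℚ E : ℝ) := by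
    rw [sub_nonneg, div_le_one (by linarith)]
    exact hn
  have hr1 : 1 - 1 / (finrank ℚ E : ℝ) < 1 := by
    have : 0 < 1 / (finrank ℚ E : ℝ) := by positivity
    linarith
  refine ⟨2 * C / (1 - (1 - 1 / (finrank ℚ E : ℝ))), fun s hs1 hs2 ↦ ?_⟩
  exact lb_norm_tsum_le (f := fun I ↦ X I) hX hr0 hr1 hC T hT hS hs1 hs2

/-- The canonical finset of nonzero ideals of norm `≤ N` (as ideals). -/
noncomputable def lb_idealsLe (E : Type*) [Field E] [NumberField E] (N : ℕ) :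
    Finset (Ideal (𝓞 E)) :=
  ((finite_setOfPred_absNorm_le (S := 𝓞 E) N).subset
    (fun I (hI : I ∈ {I : Ideal (𝓞 E) | I ≠ ⊥ ∧ absNorm I ≤ N}) ↦ hI.2)).toFinset

theorem lb_mem_idealsLe {N : ℕ} {I : Ideal (𝓞 E)} :
    I ∈ lb_idealsLe E N ↔ I ≠ ⊥ ∧ absNorm I ≤ N := by
  simp [lb_idealsLe]

/-- (lb2) with the canonical finsets `lb_idealsLe E N`. -/
theorem lb_norm_dn_L_le' (X : Ideal (𝓞 E) →* ℂ) (hX : ∀ I, ‖X I‖ ≤ 1) {C : ℝ} (hC : 0 ≤ C)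
    (hS : ∀ N : ℕ, ‖∑ I ∈ lb_idealsLe E N, X I‖ ≤ C * (N : ℝ) ^ (1 - 1 / (finrank ℚ E : ℝ))) :
    ∃ B : ℝ, ∀ s : ℝ, 1 < s → s ≤ 2 → ‖dn_L E X s‖ ≤ B :=
  lb_norm_dn_L_le X hX hC (lb_idealsLe E) (fun _ _ ↦ lb_mem_idealsLe) hS

end Fermat.Agent.S14
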