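import Mathlib
import Fermat.Agent.S14.Count.ConeCount

/-!
# S14 / Q3 (S2): torsion multiplicity

For an ideal `J` of `𝓞 K` the map `a ↦ (a)` from `coneSet K J 0 Y` (elements of `J` in the
fundamental cone of norm `≤ Y`) to the set of nonzero principal ideals `I ≤ J` of norm `≤ Y`
is surjective with all fibres of cardinality `torsionOrder K`.  Hence
`∑_{a ∈ coneSet K J 0 Y} G (a) = torsionOrder K • ∑_{I} G I`.
-/

set_option autoImplicit false
set_option linter.unusedSectionVars false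

namespace Fermat.Agent.S14

open NumberField NumberField.InfinitePlace NumberField.mixedEmbedding
  NumberField.mixedEmbedding.fundamentalCone NumberField.Units Ideal
open scoped Classical nonZeroDivisors

variable (K : Type*) [Field K] [NumberField K]

/-- The set of nonzero principal ideals contained in `J` of norm at most `Y`. -/
def ps_idealSet (J : Ideal (𝓞 K)) (Y : ℝ) : Set (Ideal (𝓞 K)) :=
  {I | I ≠ ⊥ ∧ I ≤ J ∧ I.IsPrincipal ∧ (absNorm I : ℝ) ≤ Y}

theorem ps_mem_coneSet_zero {J : Ideal (𝓞 K)} {Y : ℝ} {a : 𝓞 K} :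
    a ∈ coneSet K J 0 Y ↔ a ∈ J ∧ mixedEmbedding K (a : K) ∈ fundamentalCone K ∧
      mixedEmbedding.norm (mixedEmbedding K (a : K)) ≤ Y := by
  simp [coneSet]

/-- The norm of the image of an algebraic integer in the mixed space is the absolute norm of
the principal ideal it generates. -/
theorem ps_norm_eq_absNorm (a : 𝓞 K) :
    mixedEmbedding.norm (mixedEmbedding K (a : K)) = (absNorm (span {a}) : ℝ) := by
  rw [absNorm_span_singleton, Nat.cast_natAbs, ← Rat.cast_intCast, Int.cast_abs,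
    Algebra.coe_norm_int, ← norm_eq_norm]

theorem ps_ne_zero_of_mem_cone {a : 𝓞 K} (ha : mixedEmbedding K (a : K) ∈ fundamentalCone K) :
    a ≠ 0 := by
  rintro rfl
  have := norm_pos_of_mem ha
  simp at this

theorem ps_ideal_finite (J : Ideal (𝓞 K)) (Y : ℝ) : (ps_idealSet K J Y).Finite := by
  refine (Ideal.finite_setOfPred_absNorm_le (S := 𝓞 K) ⌊Y⌋₊).subset ?_
  rintro I ⟨-, -, -, h⟩
  have hY : 0 ≤ Y := le_trans (Nat.cast_nonneg _) h
  exact Nat.le_floor h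

/-- `a ↦ (a)` maps `coneSet K J 0 Y` to `ps_idealSet K J Y`. -/
theorem ps_span_mem {J : Ideal (𝓞 K)} {Y : ℝ} {a : 𝓞 K} (ha : a ∈ coneSet K J 0 Y) :
    span {a} ∈ ps_idealSet K J Y := by
  rw [ps_mem_coneSet_zero] at ha
  obtain ⟨h1, h2, h3⟩ := ha
  refine ⟨?_, (span_singleton_le_iff_mem _).mpr h1, ⟨⟨a, rfl⟩⟩, ?_⟩
  · rw [Ne, span_singleton_eq_bot]
    exact ps_ne_zero_of_mem_cone K h2
  · rw [← ps_norm_eq_absNorm]; exact h3


theorem ps_mixedEmbedding_unit_mul (u : (𝓞 K)ˣ) (a : 𝓞 K) :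
    mixedEmbedding K (((u : 𝓞 K) * a : 𝓞 K) : K) = u • mixedEmbedding K (a : K) := by
  rw [unitSMul_smul, ← map_mul]
  rfl

/-- `coneSet K J 0 Y` is stable under multiplication by roots of unity. -/
theorem ps_torsion_mul_mem {J : Ideal (𝓞 K)} {Y : ℝ} {a : 𝓞 K} (ha : a ∈ coneSet K J 0 Y)
    {ζ : (𝓞 K)ˣ} (hζ : ζ ∈ torsion K) : (ζ : 𝓞 K) * a ∈ coneSet K J 0 Y := by
  rw [ps_mem_coneSet_zero] at ha ⊢
  obtain ⟨h1, h2, h3⟩ := ha
  refine ⟨J.mul_mem_left _ h1, ?_, ?_⟩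
  · rw [ps_mixedEmbedding_unit_mul]
    exact torsion_smul_mem_of_mem h2 hζ
  · rw [ps_mixedEmbedding_unit_mul, norm_unit_smul]
    exact h3

/-- Two elements of the fundamental cone generating the same ideal differ by a root of unity. -/
theorem ps_exists_torsion_of_span_eq {a b : 𝓞 K}
    (ha : mixedEmbedding K (a : K) ∈ fundamentalCone K)
    (hb : mixedEmbedding K (b : K) ∈ fundamentalCone K) (h : span {a} = span {b}) :
    ∃ ζ : (𝓞 K)ˣ, ζ ∈ torsion K ∧ (ζ : 𝓞 K) * a = b := by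
  obtain ⟨u, hu⟩ := Ideal.span_singleton_eq_span_singleton.mp h
  refine ⟨u, ?_, by rw [mul_comm]; exact hu⟩
  rw [← unit_smul_mem_iff_mem_torsion ha, ← ps_mixedEmbedding_unit_mul, mul_comm, hu]
  exact hb

/-- Every nonzero principal ideal `I ≤ J` of norm `≤ Y` has a generator in `coneSet K J 0 Y`. -/
theorem ps_exists_mem_coneSet {J : Ideal (𝓞 K)} {Y : ℝ} {I : Ideal (𝓞 K)}
    (hI : I ∈ ps_idealSet K J Y) : ∃ a ∈ coneSet K J 0 Y, span {a} = I := by
  obtain ⟨h0, hle, ⟨⟨b, rfl⟩⟩, hY⟩ := hI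
  have hb0 : b ≠ 0 := fun h => h0 (by rw [h]; simp)
  have hnorm : mixedEmbedding.norm (mixedEmbedding K (b : K)) ≠ 0 := by
    rw [Ne, norm_eq_zero_iff' ⟨(b : K), rfl⟩, map_eq_zero]
    exact RingOfIntegers.coe_ne_zero_iff.mpr hb0
  obtain ⟨u, hu⟩ := exists_unit_smul_mem hnorm
  have hspan : span {(u : 𝓞 K) * b} = span {b} := by
    rw [Ideal.span_singleton_eq_span_singleton]
    exact ⟨u⁻¹, by rw [mul_comm, ← mul_assoc]; simp⟩
  refine ⟨(u : 𝓞 K) * b, ?_, hspan⟩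
  rw [ps_mem_coneSet_zero]
  refine ⟨hle (Submodule.mem_span_singleton.mpr ⟨(u : 𝓞 K), rfl⟩), ?_, ?_⟩
  · rw [ps_mixedEmbedding_unit_mul]; exact hu
  · rw [ps_norm_eq_absNorm, hspan]; exact hY

/-- The fibre of `a ↦ (a)` on `coneSet K J 0 Y` through `a₀` is the orbit of `a₀` under the roots
of unity. -/
theorem ps_fiber_eq {J : Ideal (𝓞 K)} {Y : ℝ} {a₀ : 𝓞 K} (ha₀ : a₀ ∈ coneSet K J 0 Y) :
    {a | a ∈ coneSet K J 0 Y ∧ span {a} = span {a₀}} =
      Set.range (fun ζ : torsion K => ((ζ : (𝓞 K)ˣ) : 𝓞 K) * a₀) := by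
  ext a
  constructor
  · rintro ⟨ha, hspan⟩
    obtain ⟨ζ, hζ, h⟩ := ps_exists_torsion_of_span_eq K ((ps_mem_coneSet_zero K).mp ha₀).2.1
      ((ps_mem_coneSet_zero K).mp ha).2.1 hspan.symm
    exact ⟨⟨ζ, hζ⟩, h⟩
  · rintro ⟨ζ, rfl⟩
    refine ⟨ps_torsion_mul_mem K ha₀ ζ.2, ?_⟩
    rw [Ideal.span_singleton_eq_span_singleton]
    exact ⟨(ζ : (𝓞 K)ˣ)⁻¹, by rw [mul_comm, ← mul_assoc]; simp⟩

theorem ps_torsion_mul_injective {a₀ : 𝓞 K} (ha₀ : a₀ ≠ 0) :
    Function.Injective (fun ζ : torsion K => ((ζ : (𝓞 K)ˣ) : 𝓞 K) * a₀) := by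
  intro ζ ξ h
  have := mul_right_cancel₀ ha₀ h
  exact Subtype.ext (Units.ext this)

/-- `coneSet K J 0 Y` is finite. -/
theorem ps_cone_finite (J : Ideal (𝓞 K)) (Y : ℝ) : (coneSet K J 0 Y).Finite := by
  refine Set.Finite.of_finite_fibers (fun a => span {a}) ?_ ?_
  · refine (ps_ideal_finite K J Y).subset ?_
    rintro _ ⟨a, ha, rfl⟩
    exact ps_span_mem K ha
  · rintro _ ⟨a₀, ha₀, rfl⟩
    have : coneSet K J 0 Y ∩ (fun a => span {a}) ⁻¹' {span {a₀}} =
        {a | a ∈ coneSet K J 0 Y ∧ span {a} = span {a₀}} := by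
      ext a; simp
    rw [this, ps_fiber_eq K ha₀]
    exact Set.finite_range _

/-- All fibres of `a ↦ (a)` on `coneSet K J 0 Y` have `torsionOrder K` elements. -/
theorem ps_card_fiber {J : Ideal (𝓞 K)} {Y : ℝ} {I : Ideal (𝓞 K)}
    (hI : I ∈ ps_idealSet K J Y) :
    ((ps_cone_finite K J Y).toFinset.filter (fun a => span {a} = I)).card = torsionOrder K := by
  obtain ⟨a₀, ha₀, rfl⟩ := ps_exists_mem_coneSet K hI
  have ha₀0 : a₀ ≠ 0 := ps_ne_zero_of_mem_cone K ((ps_mem_coneSet_zero K).mp ha₀).2.1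
  have hset : (((ps_cone_finite K J Y).toFinset.filter (fun a => span {a} = span {a₀}) :
      Finset (𝓞 K)) : Set (𝓞 K)) =
      Set.range (fun ζ : torsion K => ((ζ : (𝓞 K)ˣ) : 𝓞 K) * a₀) := by
    rw [Finset.coe_filter, ← ps_fiber_eq K ha₀]
    ext a
    simp
  rw [← Set.ncard_coe_finset, hset, ← Set.image_univ,
    Set.ncard_image_of_injective _ (ps_torsion_mul_injective K ha₀0), Set.ncard_univ, torsionOrder]

/-- **Torsion multiplicity.** Summing `G (a)` over the generators `a ∈ J` in the fundamental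
cone of norm `≤ Y` counts every nonzero principal ideal `I ≤ J` of norm `≤ Y` exactly
`torsionOrder K` times. -/
theorem ps_sum_coneSet {M : Type*} [AddCommMonoid M] (J : Ideal (𝓞 K)) (Y : ℝ)
    (G : Ideal (𝓞 K) → M) :
    ∑ a ∈ (ps_cone_finite K J Y).toFinset, G (span {a}) =
      torsionOrder K • ∑ I ∈ (ps_ideal_finite K J Y).toFinset, G I := by
  rw [← Finset.sum_fiberwise_of_maps_to (s := (ps_cone_finite K J Y).toFinset)
    (t := (ps_ideal_finite K J Y).toFinset) (g := fun a => span {a})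
    (fun a ha => by
      rw [Set.Finite.mem_toFinset] at ha ⊢
      exact ps_span_mem K ha), Finset.smul_sum]
  refine Finset.sum_congr rfl fun I hI => ?_
  rw [Set.Finite.mem_toFinset] at hI
  rw [← ps_card_fiber K hI, ← Finset.sum_const]
  refine Finset.sum_congr rfl fun a ha => ?_
  rw [(Finset.mem_filter.mp ha).2]

/-- Complex-valued form of `ps_sum_coneSet`. -/
theorem ps_sum_coneSet_complex (J : Ideal (𝓞 K)) (Y : ℝ) (G : Ideal (𝓞 K) → ℂ) :
    ∑ a ∈ (ps_cone_finite K J Y).toFinset, G (span {a}) =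
      (torsionOrder K : ℂ) * ∑ I ∈ (ps_ideal_finite K J Y).toFinset, G I := by
  rw [ps_sum_coneSet, nsmul_eq_mul]

/-- `finsum` form of `ps_sum_coneSet`. -/
theorem ps_finsum_coneSet {M : Type*} [AddCommMonoid M] (J : Ideal (𝓞 K)) (Y : ℝ)
    (G : Ideal (𝓞 K) → M) :
    ∑ᶠ a ∈ coneSet K J 0 Y, G (span {a}) = torsionOrder K • ∑ᶠ I ∈ ps_idealSet K J Y, G I := by
  rw [finsum_mem_eq_finite_toFinset_sum _ (ps_cone_finite K J Y),
    finsum_mem_eq_finite_toFinset_sum _ (ps_ideal_finite K J Y), ps_sum_coneSet]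

/-- Cardinality form: `#coneSet K J 0 Y = torsionOrder K * #{principal I ≤ J, N I ≤ Y}`. -/
theorem ps_ncard_coneSet (J : Ideal (𝓞 K)) (Y : ℝ) :
    (coneSet K J 0 Y).ncard = torsionOrder K * (ps_idealSet K J Y).ncard := by
  have h := ps_sum_coneSet K J Y (fun _ => (1 : ℕ))
  simp only [Finset.sum_const, smul_eq_mul, mul_one] at h
  rw [Set.ncard_eq_toFinset_card _ (ps_cone_finite K J Y),
    Set.ncard_eq_toFinset_card _ (ps_ideal_finite K J Y)]
  exact h

end Fermat.Agent.S14
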